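import Fermat.Agent.S13.Defs

/-!
# S13-I: inertia elements are `IsInertial`; existence of a valuation subring over `ℓ`
-/

set_option autoImplicit false

namespace Fermat.Agent.S13

open Polynomial WeierstrassCurve WeierstrassCurve.Affine

local notation "Qbar" => AlgebraicClosure ℚ

/-- Elements of the inertia group stabilise `A` and act trivially modulo the maximal ideal. -/
theorem inertia_mem_and_sub_mem (A : ValuationSubring Qbar) (σ : Qbar ≃ₐ[ℚ] Qbar)
    (hσ : σ ∈ A.inertiaSubgroupIn ℚ) :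
    (∀ a : Qbar, a ∈ A → σ a ∈ A) ∧ (∀ a : Qbar, a ∈ A → σ a - a ∈ A.nonunits) := by
  obtain ⟨τ, hτ, rfl⟩ := hσ
  have hmem : ∀ a : Qbar, a ∈ A → (τ : Qbar ≃ₐ[ℚ] Qbar) a ∈ A := by
    intro a ha
    exact ((A.subMulAction ℚ).smul_mem τ ha)
  refine ⟨hmem, ?_⟩
  intro a ha
  have h1 : MulSemiringAction.toRingAut (A.decompositionSubgroup ℚ)
      (IsLocalRing.ResidueField A) τ = 1 := hτ
  have h2 := congrArg (fun f => f (IsLocalRing.residue A ⟨a, ha⟩)) h1
  simp only [RingAut.one_apply] at h2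
  have h3 : IsLocalRing.residue A (τ • (⟨a, ha⟩ : A)) = IsLocalRing.residue A ⟨a, ha⟩ := h2
  rw [← sub_eq_zero, ← map_sub, IsLocalRing.residue_eq_zero_iff] at h3
  exact ValuationSubring.coe_mem_nonunits_iff.mpr h3

/-- Every element of `Qbar` is fixed by a positive power of a given automorphism. -/
theorem exists_pow_apply_eq_self (σ : Qbar ≃ₐ[ℚ] Qbar) (z : Qbar) :
    ∃ m : ℕ, 0 < m ∧ (σ ^ m) z = z := by
  have halg : Algebra.IsAlgebraic ℚ Qbar := AlgebraicClosure.isAlgebraic ℚ
  have hz : IsIntegral ℚ z := (halg.isAlgebraic z).isIntegral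
  have hne : minpoly ℚ z ≠ 0 := minpoly.ne_zero hz
  have hfin : Finite ((minpoly ℚ z).rootSet Qbar) := (Polynomial.rootSet_finite _ _).to_subtype
  let f : ℕ → (minpoly ℚ z).rootSet Qbar := fun k =>
    ⟨(σ ^ k) z, by
      rw [Polynomial.mem_rootSet]
      refine ⟨hne, ?_⟩
      rw [Polynomial.aeval_algHom_apply, minpoly.aeval, map_zero]⟩
  obtain ⟨i, j, hij, hf⟩ := Finite.exists_ne_map_eq_of_infinite f
  have hf' : (σ ^ i) z = (σ ^ j) z := congrArg Subtype.val hf
  have key : ∀ a b : ℕ, a < b → (σ ^ a) z = (σ ^ b) z → ∃ m : ℕ, 0 < m ∧ (σ ^ m) z = z := by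
    intro a b hab h
    refine ⟨b - a, by omega, ?_⟩
    have hb : σ ^ b = σ ^ a * σ ^ (b - a) := by rw [← pow_add]; congr 1; omega
    rw [hb, AlgEquiv.mul_apply] at h
    exact ((σ ^ a).injective h).symm
  rcases lt_or_gt_of_ne hij with h | h
  · exact key i j h hf'
  · exact key j i h hf'.symm

theorem isInertial_of_mem_inertia (A : ValuationSubring Qbar) (σ : Qbar ≃ₐ[ℚ] Qbar)
    (hσ : σ ∈ A.inertiaSubgroupIn ℚ) : IsInertial A.valuation (σ : Qbar →+* Qbar) := by
  obtain ⟨h1, h2⟩ := inertia_mem_and_sub_mem A σ hσ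
  obtain ⟨h1', -⟩ := inertia_mem_and_sub_mem A σ⁻¹ (inv_mem hσ)
  have hiff : ∀ a : Qbar, a ∈ A ↔ σ a ∈ A := by
    intro a
    refine ⟨h1 a, fun h => ?_⟩
    have := h1' _ h
    rwa [← AlgEquiv.mul_apply, inv_mul_cancel, AlgEquiv.one_apply] at this
  have heq : A.valuation.IsEquiv (A.valuation.comap (σ : Qbar →+* Qbar)) := by
    rw [Valuation.isEquiv_iff_val_le_one]
    intro x
    rw [Valuation.comap_apply, ValuationSubring.valuation_le_one_iff,
      ValuationSubring.valuation_le_one_iff]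
    exact hiff x
  have hle : ∀ a b : Qbar, A.valuation a ≤ A.valuation b ↔ A.valuation (σ a) ≤ A.valuation (σ b) :=
    fun a b => heq a b
  have hlt : ∀ a b : Qbar, A.valuation a < A.valuation b ↔ A.valuation (σ a) < A.valuation (σ b) := by
    intro a b
    rw [← not_le, ← not_le, hle b a]
  refine ⟨?_, ?_⟩
  · intro z
    show A.valuation (σ z) = A.valuation z
    obtain ⟨m, hm, hmz⟩ := exists_pow_apply_eq_self σ z
    have hsucc : ∀ k : ℕ, (σ ^ (k + 1)) z = σ ((σ ^ k) z) := by
      intro k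
      rw [pow_succ', AlgEquiv.mul_apply]
    rcases lt_trichotomy (A.valuation (σ z)) (A.valuation z) with h | h | h
    · exfalso
      have hstep : ∀ k : ℕ, A.valuation ((σ ^ (k + 1)) z) < A.valuation z := by
        intro k
        induction k with
        | zero => simpa using h
        | succ k ih =>
          rw [hsucc]
          exact lt_trans ((hlt _ _).mp ih) h
      obtain ⟨k, rfl⟩ : ∃ k, m = k + 1 := ⟨m - 1, by omega⟩
      have := hstep k
      rw [hmz] at this
      exact lt_irrefl _ this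
    · exact h
    · exfalso
      have hstep : ∀ k : ℕ, A.valuation z < A.valuation ((σ ^ (k + 1)) z) := by
        intro k
        induction k with
        | zero => simpa using h
        | succ k ih =>
          rw [hsucc]
          exact lt_trans h ((hlt _ _).mp ih)
      obtain ⟨k, rfl⟩ : ∃ k, m = k + 1 := ⟨m - 1, by omega⟩
      have := hstep k
      rw [hmz] at this
      exact lt_irrefl _ this
  · intro z hz
    show A.valuation (σ z - z) < 1
    exact (ValuationSubring.mem_nonunits_iff A).mp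
      (h2 z ((ValuationSubring.valuation_le_one_iff A z).mp hz))

theorem exists_valuationSubring_liesOver (ℓ : ℕ) (hℓ : ℓ.Prime) :
    ∃ A : ValuationSubring Qbar, A.LiesOverPrime ℓ := by
  let R : Subring Qbar := (Int.castRingHom Qbar).range
  let l : R := ⟨(ℓ : Qbar), ⟨(ℓ : ℤ), by simp⟩⟩
  have hne : Ideal.span {l} ≠ ⊤ := by
    rw [Ne, Ideal.span_singleton_eq_top]
    intro hu
    obtain ⟨⟨_, n, rfl⟩, hn⟩ := hu.exists_right_inv
    have h1 : ((ℓ : ℤ) : Qbar) * ((n : ℤ) : Qbar) = 1 := by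
      simpa [l] using congrArg Subtype.val hn
    have h2 : (ℓ : ℤ) * n = 1 := by exact_mod_cast h1
    have h3 : IsUnit (ℓ : ℤ) := IsUnit.of_mul_eq_one _ h2
    exact (Nat.prime_iff_prime_int.mp hℓ).not_isUnit h3
  obtain ⟨A, -, hA⟩ := Ideal.image_subset_nonunits_valuationSubring _ hne
  exact ⟨A, hA ⟨l, Ideal.subset_span rfl, rfl⟩⟩

end Fermat.Agent.S13
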