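import Fermat.Agent.S13.Defs

/-!
# S13: the ladder theorem  `x (n • P) = (ladF W n (x P) : ladG W n (x P))`
-/

set_option autoImplicit false

namespace Fermat.Agent.S13

open Polynomial WeierstrassCurve WeierstrassCurve.Affine

section Identities

variable {F : Type*} [Field F] [DecidableEq F] {W : WeierstrassCurve.Affine F}

/-- `ψ₂² = Ψ₂Sq` on the curve. -/
lemma psi_sq {x y : F} (h : W.Equation x y) :
    (2 * y + W.a₁ * x + W.a₃) ^ 2 = 4 * x ^ 3 + W.b₂ * x ^ 2 + 2 * W.b₄ * x + W.b₆ := by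
  rw [equation_iff] at h
  simp only [WeierstrassCurve.b₂, WeierstrassCurve.b₄, WeierstrassCurve.b₆]
  linear_combination 4 * h

/-- numerator identity for doubling. -/
lemma dbl_num {x y : F} (h : W.Equation x y) :
    (3 * x ^ 2 + 2 * W.a₂ * x + W.a₄ - W.a₁ * y) ^ 2
      + W.a₁ * (3 * x ^ 2 + 2 * W.a₂ * x + W.a₄ - W.a₁ * y) * (2 * y + W.a₁ * x + W.a₃)
      - (W.a₂ + 2 * x) * (2 * y + W.a₁ * x + W.a₃) ^ 2
    = x ^ 4 - W.b₄ * x ^ 2 - 2 * W.b₆ * x - W.b₈ := by
  rw [equation_iff] at h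
  simp only [WeierstrassCurve.b₂, WeierstrassCurve.b₄, WeierstrassCurve.b₆, WeierstrassCurve.b₈]
  linear_combination (-(W.a₁ ^ 2 + 4 * W.a₂ + 8 * x)) * h

/-- (I1) doubling in terms of `xRep`. -/
lemma dbl_xRep (Q : W.Point) : ∃ c : F, c ≠ 0 ∧
    (Q.xRep 0) ^ 4 - W.b₄ * (Q.xRep 0) ^ 2 * (Q.xRep 1) ^ 2 - 2 * W.b₆ * (Q.xRep 0) * (Q.xRep 1) ^ 3
        - W.b₈ * (Q.xRep 1) ^ 4 = c * (Q + Q).xRep 0 ∧
    (Q.xRep 1) * (4 * (Q.xRep 0) ^ 3 + W.b₂ * (Q.xRep 0) ^ 2 * (Q.xRep 1)
        + 2 * W.b₄ * (Q.xRep 0) * (Q.xRep 1) ^ 2 + W.b₆ * (Q.xRep 1) ^ 3) = c * (Q + Q).xRep 1 := by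
  rcases Q with _ | ⟨x, y, h⟩
  · refine ⟨1, one_ne_zero, ?_, ?_⟩ <;>
    simp [← Point.zero_def, Point.xRep_zero]
  · have hE := h.1
    by_cases hy : y = W.negY x y
    · rw [Point.add_self_of_Y_eq hy]
      have hpsi : 2 * y + W.a₁ * x + W.a₃ = 0 := by
        rw [negY] at hy; linear_combination hy
      have h1 := psi_sq hE
      have h2 := dbl_num hE
      rw [hpsi] at h1 h2
      have hns : 3 * x ^ 2 + 2 * W.a₂ * x + W.a₄ - W.a₁ * y ≠ 0 := by
        have := (nonsingular_iff x y).1 h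
        rcases this.2 with h3 | h3
        · intro h4; apply h3; linear_combination -h4
        · exact absurd (by rw [negY] at hy; exact hy) h3
      refine ⟨(3 * x ^ 2 + 2 * W.a₂ * x + W.a₄ - W.a₁ * y) ^ 2, pow_ne_zero 2 hns, ?_, ?_⟩
      · simp only [Point.xRep_some, Point.xRep_zero, Matrix.cons_val_zero, Matrix.cons_val_one]
        linear_combination -h2
      · simp only [Point.xRep_some, Point.xRep_zero, Matrix.cons_val_zero, Matrix.cons_val_one]
        linear_combination -h1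
    · rw [Point.add_self_of_Y_ne hy]
      have hpsi : 2 * y + W.a₁ * x + W.a₃ ≠ 0 := by
        intro h0; apply hy; rw [negY]; linear_combination h0
      have h1 := psi_sq hE
      have h2 := dbl_num hE
      refine ⟨(2 * y + W.a₁ * x + W.a₃) ^ 2, pow_ne_zero 2 hpsi, ?_, ?_⟩
      · simp only [Point.xRep_some, Matrix.cons_val_zero, Matrix.cons_val_one]
        rw [slope_of_Y_ne rfl hy, addX]
        have hd : y - W.negY x y = 2 * y + W.a₁ * x + W.a₃ := by rw [negY]; ring
        rw [hd]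
        have hl : (3 * x ^ 2 + 2 * W.a₂ * x + W.a₄ - W.a₁ * y) / (2 * y + W.a₁ * x + W.a₃)
            * (2 * y + W.a₁ * x + W.a₃) = 3 * x ^ 2 + 2 * W.a₂ * x + W.a₄ - W.a₁ * y :=
          div_mul_cancel₀ _ hpsi
        generalize (3 * x ^ 2 + 2 * W.a₂ * x + W.a₄ - W.a₁ * y) / (2 * y + W.a₁ * x + W.a₃) = l at hl
        linear_combination -h2 - (l * (2 * y + W.a₁ * x + W.a₃)
          + (3 * x ^ 2 + 2 * W.a₂ * x + W.a₄ - W.a₁ * y) + W.a₁ * (2 * y + W.a₁ * x + W.a₃)) * hl
      · simp only [Point.xRep_some, Matrix.cons_val_zero, Matrix.cons_val_one]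
        linear_combination -h1

/-- (I2) `x(A+B) + x(B-A)`. -/
lemma add_sub_x {x₁ y₁ x₂ y₂ : F} (h₁ : W.Equation x₁ y₁) (h₂ : W.Equation x₂ y₂) (hx : x₁ ≠ x₂) :
    (W.addX x₁ x₂ (W.slope x₁ x₂ y₁ y₂) + W.addX x₂ x₁ (W.slope x₂ x₁ y₂ (W.negY x₁ y₁)))
      * (x₁ - x₂) ^ 2
    = 2 * (x₁ + x₂) * (x₁ * x₂) + W.b₂ * (x₁ * x₂) + W.b₄ * (x₁ + x₂) + W.b₆ := by
  rw [slope_of_X_ne hx, slope_of_X_ne hx.symm, addX, addX, negY]
  rw [equation_iff] at h₁ h₂
  have hp : (y₁ - y₂) / (x₁ - x₂) * (x₁ - x₂) = y₁ - y₂ := div_mul_cancel₀ _ (sub_ne_zero.2 hx)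
  have hq : (y₂ - (-y₁ - W.a₁ * x₁ - W.a₃)) / (x₂ - x₁) * (x₂ - x₁) = y₂ - (-y₁ - W.a₁ * x₁ - W.a₃) :=
    div_mul_cancel₀ _ (sub_ne_zero.2 hx.symm)
  generalize (y₁ - y₂) / (x₁ - x₂) = l at hp
  generalize (y₂ - (-y₁ - W.a₁ * x₁ - W.a₃)) / (x₂ - x₁) = l' at hq
  simp only [WeierstrassCurve.b₂, WeierstrassCurve.b₄, WeierstrassCurve.b₆]
  linear_combination (l * (x₁ - x₂) + (y₁ - y₂) + W.a₁ * (x₁ - x₂)) * hp
    + (l' * (x₂ - x₁) + (y₂ + y₁ + W.a₁ * x₁ + W.a₃) - W.a₁ * (x₁ - x₂)) * hq + 2 * h₁ + 2 * h₂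

/-- (I2) in terms of `xRep`: differential addition. -/
lemma add_xRep (A B : W.Point) {x y : F} (h : W.Nonsingular x y) (hBA : B = A + Point.some x y h) :
    ∃ c : F, c ≠ 0 ∧
    2 * A.xRep 0 * B.xRep 0 * (B.xRep 0 * A.xRep 1 + A.xRep 0 * B.xRep 1)
      + W.b₂ * A.xRep 0 * B.xRep 0 * A.xRep 1 * B.xRep 1
      + W.b₄ * (B.xRep 0 * A.xRep 1 + A.xRep 0 * B.xRep 1) * A.xRep 1 * B.xRep 1
      + W.b₆ * A.xRep 1 ^ 2 * B.xRep 1 ^ 2 - x * (B.xRep 0 * A.xRep 1 - A.xRep 0 * B.xRep 1) ^ 2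
      = c * (A + B).xRep 0 ∧
    (B.xRep 0 * A.xRep 1 - A.xRep 0 * B.xRep 1) ^ 2 = c * (A + B).xRep 1 := by
  rcases A with _ | ⟨x₁, y₁, h₁⟩
  · have hB : B = Point.some x y h := by rw [hBA, ← Point.zero_def, zero_add]
    subst hB
    refine ⟨1, one_ne_zero, ?_, ?_⟩ <;>
    simp [← Point.zero_def, Point.xRep_zero, Point.xRep_some] <;> ring
  · rcases B with _ | ⟨x₂, y₂, h₂⟩
    · have hA : Point.some x₁ y₁ h₁ = - Point.some x y h := by
        rw [← Point.zero_def] at hBA
        exact eq_neg_of_add_eq_zero_left hBA.symm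
      rw [Point.neg_some] at hA
      have hxx : x₁ = x := by injection hA
      subst hxx
      refine ⟨1, one_ne_zero, ?_, ?_⟩ <;>
      simp [← Point.zero_def, Point.xRep_zero, Point.xRep_some] <;> ring
    · by_cases hx : x₁ = x₂
      · subst hx
        have hy : y₁ = W.negY x₁ y₂ := by
          rcases Y_eq_of_X_eq h₁.1 h₂.1 rfl with hy | hy
          · exfalso
            subst hy
            have : Point.some x y h = 0 := by
              have := hBA
              exact (add_eq_left.1 this.symm)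
            exact Point.some_ne_zero h this
          · exact hy
        rw [Point.add_of_Y_eq rfl hy]
        have hne : y₁ ≠ W.negY x₁ y₁ := by
          intro h0
          have h3 : y₁ = y₂ := by
            rw [hy] at h0 ⊢
            rw [negY_negY] at h0
            rw [h0] ; 
          subst h3
          have : Point.some x y h = 0 := add_eq_left.1 hBA.symm
          exact Point.some_ne_zero h this
        have hpsi : 2 * y₁ + W.a₁ * x₁ + W.a₃ ≠ 0 := by
          intro h0; apply hne; rw [negY]; linear_combination h0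
        refine ⟨(2 * y₁ + W.a₁ * x₁ + W.a₃) ^ 2, pow_ne_zero 2 hpsi, ?_, ?_⟩
        · simp only [Point.xRep_some, Point.xRep_zero, Matrix.cons_val_zero, Matrix.cons_val_one]
          rw [psi_sq h₁.1]; ring
        · simp only [Point.xRep_some, Point.xRep_zero, Matrix.cons_val_zero, Matrix.cons_val_one]
          ring
      · have hsub : Point.some x₂ y₂ h₂ + (- Point.some x₁ y₁ h₁) = Point.some x y h := by
          rw [hBA]; abel
        rw [Point.neg_some, Point.add_of_X_ne (Ne.symm hx)] at hsub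
        have hxx : W.addX x₂ x₁ (W.slope x₂ x₁ y₂ (W.negY x₁ y₁)) = x := by injection hsub
        have key := add_sub_x h₁.1 h₂.1 hx
        rw [hxx] at key
        rw [Point.add_of_X_ne hx]
        refine ⟨(x₁ - x₂) ^ 2, pow_ne_zero 2 (sub_ne_zero.2 hx), ?_, ?_⟩
        · simp only [Point.xRep_some, Matrix.cons_val_zero, Matrix.cons_val_one]
          linear_combination -key
        · simp only [Point.xRep_some, Matrix.cons_val_zero, Matrix.cons_val_one]
          ring

end Identities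

section Spec

variable {F : Type*} [Field F] [DecidableEq F] (W : WeierstrassCurve F)

/-- **The ladder theorem**: `x (n • P) = (ladF W n (x P) : ladG W n (x P))` in `ℙ¹`. -/
theorem ladder_spec {x y : F} (h : W.toAffine.Nonsingular x y) (n : ℕ) :
    ∃ c : F, c ≠ 0 ∧
      (ladF W n).eval x = c * (n • (Point.some x y h : W.toAffine.Point)).xRep 0 ∧
      (ladG W n).eval x = c * (n • (Point.some x y h : W.toAffine.Point)).xRep 1 := by
  induction n using Nat.strong_induction_on with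
  | _ n ih =>
    rcases Nat.lt_or_ge n 2 with hn | hn
    · interval_cases n
      · exact ⟨1, one_ne_zero, by simp [ladF_zero, Point.xRep_zero], by simp [ladG_zero, Point.xRep_zero]⟩
      · exact ⟨1, one_ne_zero, by simp [ladF_one, Point.xRep_some], by simp [ladG_one, Point.xRep_some]⟩
    · rcases Nat.even_or_odd' n with ⟨m, rfl | rfl⟩
      · have hm : 1 ≤ m := by omega
        obtain ⟨c, hc, hf, hg⟩ := ih m (by omega)
        obtain ⟨c', hc', hf', hg'⟩ := dbl_xRep (m • (Point.some x y h : W.toAffine.Point))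
        rw [two_mul, add_smul, ← two_mul, ladF_two_mul W m hm, ladG_two_mul W m hm]
        refine ⟨c ^ 4 * c', mul_ne_zero (pow_ne_zero 4 hc) hc', ?_, ?_⟩
        · simp only [dblF, eval_sub, eval_mul, eval_pow, eval_C, eval_ofNat, hf, hg]
          linear_combination c ^ 4 * hf'
        · simp only [dblG, eval_add, eval_mul, eval_pow, eval_C, eval_ofNat, hf, hg]
          linear_combination c ^ 4 * hg'
      · have hm : 1 ≤ m := by omega
        obtain ⟨c, hc, hf, hg⟩ := ih m (by omega)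
        obtain ⟨d, hd, hf₁, hg₁⟩ := ih (m + 1) (by omega)
        obtain ⟨c', hc', hf', hg'⟩ := add_xRep (m • (Point.some x y h : W.toAffine.Point))
          ((m + 1) • (Point.some x y h : W.toAffine.Point)) h (by rw [add_smul, one_smul])
        have hsum : (2 * m + 1) • (Point.some x y h : W.toAffine.Point)
            = m • (Point.some x y h : W.toAffine.Point) + (m + 1) • (Point.some x y h : W.toAffine.Point) := by
          rw [← add_smul]; congr 1; ring
        rw [hsum, ladF_two_mul_add_one W m hm, ladG_two_mul_add_one W m hm]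
        refine ⟨(c * d) ^ 2 * c', mul_ne_zero (pow_ne_zero 2 (mul_ne_zero hc hd)) hc', ?_, ?_⟩
        · simp only [addF, addH, eval_add, eval_sub, eval_mul, eval_pow, eval_C, eval_ofNat, eval_X,
            hf, hg, hf₁, hg₁]
          linear_combination (c * d) ^ 2 * hf'
        · simp only [hpoly, addH, eval_sub, eval_mul, eval_pow, hf, hg, hf₁, hg₁]
          linear_combination (c * d) ^ 2 * hg'

/-- Torsion criterion. -/
theorem smul_eq_zero_iff {x y : F} (h : W.toAffine.Nonsingular x y) (m : ℕ) (hm : 1 ≤ m) :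
    (2 * m + 1) • (Point.some x y h : W.toAffine.Point) = 0 ↔ (hpoly W m).eval x = 0 := by
  obtain ⟨c, hc, -, hg⟩ := ladder_spec W h (2 * m + 1)
  rw [ladG_two_mul_add_one W m hm, eval_pow] at hg
  constructor
  · intro h0
    rw [h0, Point.xRep_zero] at hg
    simpa using hg
  · intro h0
    rw [h0] at hg
    rcases hP : (2 * m + 1) • (Point.some x y h : W.toAffine.Point) with _ | ⟨x', y', h'⟩
    · rfl
    · rw [hP, Point.xRep_some] at hg
      simp at hg
      exact absurd hg.symm hc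

end Spec

end Fermat.Agent.S13
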