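import Fermat.Agent.S13.Defs2
import Fermat.Agent.S13.Ladder

/-!
# S13-Ldeg: degree, top coefficient and base change of the ladder polynomials
-/

set_option autoImplicit false

namespace Fermat.Agent.S13

open Polynomial WeierstrassCurve WeierstrassCurve.Affine

section Top

variable {R : Type*} [CommRing R]

/-- `p` has degree at most `d` and its coefficient of degree `d` is `c`. -/
def Top (p : R[X]) (d : ℕ) (c : R) : Prop := p.natDegree ≤ d ∧ p.coeff d = c

namespace Top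

variable {p q : R[X]} {d e : ℕ} {c c' : R}

lemma mul (hp : Top p d c) (hq : Top q e c') : Top (p * q) (d + e) (c * c') :=
  ⟨natDegree_mul_le_of_le hp.1 hq.1, by rw [coeff_mul_add_eq_of_natDegree_le hp.1 hq.1, hp.2, hq.2]⟩

lemma pow (hp : Top p d c) (n : ℕ) : Top (p ^ n) (n * d) (c ^ n) :=
  ⟨natDegree_pow_le_of_le n hp.1, by rw [coeff_pow_of_natDegree_le hp.1, hp.2]⟩

lemma add (hp : Top p d c) (hq : Top q d c') : Top (p + q) d (c + c') :=
  ⟨natDegree_add_le_of_degree_le hp.1 hq.1, by rw [coeff_add, hp.2, hq.2]⟩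

lemma sub (hp : Top p d c) (hq : Top q d c') : Top (p - q) d (c - c') :=
  ⟨(natDegree_sub_le_of_le hp.1 hq.1).trans (max_self d).le, by rw [coeff_sub, hp.2, hq.2]⟩

lemma low (hp : p.natDegree < e) : Top p e 0 :=
  ⟨hp.le, coeff_eq_zero_of_natDegree_lt hp⟩

lemma congr (hp : Top p d c) (hd : d = e) (hc : c = c') : Top p e c' := hd ▸ hc ▸ hp

lemma natCast (n : ℕ) : Top ((n : R[X])) 0 (n : R) :=
  ⟨(natDegree_natCast n).le, by simp⟩

lemma X' : Top (X : R[X]) 1 1 := ⟨natDegree_X_le, coeff_X_one⟩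

lemma one' : Top (1 : R[X]) 0 1 := ⟨natDegree_one.le, coeff_one_zero⟩

end Top

end Top

variable {R : Type*} [CommRing R] (W : WeierstrassCurve R)

private lemma two_le : ((2 : R[X])).natDegree ≤ 0 := by
  simp

lemma dblF_top {f g : R[X]} {s : ℕ} {c : R} (hs : 1 ≤ s) (hf : Top f s 1) (hg : Top g (s - 1) c) :
    Top (dblF W f g) (4 * s) 1 := by
  have h1 : Top (f ^ 4) (4 * s) 1 := (hf.pow 4).congr rfl (one_pow 4)
  have h2 : (C W.b₄ * f ^ 2 * g ^ 2).natDegree ≤ 0 + 2 * s + 2 * (s - 1) :=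
    natDegree_mul_le_of_le (natDegree_mul_le_of_le (natDegree_C _).le
      (natDegree_pow_le_of_le 2 hf.1)) (natDegree_pow_le_of_le 2 hg.1)
  have h3 : (2 * C W.b₆ * f * g ^ 3).natDegree ≤ 0 + 0 + s + 3 * (s - 1) :=
    natDegree_mul_le_of_le (natDegree_mul_le_of_le (natDegree_mul_le_of_le two_le
      (natDegree_C _).le) hf.1) (natDegree_pow_le_of_le 3 hg.1)
  have h4 : (C W.b₈ * g ^ 4).natDegree ≤ 0 + 4 * (s - 1) :=
    natDegree_mul_le_of_le (natDegree_C _).le (natDegree_pow_le_of_le 4 hg.1)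
  have := ((h1.sub (Top.low (e := 4 * s) (by omega : _ < _) : Top (C W.b₄ * f ^ 2 * g ^ 2) _ 0)).sub
    (Top.low (e := 4 * s) (by omega : _ < _) : Top (2 * C W.b₆ * f * g ^ 3) _ 0)).sub
    (Top.low (e := 4 * s) (by omega : _ < _) : Top (C W.b₈ * g ^ 4) _ 0)
  exact this.congr rfl (by ring)

lemma dblG_top {f g : R[X]} {s : ℕ} {c : R} (hs : 1 ≤ s) (hf : Top f s 1) (hg : Top g (s - 1) c) :
    Top (dblG W f g) (4 * s - 1) (4 * c) := by
  have h1 : Top (4 * f ^ 3) (3 * s) 4 := by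
    have h := (Top.natCast (R := R) 4).mul (hf.pow 3)
    have h' : Top (4 * f ^ 3) (0 + 3 * s) (((4 : ℕ) : R) * 1 ^ 3) := by simpa using h
    exact h'.congr (by omega) (by norm_num)
  have h2 : (C W.b₂ * f ^ 2 * g).natDegree ≤ 0 + 2 * s + (s - 1) :=
    natDegree_mul_le_of_le (natDegree_mul_le_of_le (natDegree_C _).le
      (natDegree_pow_le_of_le 2 hf.1)) hg.1
  have h3 : (2 * C W.b₄ * f * g ^ 2).natDegree ≤ 0 + 0 + s + 2 * (s - 1) :=
    natDegree_mul_le_of_le (natDegree_mul_le_of_le (natDegree_mul_le_of_le two_le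
      (natDegree_C _).le) hf.1) (natDegree_pow_le_of_le 2 hg.1)
  have h4 : (C W.b₆ * g ^ 3).natDegree ≤ 0 + 3 * (s - 1) :=
    natDegree_mul_le_of_le (natDegree_C _).le (natDegree_pow_le_of_le 3 hg.1)
  have := hg.mul (((h1.add (Top.low (e := 3 * s) (by omega : _ < _) : Top (C W.b₂ * f ^ 2 * g) _ 0)).add
    (Top.low (e := 3 * s) (by omega : _ < _) : Top (2 * C W.b₄ * f * g ^ 2) _ 0)).add
    (Top.low (e := 3 * s) (by omega : _ < _) : Top (C W.b₆ * g ^ 3) _ 0))
  exact this.congr (by omega) (by ring)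

lemma addH_top {f g f' g' : R[X]} {s t : ℕ} {c c' : R} (hs : 1 ≤ s) (ht : 1 ≤ t)
    (hf : Top f s 1) (hg : Top g (s - 1) c) (hf' : Top f' t 1) (hg' : Top g' (t - 1) c') :
    Top (addH f g f' g') (s + t - 1) (c - c') := by
  have h1 := (hf'.mul hg).congr (by omega : t + (s - 1) = s + t - 1) (one_mul c)
  have h2 := (hf.mul hg').congr (by omega : s + (t - 1) = s + t - 1) (one_mul c')
  exact h1.sub h2

lemma addF_top {f g f' g' : R[X]} {s t : ℕ} {c c' : R} (hs : 1 ≤ s) (ht : 1 ≤ t)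
    (hf : Top f s 1) (hg : Top g (s - 1) c) (hf' : Top f' t 1) (hg' : Top g' (t - 1) c') :
    Top (addF W f g f' g') (2 * s + 2 * t - 1) (2 * (c + c') - (c - c') ^ 2) := by
  have h1 := (hf'.mul hg).congr (by omega : t + (s - 1) = s + t - 1) (one_mul c)
  have h2 := (hf.mul hg').congr (by omega : s + (t - 1) = s + t - 1) (one_mul c')
  have h12 := h1.add h2
  have hA : Top (2 * f * f' * (f' * g + f * g')) (2 * s + 2 * t - 1) (2 * (c + c')) := by
    have h := (((Top.natCast (R := R) 2).mul hf).mul hf').mul h12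
    have h' : Top (2 * f * f' * (f' * g + f * g')) (0 + s + t + (s + t - 1))
        (((2 : ℕ) : R) * 1 * 1 * (c + c')) := by simpa using h
    exact h'.congr (by omega) (by norm_num)
  have hB : (C W.b₂ * f * f' * g * g').natDegree ≤ 0 + s + t + (s - 1) + (t - 1) :=
    natDegree_mul_le_of_le (natDegree_mul_le_of_le (natDegree_mul_le_of_le
      (natDegree_mul_le_of_le (natDegree_C _).le hf.1) hf'.1) hg.1) hg'.1
  have hC : (C W.b₄ * (f' * g + f * g') * g * g').natDegree ≤ 0 + (s + t - 1) + (s - 1) + (t - 1) :=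
    natDegree_mul_le_of_le (natDegree_mul_le_of_le (natDegree_mul_le_of_le
      (natDegree_C _).le h12.1) hg.1) hg'.1
  have hD : (C W.b₆ * g ^ 2 * g' ^ 2).natDegree ≤ 0 + 2 * (s - 1) + 2 * (t - 1) :=
    natDegree_mul_le_of_le (natDegree_mul_le_of_le (natDegree_C _).le
      (natDegree_pow_le_of_le 2 hg.1)) (natDegree_pow_le_of_le 2 hg'.1)
  have hE : Top (X * (addH f g f' g') ^ 2) (2 * s + 2 * t - 1) ((c - c') ^ 2) :=
    (Top.X'.mul ((addH_top hs ht hf hg hf' hg').pow 2)).congr (by omega) (one_mul _)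
  have := (((hA.add (Top.low (e := 2 * s + 2 * t - 1) (by omega : _ < _) :
      Top (C W.b₂ * f * f' * g * g') _ 0)).add
    (Top.low (e := 2 * s + 2 * t - 1) (by omega : _ < _) :
      Top (C W.b₄ * (f' * g + f * g') * g * g') _ 0)).add
    (Top.low (e := 2 * s + 2 * t - 1) (by omega : _ < _) :
      Top (C W.b₆ * g ^ 2 * g' ^ 2) _ 0)).sub hE
  exact this.congr rfl (by ring)

/-- Degrees and top coefficients of the ladder polynomials. -/
theorem ladder_top (n : ℕ) (hn : 1 ≤ n) :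
    Top (ladF W n) (n ^ 2) 1 ∧ Top (ladG W n) (n ^ 2 - 1) ((n : R) ^ 2) := by
  induction n using Nat.strong_induction_on with
  | _ n ih =>
    rcases Nat.even_or_odd' n with ⟨m, rfl | rfl⟩
    · -- n = 2 m
      have hm : 1 ≤ m := by omega
      obtain ⟨hf, hg⟩ := ih m (by omega) hm
      have hs : 1 ≤ m ^ 2 := Nat.one_le_pow _ _ hm
      have e1 : (2 * m) ^ 2 = 4 * m ^ 2 := by ring
      rw [ladF_two_mul W m hm, ladG_two_mul W m hm, e1]
      exact ⟨dblF_top W hs hf hg, (dblG_top W hs hf hg).congr rfl (by push_cast; ring)⟩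
    · rcases Nat.eq_zero_or_pos m with rfl | hm
      · simp only [mul_zero, zero_add, ladF_one, ladG_one]
        exact ⟨Top.X'.congr (by norm_num) rfl, Top.one'.congr (by norm_num) (by norm_num)⟩
      · obtain ⟨hf, hg⟩ := ih m (by omega) hm
        obtain ⟨hf', hg'⟩ := ih (m + 1) (by omega) (by omega)
        have hs : 1 ≤ m ^ 2 := Nat.one_le_pow _ _ hm
        have ht : 1 ≤ (m + 1) ^ 2 := Nat.one_le_pow _ _ (by omega)
        have e1 : (2 * m + 1) ^ 2 = 4 * m ^ 2 + 4 * m + 1 := by ring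
        have e2 : (m + 1) ^ 2 = m ^ 2 + 2 * m + 1 := by ring
        rw [ladF_two_mul_add_one W m hm, ladG_two_mul_add_one W m hm]
        refine ⟨(addF_top W hs ht hf hg hf' hg').congr (by omega) (by push_cast; ring), ?_⟩
        exact ((addH_top hs ht hf hg hf' hg').pow 2).congr (by omega) (by push_cast; ring)

theorem hpoly_top (m : ℕ) (hm : 1 ≤ m) :
    Top (hpoly W m) (2 * m ^ 2 + 2 * m) (-((2 * m + 1 : ℕ) : R)) := by
  obtain ⟨hf, hg⟩ := ladder_top W m hm
  obtain ⟨hf', hg'⟩ := ladder_top W (m + 1) (by omega)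
  have hs : 1 ≤ m ^ 2 := Nat.one_le_pow _ _ hm
  have ht : 1 ≤ (m + 1) ^ 2 := Nat.one_le_pow _ _ (by omega)
  have e2 : (m + 1) ^ 2 = m ^ 2 + 2 * m + 1 := by ring
  exact (addH_top hs ht hf hg hf' hg').congr (by omega) (by push_cast; ring)

theorem hpoly_natDegree_le (m : ℕ) (hm : 1 ≤ m) : (hpoly W m).natDegree ≤ 2 * m ^ 2 + 2 * m :=
  (hpoly_top W m hm).1

theorem hpoly_coeff (m : ℕ) (hm : 1 ≤ m) :
    (hpoly W m).coeff (2 * m ^ 2 + 2 * m) = -((2 * m + 1 : ℕ) : R) :=
  (hpoly_top W m hm).2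

section Map

variable {S : Type*} [CommRing S] (φ : R →+* S)

lemma dblF_map (f g : R[X]) : dblF (W.map φ) (f.map φ) (g.map φ) = (dblF W f g).map φ := by
  simp [dblF, Polynomial.map_sub, Polynomial.map_mul, Polynomial.map_pow]

lemma dblG_map (f g : R[X]) : dblG (W.map φ) (f.map φ) (g.map φ) = (dblG W f g).map φ := by
  simp [dblG, Polynomial.map_add, Polynomial.map_mul, Polynomial.map_pow]

lemma addH_map (f g f' g' : R[X]) :
    addH (f.map φ) (g.map φ) (f'.map φ) (g'.map φ) = (addH f g f' g').map φ := by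
  simp [addH, Polynomial.map_sub, Polynomial.map_mul]

lemma addF_map (f g f' g' : R[X]) :
    addF (W.map φ) (f.map φ) (g.map φ) (f'.map φ) (g'.map φ) = (addF W f g f' g').map φ := by
  simp [addF, addH, Polynomial.map_sub, Polynomial.map_add, Polynomial.map_mul, Polynomial.map_pow]

theorem ladder_map (n : ℕ) :
    ladF (W.map φ) n = (ladF W n).map φ ∧ ladG (W.map φ) n = (ladG W n).map φ := by
  induction n using Nat.strong_induction_on with
  | _ n ih =>
    rcases Nat.even_or_odd' n with ⟨m, rfl | rfl⟩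
    · rcases Nat.eq_zero_or_pos m with rfl | hm
      · simp [ladF_zero, ladG_zero]
      · obtain ⟨hf, hg⟩ := ih m (by omega)
        rw [ladF_two_mul _ m hm, ladG_two_mul _ m hm, ladF_two_mul _ m hm, ladG_two_mul _ m hm,
          hf, hg, dblF_map, dblG_map]
        exact ⟨rfl, rfl⟩
    · rcases Nat.eq_zero_or_pos m with rfl | hm
      · simp [ladF_one, ladG_one]
      · obtain ⟨hf, hg⟩ := ih m (by omega)
        obtain ⟨hf', hg'⟩ := ih (m + 1) (by omega)
        rw [ladF_two_mul_add_one _ m hm, ladG_two_mul_add_one _ m hm,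
          ladF_two_mul_add_one _ m hm, ladG_two_mul_add_one _ m hm, hpoly, hpoly,
          hf, hg, hf', hg', addF_map, addH_map, Polynomial.map_pow]
        exact ⟨rfl, rfl⟩

theorem hpoly_map (m : ℕ) : hpoly (W.map φ) m = (hpoly W m).map φ := by
  rw [hpoly, hpoly, (ladder_map W φ m).1, (ladder_map W φ m).2, (ladder_map W φ (m + 1)).1,
    (ladder_map W φ (m + 1)).2, addH_map]

end Map

end Fermat.Agent.S13
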