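import Fermat.Agent.S13.Defs2
import Fermat.Agent.S13.Ladder
import Fermat.Agent.S13.LadderDeg

/-!
# S13: `E[2m+1]` is nontrivial, finite, of cardinality `≤ (2m+1)^2`
-/

set_option autoImplicit false

namespace Fermat.Agent.S13

open Polynomial WeierstrassCurve WeierstrassCurve.Affine

section General

variable {K : Type*} [Field K] (W : WeierstrassCurve K)

theorem hpoly_natDegree (m : ℕ) (hm : 1 ≤ m) (hp : ((2 * m + 1 : ℕ) : K) ≠ 0) :
    (hpoly W m).natDegree = 2 * m ^ 2 + 2 * m := by
  refine le_antisymm (hpoly_natDegree_le W m hm) (le_natDegree_of_ne_zero ?_)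
  rw [hpoly_coeff W m hm]
  exact neg_ne_zero.mpr hp

theorem hpoly_ne_zero (m : ℕ) (hm : 1 ≤ m) (hp : ((2 * m + 1 : ℕ) : K) ≠ 0) :
    hpoly W m ≠ 0 := by
  intro h
  have h1 := hpoly_coeff W m hm
  rw [h, coeff_zero] at h1
  exact neg_ne_zero.mpr hp h1.symm

/-- The monic quadratic whose roots are the `y` with `(x, y)` on the curve. -/
noncomputable def yQuad (x : K) : K[X] :=
  X ^ 2 + C (W.a₁ * x + W.a₃) * X - C (x ^ 3 + W.a₂ * x ^ 2 + W.a₄ * x + W.a₆)

theorem yQuad_natDegree (x : K) : (yQuad W x).natDegree = 2 := by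
  unfold yQuad
  compute_degree!

theorem yQuad_ne_zero (x : K) : yQuad W x ≠ 0 := by
  intro h
  have := yQuad_natDegree W x
  rw [h, natDegree_zero] at this
  omega

theorem yQuad_eval_eq_zero_iff (x y : K) :
    (yQuad W x).eval y = 0 ↔ W.toAffine.Equation x y := by
  rw [equation_iff]
  simp only [yQuad, eval_sub, eval_add, eval_pow, eval_X, eval_mul, eval_C]
  constructor <;> intro h <;> linear_combination h

end General

section Finite

variable {K : Type*} [Field K] [DecidableEq K] (W : WeierstrassCurve K)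

/-- A finite set containing (the codes of) all `(2m+1)`-torsion points. -/
noncomputable def torsCodes (m : ℕ) : Finset (Option (K × K)) :=
  insert none ((hpoly W m).roots.toFinset.biUnion fun x =>
    (yQuad W x).roots.toFinset.image fun y => some (x, y))

theorem card_torsCodes_le (m : ℕ) (hm : 1 ≤ m) :
    (torsCodes W m).card ≤ (2 * m + 1) ^ 2 := by
  have h1 : ((hpoly W m).roots.toFinset.biUnion fun x =>
      (yQuad W x).roots.toFinset.image fun y => some (x, y)).card ≤
      (2 * m ^ 2 + 2 * m) * 2 := by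
    refine Finset.card_biUnion_le.trans ?_
    refine (Finset.sum_le_card_nsmul _ _ 2 fun x _ => ?_).trans ?_
    · refine Finset.card_image_le.trans ((Multiset.toFinset_card_le _).trans ?_)
      exact (card_roots' _).trans (yQuad_natDegree W x).le
    · rw [smul_eq_mul]
      refine Nat.mul_le_mul_right 2 ((Multiset.toFinset_card_le _).trans ?_)
      exact (card_roots' _).trans (hpoly_natDegree_le W m hm)
  have h2 := Finset.card_insert_le (none : Option (K × K))
    ((hpoly W m).roots.toFinset.biUnion fun x =>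
      (yQuad W x).roots.toFinset.image fun y => some (x, y))
  unfold torsCodes
  nlinarith

/-- The code of a point. -/
def pointCode : W.toAffine.Point → Option (K × K)
  | .zero => none
  | .some x y _ => some (x, y)

theorem pointCode_injective : Function.Injective (pointCode W) := by
  rintro (_ | ⟨x₁, y₁, h₁⟩) (_ | ⟨x₂, y₂, h₂⟩) h <;>
    simp only [pointCode, Option.some.injEq, Prod.mk.injEq, reduceCtorEq] at h
  · rfl
  · obtain ⟨rfl, rfl⟩ := h; rfl

theorem pointCode_mem_torsCodes (m : ℕ) (hm : 1 ≤ m) (hp : ((2 * m + 1 : ℕ) : K) ≠ 0)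
    (P : W.toAffine.Point) (hP : (2 * m + 1) • P = 0) : pointCode W P ∈ torsCodes W m := by
  rcases P with _ | ⟨x, y, h⟩
  · exact Finset.mem_insert_self _ _
  · refine Finset.mem_insert_of_mem ?_
    rw [Finset.mem_biUnion]
    refine ⟨x, ?_, ?_⟩
    · rw [Multiset.mem_toFinset, mem_roots (hpoly_ne_zero W m hm hp), IsRoot.def]
      exact (smul_eq_zero_iff W h m hm).mp hP
    · rw [Finset.mem_image]
      refine ⟨y, ?_, rfl⟩
      rw [Multiset.mem_toFinset, mem_roots (yQuad_ne_zero W x), IsRoot.def,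
        yQuad_eval_eq_zero_iff]
      exact h.1

/-- The injection of the torsion points into the finite set of codes. -/
def torsToCodes (m : ℕ) (hm : 1 ≤ m) (hp : ((2 * m + 1 : ℕ) : K) ≠ 0) :
    {P : W.toAffine.Point // (2 * m + 1) • P = 0} → torsCodes W m :=
  fun P => ⟨pointCode W P.1, pointCode_mem_torsCodes W m hm hp P.1 P.2⟩

theorem torsToCodes_injective (m : ℕ) (hm : 1 ≤ m) (hp : ((2 * m + 1 : ℕ) : K) ≠ 0) :
    Function.Injective (torsToCodes W m hm hp) := by
  intro P Q h
  exact Subtype.ext (pointCode_injective W (congrArg Subtype.val h))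

theorem finite_torsion' (m : ℕ) (hm : 1 ≤ m) (hp : ((2 * m + 1 : ℕ) : K) ≠ 0) :
    Finite {P : W.toAffine.Point // (2 * m + 1) • P = 0} :=
  Finite.of_injective _ (torsToCodes_injective W m hm hp)

theorem card_torsion_le' (m : ℕ) (hm : 1 ≤ m) (hp : ((2 * m + 1 : ℕ) : K) ≠ 0) :
    Nat.card {P : W.toAffine.Point // (2 * m + 1) • P = 0} ≤ (2 * m + 1) ^ 2 := by
  refine (Nat.card_le_card_of_injective _ (torsToCodes_injective W m hm hp)).trans ?_
  rw [Nat.card_eq_fintype_card, Fintype.card_coe]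
  exact card_torsCodes_le W m hm

end Finite

variable {K : Type*} [Field K] [IsAlgClosed K] [DecidableEq K] (W : WeierstrassCurve K)

theorem exists_torsion_point (hΔ : W.Δ ≠ 0) (m : ℕ) (hm : 1 ≤ m)
    (hp : ((2 * m + 1 : ℕ) : K) ≠ 0) :
    ∃ P : W.toAffine.Point, P ≠ 0 ∧ (2 * m + 1) • P = 0 := by
  obtain ⟨x₀, hx₀⟩ := IsAlgClosed.exists_root (hpoly W m) (by
    rw [degree_eq_natDegree (hpoly_ne_zero W m hm hp), hpoly_natDegree W m hm hp]
    have : 0 < 2 * m ^ 2 + 2 * m := by positivity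
    exact_mod_cast this.ne')
  obtain ⟨y₀, hy₀⟩ := IsAlgClosed.exists_root (yQuad W x₀) (by
    rw [degree_eq_natDegree (yQuad_ne_zero W x₀), yQuad_natDegree]
    norm_num)
  have hE : W.toAffine.Equation x₀ y₀ := (yQuad_eval_eq_zero_iff W x₀ y₀).mp hy₀
  have hN : W.toAffine.Nonsingular x₀ y₀ := (equation_iff_nonsingular_of_Δ_ne_zero hΔ).mp hE
  exact ⟨Point.some x₀ y₀ hN, Point.some_ne_zero hN, (smul_eq_zero_iff W hN m hm).mpr hx₀⟩

theorem finite_torsion (m : ℕ) (hm : 1 ≤ m) (hp : ((2 * m + 1 : ℕ) : K) ≠ 0) :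
    Finite {P : W.toAffine.Point // (2 * m + 1) • P = 0} :=
  finite_torsion' W m hm hp

theorem card_torsion_le (m : ℕ) (hm : 1 ≤ m) (hp : ((2 * m + 1 : ℕ) : K) ≠ 0) :
    Nat.card {P : W.toAffine.Point // (2 * m + 1) • P = 0} ≤ (2 * m + 1) ^ 2 :=
  card_torsion_le' W m hm hp

end Fermat.Agent.S13
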