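import Mathlib

/-!
# S13: elementary linear algebra (lines in a plane, unipotent operators)
-/

set_option autoImplicit false

namespace Fermat.Agent.S13

open Module

variable {k V : Type*} [Field k] [AddCommGroup V] [Module k V]

/-- `U'/U` is at most one-dimensional. -/
def Step (U U' : Submodule k V) : Prop :=
  ∀ x ∈ U', x ∉ U → ∀ y ∈ U', ∃ c : k, y - c • x ∈ U

theorem LA0 (U U' : Submodule k V) (hstep : Step U U') (T : V →ₗ[k] V)
    (hTU : ∀ x ∈ U, T x ∈ U) (hTU' : ∀ x ∈ U', T x ∈ U')
    (h2 : ∀ x ∈ U', T (T x - x) - (T x - x) ∈ U) : ∀ x ∈ U', T x - x ∈ U := by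
  intro x hx
  by_cases hxU : x ∈ U
  · exact U.sub_mem (hTU x hxU) hxU
  · obtain ⟨s, hs⟩ := hstep x hx hxU (T x) (hTU' x hx)
    set u := T x - s • x with hu
    have h3 := h2 x hx
    have e1 : T x = s • x + u := by rw [hu]; abel
    have e2 : T (T x - x) - (T x - x) = ((s - 1) * (s - 1)) • x + ((s - 1) • u + (T u - u)) := by
      have e3 : T (T x) = s • T x + T u := by
        conv_lhs => rw [e1]
        rw [map_add, map_smul]
      rw [map_sub, e3, e1]
      module
    rw [e2] at h3
    have h4 : (s - 1) • u + (T u - u) ∈ U :=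
      U.add_mem (U.smul_mem _ hs) (U.sub_mem (hTU u hs) hs)
    have h5 : ((s - 1) * (s - 1)) • x ∈ U := by
      have := U.sub_mem h3 h4
      simpa using this
    have h6 : s - 1 = 0 := by
      by_contra hne
      have hne2 : (s - 1) * (s - 1) ≠ 0 := mul_ne_zero hne hne
      exact hxU ((U.smul_mem_iff hne2).1 h5)
    have h7 : s = 1 := by linear_combination h6
    have : T x - x = u := by rw [hu, h7, one_smul]
    rw [this]; exact hs

theorem step_bot_of_finrank_eq_one (L : Submodule k V) (h : finrank k L = 1) : Step ⊥ L := by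
  intro x hx hx0 y hy
  have hx0' : (⟨x, hx⟩ : L) ≠ 0 := by
    intro h0
    apply hx0
    rw [Submodule.mem_bot]
    exact congrArg Subtype.val h0
  obtain ⟨c, hc⟩ := (finrank_eq_one_iff_of_nonzero' (⟨x, hx⟩ : L) hx0').1 h ⟨y, hy⟩
  refine ⟨c, ?_⟩
  rw [Submodule.mem_bot]
  have := congrArg Subtype.val hc
  simp only [Submodule.coe_smul] at this
  rw [← this, sub_self]

theorem step_top_of_finrank [Module.Finite k V] (L : Submodule k V) (hV : finrank k V = 2)
    (h : finrank k L = 1) : Step L ⊤ := by
  intro x _ hxL y _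
  have hlt : L < L ⊔ Submodule.span k {x} := by
    refine lt_of_le_of_ne le_sup_left ?_
    intro he
    apply hxL
    rw [he]
    exact Submodule.mem_sup_right (Submodule.mem_span_singleton_self x)
  have h1 : finrank k L < finrank k (L ⊔ Submodule.span k {x} : Submodule k V) :=
    Submodule.finrank_lt_finrank_of_lt hlt
  have h2 : finrank k (L ⊔ Submodule.span k {x} : Submodule k V) ≤ finrank k V :=
    Submodule.finrank_le _
  have h3 : (L ⊔ Submodule.span k {x} : Submodule k V) = ⊤ :=
    Submodule.eq_top_of_finrank_eq (by omega)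
  have hy : y ∈ (L ⊔ Submodule.span k {x} : Submodule k V) := by rw [h3]; trivial
  obtain ⟨l, hl, z, hz, rfl⟩ := Submodule.mem_sup.1 hy
  obtain ⟨c, rfl⟩ := Submodule.mem_span_singleton.1 hz
  exact ⟨c, by simpa using hl⟩

theorem inf_eq_bot_of_lines [Module.Finite k V] (L L' : Submodule k V) (h : finrank k L = 1)
    (h' : finrank k L' = 1) (hne : L ≠ L') : L ⊓ L' = ⊥ := by
  by_contra hb
  have h1 : 0 < finrank k (L ⊓ L' : Submodule k V) := by
    rw [Module.finrank_pos_iff]
    exact Submodule.nontrivial_iff_ne_bot.2 hb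
  have e1 : L ⊓ L' = L := Submodule.eq_of_le_of_finrank_le inf_le_left (by omega)
  have e2 : L ⊓ L' = L' := Submodule.eq_of_le_of_finrank_le inf_le_right (by omega)
  exact hne (e1.symm.trans e2)

/-- In a space with at most `q²` elements, a proper nonzero subspace is a line in a plane. -/
theorem finrank_of_card_le [Finite k] [Finite V] (hcard : Nat.card V ≤ Nat.card k ^ 2)
    (L : Submodule k V) (hb : L ≠ ⊥) (ht : L ≠ ⊤) : finrank k V = 2 ∧ finrank k L = 1 := by
  have : Module.Finite k V := Module.Finite.of_finite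
  have hq : 1 < Nat.card k := Finite.one_lt_card
  have h1 : Nat.card V = Nat.card k ^ finrank k V := Module.natCard_eq_pow_finrank
  have h2 : finrank k V ≤ 2 := by
    rw [h1] at hcard
    exact (Nat.pow_le_pow_iff_right hq).1 hcard
  have h3 : 0 < finrank k L := by
    rw [Module.finrank_pos_iff]
    exact Submodule.nontrivial_iff_ne_bot.2 hb
  have h4 : finrank k L < finrank k V := Submodule.finrank_lt ht
  omega

end Fermat.Agent.S13
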