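import Fermat.Agent.S13.Defs

/-!
# S13-R1: the kernel of reduction `E1` is a subgroup
-/

set_option autoImplicit false

namespace Fermat.Agent.S13

open Polynomial WeierstrassCurve WeierstrassCurve.Affine

variable {K : Type*} [Field K] [DecidableEq K] {Γ₀ : Type*} [LinearOrderedCommGroupWithZero Γ₀]
  (v : Valuation K Γ₀) {W : WeierstrassCurve.Affine K}

omit [DecidableEq K] in
lemma R1.val_two_le : v (2 : K) ≤ 1 := by
  have h : (2 : K) = 1 + 1 := by norm_num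
  rw [h]
  exact v.map_add_le (by simp) (by simp)

omit [DecidableEq K] in
/-- On a curve with integral coefficients, an integral `x` forces an integral `y`. -/
lemma R1.val_y_le_one (hW : IntegralCoeffs v W) {x y : K} (h : W.Equation x y) (hx : v x ≤ 1) :
    v y ≤ 1 := by
  obtain ⟨h1, h2, h3, h4, h6⟩ := hW
  rw [Affine.equation_iff] at h
  by_contra hy
  push Not at hy
  have e : y ^ 2 = x ^ 3 + W.a₂ * x ^ 2 + W.a₄ * x + W.a₆ - W.a₁ * x * y - W.a₃ * y := by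
    linear_combination h
  have hle : v (y ^ 2) ≤ v y := by
    rw [e]
    refine v.map_sub_le (v.map_sub_le (v.map_add_le (v.map_add_le (v.map_add_le ?_ ?_) ?_) ?_) ?_) ?_
    · rw [map_pow]; exact (pow_le_one₀ zero_le hx).trans hy.le
    · rw [map_mul, map_pow]; exact (mul_le_one₀ h2 zero_le (pow_le_one₀ zero_le hx)).trans hy.le
    · rw [map_mul]; exact (mul_le_one₀ h4 zero_le hx).trans hy.le
    · exact h6.trans hy.le
    · rw [map_mul, map_mul]
      calc v W.a₁ * v x * v y ≤ 1 * v y := by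
            gcongr
            exact mul_le_one₀ h1 zero_le hx
        _ = v y := one_mul _
    · rw [map_mul]
      calc v W.a₃ * v y ≤ 1 * v y := by gcongr
        _ = v y := one_mul _
  rw [map_pow, sq] at hle
  have hpos : 0 < v y := lt_trans zero_lt_one hy
  have : v y * 1 < v y * v y := by
    exact (mul_lt_mul_iff_right₀ hpos).mpr hy
  rw [mul_one] at this
  exact absurd hle (not_le.mpr this)

omit [DecidableEq K] in
/-- If `x` has a pole then `v y ≤ v x ^ 2`. -/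
lemma R1.val_y_le_sq (hW : IntegralCoeffs v W) {x y : K} (h : W.Equation x y) (hx : 1 < v x) :
    v y ≤ v x ^ 2 := by
  obtain ⟨h1, h2, h3, h4, h6⟩ := hW
  rw [Affine.equation_iff] at h
  by_contra hy
  push Not at hy
  set g := v x with hg
  have hg0 : 0 < g := lt_trans zero_lt_one hx
  have hg1 : 1 ≤ g := hx.le
  have hgy : g < v y := lt_of_le_of_lt (by
    calc g = g * 1 := (mul_one g).symm
      _ ≤ g * g := by gcongr
      _ = g ^ 2 := (sq g).symm) hy
  have hy0 : 0 < v y := lt_trans hg0 hgy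
  have hy1 : 1 ≤ v y := hg1.trans hgy.le
  have e : y ^ 2 = x ^ 3 + W.a₂ * x ^ 2 + W.a₄ * x + W.a₆ - W.a₁ * x * y - W.a₃ * y := by
    linear_combination h
  -- every term on the right is `≤ g * v y`
  have hb : g ^ 2 ≤ v y := hy.le
  have hle : v (y ^ 2) ≤ g * v y := by
    rw [e]
    refine v.map_sub_le (v.map_sub_le (v.map_add_le (v.map_add_le (v.map_add_le ?_ ?_) ?_) ?_) ?_) ?_
    · rw [map_pow, ← hg]
      calc g ^ 3 = g * g ^ 2 := pow_succ' g 2
        _ ≤ g * v y := by gcongr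
    · rw [map_mul, map_pow, ← hg]
      calc v W.a₂ * g ^ 2 ≤ 1 * g ^ 2 := by gcongr
        _ = 1 * g ^ 2 := rfl
        _ ≤ g * v y := by gcongr
    · rw [map_mul, ← hg]
      calc v W.a₄ * g ≤ 1 * g := by gcongr
        _ = g * 1 := by rw [one_mul, mul_one]
        _ ≤ g * v y := by gcongr
    · calc v W.a₆ ≤ 1 := h6
        _ = 1 * 1 := (one_mul 1).symm
        _ ≤ g * v y := by gcongr
    · rw [map_mul, map_mul, ← hg]
      calc v W.a₁ * g * v y ≤ 1 * g * v y := by gcongr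
        _ = g * v y := by rw [one_mul]
    · rw [map_mul]
      calc v W.a₃ * v y ≤ 1 * v y := by gcongr
        _ ≤ g * v y := by gcongr
  rw [map_pow, sq] at hle
  have : g * v y < v y * v y := (mul_lt_mul_iff_left₀ hy0).mpr hgy
  exact absurd hle (not_le.mpr this)

theorem integral_add_of_inE1 (hW : IntegralCoeffs v W) {x₁ y₁ x₂ y₂ : K}
    (h₁ : W.Nonsingular x₁ y₁) (h₂ : W.Nonsingular x₂ y₂) (hx₁ : v x₁ ≤ 1) (hx₂ : 1 < v x₂) :
    ∃ x₃ y₃, ∃ h₃ : W.Nonsingular x₃ y₃,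
      Point.some x₁ y₁ h₁ + Point.some x₂ y₂ h₂ = Point.some x₃ y₃ h₃ ∧ v x₃ ≤ 1 := by
  have hne : x₁ ≠ x₂ := by
    rintro rfl
    exact absurd hx₁ (not_le.mpr hx₂)
  refine ⟨_, _, _, Point.add_of_X_ne hne, ?_⟩
  have hy₁ : v y₁ ≤ 1 := R1.val_y_le_one v hW h₁.1 hx₁
  have hy₂ : v y₂ ≤ v x₂ ^ 2 := R1.val_y_le_sq v hW h₂.1 hx₂
  obtain ⟨h1, h2, h3, h4, h6⟩ := hW
  have e₂ := h₂.1
  rw [Affine.equation_iff] at e₂
  set g := v x₂ with hg
  have hg0 : 0 < g := lt_trans zero_lt_one hx₂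
  have hg1 : 1 ≤ g := hx₂.le
  have hgg : g ≤ g ^ 2 := by
    calc g = g * 1 := (mul_one g).symm
      _ ≤ g * g := by gcongr
      _ = g ^ 2 := (sq g).symm
  have h1g : 1 ≤ g ^ 2 := hg1.trans hgg
  have hd : x₁ - x₂ ≠ 0 := sub_ne_zero.mpr hne
  have key : W.addX x₁ x₂ (W.slope x₁ x₂ y₁ y₂) * (x₂ - x₁) ^ 2 =
      x₁ * x₂ ^ 2 + (W.a₄ - W.a₁ * y₁ + 2 * W.a₂ * x₁ + x₁ ^ 2) * x₂
        - (W.a₃ + 2 * y₁ + W.a₁ * x₁) * y₂
        + (W.a₆ + y₁ ^ 2 + W.a₁ * x₁ * y₁ - W.a₂ * x₁ ^ 2 - x₁ ^ 3) := by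
    rw [Affine.slope_of_X_ne hne, Affine.addX]
    field_simp
    linear_combination (x₁ - x₂) ^ 2 * e₂
  have hv2 := R1.val_two_le v
  have hsub : v (x₂ - x₁) = g := by
    rw [hg]
    exact Valuation.map_sub_eq_of_lt_left v (lt_of_le_of_lt hx₁ hx₂)
  have hA : v (W.a₄ - W.a₁ * y₁ + 2 * W.a₂ * x₁ + x₁ ^ 2) ≤ 1 := by
    refine v.map_add_le (v.map_add_le (v.map_sub_le h4 ?_) ?_) ?_
    · rw [map_mul]; exact mul_le_one₀ h1 zero_le hy₁
    · rw [map_mul, map_mul]; exact mul_le_one₀ (mul_le_one₀ hv2 zero_le h2) zero_le hx₁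
    · rw [map_pow]; exact pow_le_one₀ zero_le hx₁
  have hB : v (W.a₃ + 2 * y₁ + W.a₁ * x₁) ≤ 1 := by
    refine v.map_add_le (v.map_add_le h3 ?_) ?_
    · rw [map_mul]; exact mul_le_one₀ hv2 zero_le hy₁
    · rw [map_mul]; exact mul_le_one₀ h1 zero_le hx₁
  have hC : v (W.a₆ + y₁ ^ 2 + W.a₁ * x₁ * y₁ - W.a₂ * x₁ ^ 2 - x₁ ^ 3) ≤ 1 := by
    refine v.map_sub_le (v.map_sub_le (v.map_add_le (v.map_add_le h6 ?_) ?_) ?_) ?_
    · rw [map_pow]; exact pow_le_one₀ zero_le hy₁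
    · rw [map_mul, map_mul]; exact mul_le_one₀ (mul_le_one₀ h1 zero_le hx₁) zero_le hy₁
    · rw [map_mul, map_pow]; exact mul_le_one₀ h2 zero_le (pow_le_one₀ zero_le hx₁)
    · rw [map_pow]; exact pow_le_one₀ zero_le hx₁
  have hle : v (W.addX x₁ x₂ (W.slope x₁ x₂ y₁ y₂) * (x₂ - x₁) ^ 2) ≤ g ^ 2 := by
    rw [key]
    refine v.map_add_le (v.map_sub_le (v.map_add_le ?_ ?_) ?_) ?_
    · rw [map_mul, map_pow, ← hg]
      calc v x₁ * g ^ 2 ≤ 1 * g ^ 2 := by gcongr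
        _ = g ^ 2 := one_mul _
    · rw [map_mul, ← hg]
      calc v (W.a₄ - W.a₁ * y₁ + 2 * W.a₂ * x₁ + x₁ ^ 2) * g ≤ 1 * g := by gcongr
        _ = g := one_mul _
        _ ≤ g ^ 2 := hgg
    · rw [map_mul]
      calc v (W.a₃ + 2 * y₁ + W.a₁ * x₁) * v y₂ ≤ 1 * g ^ 2 := by gcongr
        _ = g ^ 2 := one_mul _
    · exact hC.trans h1g
  rw [map_mul, map_pow, hsub] at hle
  have hg2 : 0 < g ^ 2 := pow_pos hg0 2
  have : v (W.addX x₁ x₂ (W.slope x₁ x₂ y₁ y₂)) * g ^ 2 ≤ 1 * g ^ 2 := by rwa [one_mul]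
  exact (mul_le_mul_iff_left₀ hg2).mp this

omit [DecidableEq K] in
theorem inE1_neg {P : W.Point} (hP : InE1 v P) : InE1 v (-P) := by
  cases P with
  | zero => exact hP
  | some x y h => exact hP

theorem inE1_add (hW : IntegralCoeffs v W) {P Q : W.Point} (hP : InE1 v P) (hQ : InE1 v Q) :
    InE1 v (P + Q) := by
  cases P with
  | zero =>
    have : (Point.zero : W.Point) + Q = Q := zero_add Q
    rw [this]; exact hQ
  | some x₁ y₁ h₁ =>
    cases Q with
    | zero =>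
      have : Point.some x₁ y₁ h₁ + (Point.zero : W.Point) = Point.some x₁ y₁ h₁ := add_zero _
      rw [this]; exact hP
    | some x₂ y₂ h₂ =>
      rcases hR : Point.some x₁ y₁ h₁ + Point.some x₂ y₂ h₂ with _ | ⟨x₃, y₃, h₃⟩
      · trivial
      · show 1 < v x₃
        by_contra hx₃
        push Not at hx₃
        have hQ' : 1 < v x₂ := hQ
        obtain ⟨x, y, h, hadd, hx⟩ :=
          integral_add_of_inE1 v hW h₃ ((Affine.nonsingular_neg ..).mpr h₂) hx₃ hQ'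
        have hneg : Point.some x₂ (W.negY x₂ y₂) ((Affine.nonsingular_neg ..).mpr h₂)
            = -Point.some x₂ y₂ h₂ := rfl
        rw [hneg, ← hR, add_neg_cancel_right] at hadd
        have hxx : x₁ = x := by
          injection hadd
        have hP' : 1 < v x₁ := hP
        rw [hxx] at hP'
        exact absurd hx (not_le.mpr hP')

end Fermat.Agent.S13
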