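import Fermat.Agent.S13.Defs2
import Fermat.Agent.S13.Ladder
import Fermat.Agent.S13.LadderDeg

/-!
# S13-HM: `hpoly` of the Frey curve is nonzero mod `p`; integrality of roots
-/

set_option autoImplicit false

namespace Fermat.Agent.S13

open Polynomial WeierstrassCurve WeierstrassCurve.Affine

section TwoTorsion

variable {F : Type*} [Field F] [DecidableEq F]

/-- A Frey-shaped curve over a field of characteristic `≠ 2` has a nonsingular point of order 2,
as soon as `A`, `B` are not both zero. -/
lemma modP_exists_two_torsion (W : WeierstrassCurve F) (h2F : (2 : F) ≠ 0) (h1 : W.a₁ = 1)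
    (h3 : W.a₃ = 0) (h6 : W.a₆ = 0) (A B : F) (h2 : 4 * W.a₂ = B - 1 - A)
    (h4 : 16 * W.a₄ = -A * B) (hAB : ¬ (A = 0 ∧ B = 0)) :
    ∃ x y : F, W.toAffine.Nonsingular x y ∧ y = W.toAffine.negY x y := by
  have h4F : (4 : F) ≠ 0 := by
    have : (4 : F) = 2 * 2 := by norm_num
    rw [this]; exact mul_ne_zero h2F h2F
  have h8F : (8 : F) ≠ 0 := by
    have : (8 : F) = 2 * 4 := by norm_num
    rw [this]; exact mul_ne_zero h2F h4F
  have h16F : (16 : F) ≠ 0 := by
    have : (16 : F) = 4 * 4 := by norm_num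
    rw [this]; exact mul_ne_zero h4F h4F
  have ha2 : W.a₂ = (B - 1 - A) / 4 := by field_simp; linear_combination h2
  have ha4 : W.a₄ = -A * B / 16 := by field_simp; linear_combination h4
  by_cases hA : A = 0
  · have hB : B ≠ 0 := fun hB => hAB ⟨hA, hB⟩
    refine ⟨-B / 4, B / 8, ?_, ?_⟩
    · rw [nonsingular_iff, equation_iff]
      refine ⟨?_, Or.inl ?_⟩
      · simp only [h1, h3, h6, ha2, ha4, hA]
        field_simp
        ring
      · simp only [h1, ha2, ha4, hA]
        intro h
        apply hB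
        have key : (3 * (-B / 4) ^ 2 + 2 * ((B - 1 - 0) / 4) * (-B / 4) + -0 * B / 16 - 1 * (B / 8)) * 16
            = B ^ 2 := by
          field_simp
          ring
        have : B ^ 2 = 0 := by
          rw [← key, h, sub_self, zero_mul]
        exact pow_eq_zero_iff (two_ne_zero) |>.1 this
    · simp only [negY, h1, h3]
      field_simp
      ring
  · by_cases hB : B = 0
    · refine ⟨A / 4, -A / 8, ?_, ?_⟩
      · rw [nonsingular_iff, equation_iff]
        refine ⟨?_, Or.inl ?_⟩
        · simp only [h1, h3, h6, ha2, ha4, hB]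
          field_simp
          ring
        · simp only [h1, ha2, ha4, hB]
          intro h
          apply hA
          have key : (3 * (A / 4) ^ 2 + 2 * ((0 - 1 - A) / 4) * (A / 4) + -A * 0 / 16 - 1 * (-A / 8)) * 16
              = A ^ 2 := by
            field_simp
            ring
          have : A ^ 2 = 0 := by
            rw [← key, h, sub_self, zero_mul]
          exact pow_eq_zero_iff (two_ne_zero) |>.1 this
      · simp only [negY, h1, h3]
        field_simp
        ring
    · refine ⟨0, 0, ?_, ?_⟩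
      · rw [nonsingular_iff, equation_iff]
        refine ⟨?_, Or.inl ?_⟩
        · simp [h6]
        · simp only [ha4]
          intro h
          have : A * B = 0 := by
            field_simp at h
            linear_combination (exp := 1) h
          rcases mul_eq_zero.1 this with h | h
          · exact hA h
          · exact hB h
      · simp [negY, h3]

lemma modP_hpoly_ne_zero (W : WeierstrassCurve F) {x y : F} (h : W.toAffine.Nonsingular x y)
    (hy : y = W.toAffine.negY x y) (m : ℕ) (hm : 1 ≤ m) : hpoly W m ≠ 0 := by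
  intro h0
  have hz : (2 * m + 1) • (Point.some x y h : W.toAffine.Point) = 0 := by
    rw [smul_eq_zero_iff W h m hm, h0, eval_zero]
  have h2 : (Point.some x y h : W.toAffine.Point) + Point.some x y h = 0 :=
    Point.add_self_of_Y_eq hy
  have h3 : (2 * m + 1) • (Point.some x y h : W.toAffine.Point) = Point.some x y h := by
    rw [add_smul, one_smul, mul_comm, mul_smul, two_smul, h2, smul_zero, zero_add]
  rw [h3] at hz
  exact Point.some_ne_zero h hz

end TwoTorsion

theorem hpoly_mod_p_ne_zero (p : ℕ) (hp : p.Prime) (hp2 : p ≠ 2) (W : WeierstrassCurve ℤ) (h1 : W.a₁ = 1) (h3 : W.a₃ = 0)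
    (h6 : W.a₆ = 0) (A B C : ℤ) (hABC : A + B = C) (h2 : 4 * W.a₂ = B - 1 - A)
    (h4 : 16 * W.a₄ = -A * B) (hAB : IsCoprime A B) (m : ℕ) (hm : 1 ≤ m) :
    (hpoly W m).map (Int.castRingHom (ZMod p)) ≠ 0 := by
  have : Fact p.Prime := ⟨hp⟩
  rw [← hpoly_map]
  have h2F : (2 : ZMod p) ≠ 0 := by
    intro h
    have h' : ((2 : ℕ) : ZMod p) = 0 := by exact_mod_cast h
    rw [ZMod.natCast_eq_zero_iff] at h'
    exact hp2 ((Nat.prime_dvd_prime_iff_eq hp Nat.prime_two).1 h')
  obtain ⟨x, y, h, hy⟩ := modP_exists_two_torsion (W.map (Int.castRingHom (ZMod p))) h2F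
    (by simp [h1]) (by simp [h3]) (by simp [h6]) (A : ZMod p) (B : ZMod p)
    (by simp only [map_a₂, eq_intCast]; exact_mod_cast congrArg (Int.cast : ℤ → ZMod p) h2)
    (by simp only [map_a₄, eq_intCast]; exact_mod_cast congrArg (Int.cast : ℤ → ZMod p) h4)
    (by
      rintro ⟨hA, hB⟩
      rw [ZMod.intCast_zmod_eq_zero_iff_dvd] at hA hB
      have := hAB.isUnit_of_dvd' hA hB
      exact (Nat.prime_iff_prime_int.1 hp).not_isUnit this)
  exact modP_hpoly_ne_zero _ h hy m hm

theorem root_integral {K : Type*} [Field K] {Γ₀ : Type*} [LinearOrderedCommGroupWithZero Γ₀] (v : Valuation K Γ₀)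
    (h : ℤ[X]) (d : ℕ) (hdeg : h.natDegree ≤ d) (hlc : v ((h.coeff d : ℤ) : K) = 1)
    (x : K) (hx : (h.map (Int.castRingHom K)).eval x = 0) : v x ≤ 1 := by
  by_contra hlt
  rw [not_le] at hlt
  have hdeg' : (h.map (Int.castRingHom K)).natDegree < d + 1 :=
    lt_of_le_of_lt natDegree_map_le (Nat.lt_succ_of_le hdeg)
  rw [eval_eq_sum_range' hdeg', Finset.sum_range_succ] at hx
  simp only [coeff_map, eq_intCast] at hx
  have hvx0 : v x ^ d ≠ 0 := pow_ne_zero _ (ne_of_gt (lt_trans zero_lt_one hlt))
  have hsum : v (∑ i ∈ Finset.range d, ((h.coeff i : ℤ) : K) * x ^ i) < v x ^ d := by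
    refine Valuation.map_sum_lt v hvx0 fun i hi => ?_
    rw [map_mul, map_pow]
    have h1 : v ((h.coeff i : ℤ) : K) ≤ 1 :=
      (Valuation.mem_integer_iff v _).1 (intCast_mem v.integer (h.coeff i))
    calc v ((h.coeff i : ℤ) : K) * v x ^ i ≤ 1 * v x ^ i := mul_le_mul_left h1 _
      _ = v x ^ i := one_mul _
      _ < v x ^ d := pow_lt_pow_right₀ hlt (Finset.mem_range.1 hi)
  have heq : ((h.coeff d : ℤ) : K) * x ^ d = -∑ i ∈ Finset.range d, ((h.coeff i : ℤ) : K) * x ^ i := by
    linear_combination hx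
  have : v (((h.coeff d : ℤ) : K) * x ^ d) = v x ^ d := by rw [map_mul, map_pow, hlc, one_mul]
  rw [heq, Valuation.map_neg] at this
  exact absurd this (ne_of_lt hsum)

end Fermat.Agent.S13
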