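import Fermat.Agent.S13.FreyLocal
import Fermat.Agent.S13.LinAlg
import Fermat.Agent.S13.LadderDeg
import Fermat.Agent.S13.Tors
import Fermat.Agent.S13.ModP

/-!
# S13: the `ZMod p`-module `V = E[p]` of the Frey curve
-/

set_option autoImplicit false

namespace Fermat.Agent.S13

open WeierstrassCurve WeierstrassCurve.Affine WeierstrassCurve.Affine.Point FreyPackage Polynomial

local notation "Qbar" => AlgebraicClosure ℚ

/-- `V = E[p]`. -/
noncomputable abbrev VK (P : FreyPackage) : Submodule ℤ (EK P).Point :=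
  Submodule.torsionBy ℤ (EK P).Point P.p

/-- `m = (p-1)/2`. -/
def mm (P : FreyPackage) : ℕ := (P.p - 1) / 2

lemma p_eq (P : FreyPackage) : P.p = 2 * mm P + 1 := by
  obtain ⟨k, hk⟩ := P.hp_odd
  unfold mm; omega

lemma one_le_mm (P : FreyPackage) : 1 ≤ mm P := by
  have := P.hp5; have := p_eq P; omega

lemma mem_VK (P : FreyPackage) (Q : (EK P).Point) : Q ∈ VK P ↔ P.p • Q = 0 := by
  rw [Submodule.mem_torsionBy_iff, natCast_zsmul]

lemma p_ne_zero_Qbar (P : FreyPackage) : ((2 * mm P + 1 : ℕ) : Qbar) ≠ 0 := by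
  rw [← p_eq]; exact_mod_cast P.hp0

/-- the integral `p`-division polynomial -/
noncomputable def hZ (P : FreyPackage) : ℤ[X] := hpoly P.freyCurveInt (mm P)

/-- its degree -/
def dd (P : FreyPackage) : ℕ := 2 * mm P ^ 2 + 2 * mm P

lemma hZ_natDegree_le (P : FreyPackage) : (hZ P).natDegree ≤ dd P :=
  hpoly_natDegree_le _ _ (one_le_mm P)

lemma hZ_coeff (P : FreyPackage) : (hZ P).coeff (dd P) = -(P.p : ℤ) := by
  rw [hZ, dd, hpoly_coeff _ _ (one_le_mm P), ← p_eq]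

lemma torsion_iff_root (P : FreyPackage) {x y : Qbar} (h : (EK P).Nonsingular x y) :
    P.p • (Point.some x y h : (EK P).Point) = 0 ↔
      ((hZ P).map (Int.castRingHom Qbar)).eval x = 0 := by
  have h1 := smul_eq_zero_iff (EK P) h (mm P) (one_le_mm P)
  rw [← p_eq] at h1
  rw [h1, hZ, ← hpoly_map, ← EK_eq]

instance VK_nontrivial (P : FreyPackage) : Nontrivial (VK P) := by
  obtain ⟨Q, hQ0, hQ⟩ := exists_torsion_point (EK P) (EK_Δ_ne_zero P) (mm P) (one_le_mm P)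
    (p_ne_zero_Qbar P)
  rw [← p_eq] at hQ
  refine ⟨⟨⟨Q, (mem_VK P Q).2 hQ⟩, 0, ?_⟩⟩
  intro h
  exact hQ0 (congrArg Subtype.val h)

/-- `V` as a subtype. -/
def VKequiv (P : FreyPackage) : VK P ≃ {Q : (EK P).Point // (2 * mm P + 1) • Q = 0} :=
  Equiv.subtypeEquivRight (fun Q => by rw [← p_eq]; exact mem_VK P Q)

instance VK_finite (P : FreyPackage) : Finite (VK P) := by
  have := finite_torsion (EK P) (mm P) (one_le_mm P) (p_ne_zero_Qbar P)
  exact Finite.of_equiv _ (VKequiv P).symm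

lemma VK_card_le (P : FreyPackage) : Nat.card (VK P) ≤ P.p ^ 2 := by
  rw [Nat.card_congr (VKequiv P)]
  have := card_torsion_le (EK P) (mm P) (one_le_mm P) (p_ne_zero_Qbar P)
  calc _ ≤ (2 * mm P + 1) ^ 2 := this
    _ = P.p ^ 2 := by rw [← p_eq]

instance fact_p (P : FreyPackage) : Fact P.p.Prime := ⟨P.pp⟩

lemma lines (P : FreyPackage) (L : Submodule (ZMod P.p) (VK P)) (hb : L ≠ ⊥) (ht : L ≠ ⊤) :
    Module.finrank (ZMod P.p) (VK P) = 2 ∧ Module.finrank (ZMod P.p) L = 1 :=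
  finrank_of_card_le (by rw [Nat.card_zmod]; exact VK_card_le P) L hb ht

/-- The Galois action on `V` as a linear map. -/
noncomputable def actV (P : FreyPackage) (σ : Qbar ≃ₐ[ℚ] Qbar) : VK P →ₗ[ZMod P.p] VK P where
  toFun x := σ • x
  map_add' := smul_add σ
  map_smul' c x := by
    obtain ⟨n, rfl⟩ : ∃ n : ℕ, (n : ZMod P.p) = c := ⟨c.val, ZMod.natCast_zmod_val c⟩
    simp only [RingHom.id_apply, Nat.cast_smul_eq_nsmul]
    exact (DistribSMul.toAddMonoidHom (VK P) σ).map_nsmul n x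

@[simp] lemma actV_apply (P : FreyPackage) (σ : Qbar ≃ₐ[ℚ] Qbar) (x : VK P) : actV P σ x = σ • x := rfl

lemma coe_smul_VK (P : FreyPackage) (σ : Qbar ≃ₐ[ℚ] Qbar) (x : VK P) :
    ((σ • x : VK P) : (EK P).Point) = σ • (x : (EK P).Point) := rfl

section val

variable {Γ₀ : Type*} [LinearOrderedCommGroupWithZero Γ₀] (v : Valuation Qbar Γ₀)

/-- `F = V ∩ E₁`. -/
noncomputable def FV (P : FreyPackage) : Submodule (ZMod P.p) (VK P) :=
  AddSubgroup.toZModSubmodule P.p
    { carrier := {x | InE1 v (x : (EK P).Point)}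
      add_mem' := fun ha hb => inE1_add v (EK_integralCoeffs v P) ha hb
      zero_mem' := trivial
      neg_mem' := fun ha => inE1_neg v ha }

lemma mem_FV (P : FreyPackage) (x : VK P) : x ∈ FV v P ↔ InE1 v (x : (EK P).Point) := Iff.rfl

lemma inE1_smul (P : FreyPackage) (σ : Qbar ≃ₐ[ℚ] Qbar) (hσ : IsInertial v (σ : Qbar →+* Qbar))
    {Q : (EK P).Point} (hQ : InE1 v Q) : InE1 v (σ • Q) := by
  rcases Q with _ | ⟨x, y, h⟩
  · trivial
  · show 1 < v (σ x)
    have := hσ.map_val x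
    have h2 : v (σ x) = v x := this
    rw [h2]; exact hQ

lemma FV_stable (P : FreyPackage) (σ : Qbar ≃ₐ[ℚ] Qbar) (hσ : IsInertial v (σ : Qbar →+* Qbar))
    (x : VK P) (hx : x ∈ FV v P) : actV P σ x ∈ FV v P :=
  inE1_smul v P σ hσ hx

lemma LP_V (P : FreyPackage) (σ : Qbar ≃ₐ[ℚ] Qbar) (hσ : IsInertial v (σ : Qbar →+* Qbar))
    (x : VK P) : actV P σ (actV P σ x - x) - (actV P σ x - x) ∈ FV v P :=
  frey_LP v P σ hσ (x : (EK P).Point)

/-- Away from `p` the kernel of reduction has no `p`-torsion. -/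
lemma FV_eq_bot (P : FreyPackage) (hvp : v (P.p : Qbar) = 1) : FV v P = ⊥ := by
  rw [eq_bot_iff]
  intro x hx
  rw [Submodule.mem_bot]
  obtain ⟨Q, hQ⟩ := x
  rw [mem_FV] at hx
  rcases Q with _ | ⟨x, y, h⟩
  · rfl
  · exfalso
    have h1 : 1 < v x := hx
    have h2 := (torsion_iff_root P h).1 ((mem_VK P _).1 hQ)
    have h3 := root_integral v (hZ P) (dd P) (hZ_natDegree_le P)
      (by rw [hZ_coeff]; push_cast; rw [Valuation.map_neg]; exact hvp) x h2
    exact absurd h1 (not_lt.2 h3)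

end val

end Fermat.Agent.S13
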