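import Fermat.Agent.S13.Defs

/-!
# S13-R3: two integral points with the same nonsingular reduction differ by a point of `E1`
-/

set_option autoImplicit false

namespace Fermat.Agent.S13

open Polynomial WeierstrassCurve WeierstrassCurve.Affine

section Aux

variable {K : Type*} [Field K] {Γ₀ : Type*} [LinearOrderedCommGroupWithZero Γ₀]
  (v : Valuation K Γ₀)

/-- A perturbation of a unit by an element of the maximal ideal is a unit. -/
lemma R3_val_eq_one_of_sub_lt {a b : K} (ha : v a = 1) (h : v (b - a) < 1) : v b = 1 := by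
  have h1 : b = (b - a) + a := by ring
  rw [h1, Valuation.map_add_eq_of_lt_right v (by rw [ha]; exact h), ha]

/-- If `l * d = n` with `n` a unit and `d` in the maximal ideal then `l` is not integral. -/
lemma R3_one_lt_of_mul_eq {l d n : K} (hn : v n = 1) (hd : v d < 1) (h : l * d = n) :
    1 < v l := by
  by_contra hl
  rw [not_lt] at hl
  have h1 : v (l * d) < 1 := by
    rw [map_mul]
    calc v l * v d ≤ 1 * v d := mul_le_mul_left hl _
      _ = v d := one_mul _
      _ < 1 := hd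
  rw [h, hn] at h1
  exact lt_irrefl _ h1

/-- the `x`-coordinate of a sum of integral points with non-integral slope is not integral. -/
lemma R3_one_lt_addX {l a1 a2 x1 x2 : K} (hl : 1 < v l) (h1 : v a1 ≤ 1) (h2 : v a2 ≤ 1)
    (hx1 : v x1 ≤ 1) (hx2 : v x2 ≤ 1) : 1 < v (l ^ 2 + a1 * l - a2 - x1 - x2) := by
  have hl0 : 0 < v l := lt_trans zero_lt_one hl
  have hll : v l < v (l ^ 2) := by
    rw [map_pow, sq]
    calc v l = 1 * v l := (one_mul _).symm
      _ < v l * v l := mul_lt_mul_of_pos_right hl hl0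
  have h1l : 1 < v (l ^ 2) := lt_trans hl hll
  have e1 : v (a1 * l) < v (l ^ 2) := by
    refine lt_of_le_of_lt ?_ hll
    rw [map_mul]
    calc v a1 * v l ≤ 1 * v l := mul_le_mul_left h1 _
      _ = v l := one_mul _
  have s1 : v (l ^ 2 + a1 * l) = v (l ^ 2) := Valuation.map_add_eq_of_lt_left v e1
  have s2 : v (l ^ 2 + a1 * l - a2) = v (l ^ 2) := by
    rw [Valuation.map_sub_eq_of_lt_left v (by rw [s1]; exact lt_of_le_of_lt h2 h1l), s1]
  have s3 : v (l ^ 2 + a1 * l - a2 - x1) = v (l ^ 2) := by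
    rw [Valuation.map_sub_eq_of_lt_left v (by rw [s2]; exact lt_of_le_of_lt hx1 h1l), s2]
  rw [Valuation.map_sub_eq_of_lt_left v (by rw [s3]; exact lt_of_le_of_lt hx2 h1l), s3]
  exact h1l

end Aux

variable {K : Type*} [Field K] [DecidableEq K] {Γ₀ : Type*} [LinearOrderedCommGroupWithZero Γ₀]
  (v : Valuation K Γ₀) {W : WeierstrassCurve.Affine K}

theorem inE1_sub_of_same_reduction (hW : IntegralCoeffs v W) {x y x' y' : K}
    (h : W.Nonsingular x y) (h' : W.Nonsingular x' y') (hx : v x ≤ 1) (hy : v y ≤ 1)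
    (hxx : v (x' - x) < 1) (hyy : v (y' - y) < 1)
    (hns : v (W.a₁ * y - (3 * x ^ 2 + 2 * W.a₂ * x + W.a₄)) = 1 ∨ v (2 * y + W.a₁ * x + W.a₃) = 1) :
    InE1 v (Point.some x' y' h' - Point.some x y h) := by
  obtain ⟨h1, h2, h3, h4, h6⟩ := hW
  have hx' : v x' ≤ 1 := by
    have : x' = (x' - x) + x := by ring
    rw [this]; exact Valuation.map_add_le v hxx.le hx
  have hy' : v y' ≤ 1 := by
    have : y' = (y' - y) + y := by ring
    rw [this]; exact Valuation.map_add_le v hyy.le hy
  rw [sub_eq_add_neg, Point.neg_some]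
  by_cases hxy : x' = x ∧ y' = W.negY x (W.negY x y)
  · rw [Point.add_of_Y_eq hxy.1 hxy.2]
    trivial
  rw [Point.add_some hxy]
  show 1 < v (W.addX x' x (W.slope x' x y' (W.negY x y)))
  rw [addX]
  refine R3_one_lt_addX v ?_ h1 h2 hx' hx
  have heq : y ^ 2 + W.a₁ * x * y + W.a₃ * y = x ^ 3 + W.a₂ * x ^ 2 + W.a₄ * x + W.a₆ :=
    (W.equation_iff x y).mp h.1
  have heq' : y' ^ 2 + W.a₁ * x' * y' + W.a₃ * y' = x' ^ 3 + W.a₂ * x' ^ 2 + W.a₄ * x' + W.a₆ :=
    (W.equation_iff x' y').mp h'.1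
  have hWY : v (2 * y + W.a₁ * x + W.a₃) ≤ 1 := by
    refine Valuation.map_add_le v (Valuation.map_add_le v ?_ ?_) h3
    · have : (2 : K) * y = y + y := by ring
      rw [this]; exact Valuation.map_add_le v hy hy
    · rw [map_mul]; exact mul_le_one' h1 hx
  by_cases hX : x' = x
  · -- vertical-looking case: `y' = negY x y ≠ y`
    subst hX
    have hyne : y' ≠ y := by
      intro e
      exact hxy ⟨rfl, by rw [negY_negY]; exact e⟩
    have hy'' : y' = W.negY x' y := by
      rcases Y_eq_of_X_eq h'.1 h.1 rfl with e | e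
      · exact absurd e hyne
      · exact e
    have hne : y' ≠ W.negY x' (W.negY x' y) := by rw [negY_negY]; exact hyne
    rw [slope_of_Y_ne rfl hne]
    have hden : y' - W.negY x' y' = y' - y := by rw [hy'', negY_negY]
    rw [hden]
    have hd0 : y' - y ≠ 0 := sub_ne_zero.mpr hyne
    have hWYlt : v (2 * y + W.a₁ * x' + W.a₃) < 1 := by
      have : 2 * y + W.a₁ * x' + W.a₃ = -(y' - y) := by rw [hy'', negY]; ring
      rw [this, Valuation.map_neg]; exact hyy
    have hWX : v (W.a₁ * y - (3 * x' ^ 2 + 2 * W.a₂ * x' + W.a₄)) = 1 := by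
      rcases hns with e | e
      · exact e
      · exact absurd e hWYlt.ne
    refine R3_one_lt_of_mul_eq v (n := 3 * x' ^ 2 + 2 * W.a₂ * x' + W.a₄ - W.a₁ * y') ?_ hyy
      (div_mul_cancel₀ _ hd0)
    have hWX' : v (-(W.a₁ * y - (3 * x' ^ 2 + 2 * W.a₂ * x' + W.a₄))) = 1 := by
      rw [Valuation.map_neg]; exact hWX
    refine R3_val_eq_one_of_sub_lt v hWX' ?_
    have : 3 * x' ^ 2 + 2 * W.a₂ * x' + W.a₄ - W.a₁ * y'
        - -(W.a₁ * y - (3 * x' ^ 2 + 2 * W.a₂ * x' + W.a₄)) = -(W.a₁ * (y' - y)) := by ring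
    rw [this, Valuation.map_neg, map_mul]
    calc v W.a₁ * v (y' - y) ≤ 1 * v (y' - y) := mul_le_mul_left h1 _
      _ = v (y' - y) := one_mul _
      _ < 1 := hyy
  · rw [slope_of_X_ne hX]
    have hd0 : x' - x ≠ 0 := sub_ne_zero.mpr hX
    by_cases hY1 : v (2 * y + W.a₁ * x + W.a₃) = 1
    · refine R3_one_lt_of_mul_eq v (n := y' - W.negY x y) ?_ hxx (div_mul_cancel₀ _ hd0)
      refine R3_val_eq_one_of_sub_lt v hY1 ?_
      have : y' - W.negY x y - (2 * y + W.a₁ * x + W.a₃) = y' - y := by rw [negY]; ring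
      rw [this]; exact hyy
    · have hWYlt : v (2 * y + W.a₁ * x + W.a₃) < 1 := lt_of_le_of_ne hWY hY1
      have hWX : v (W.a₁ * y - (3 * x ^ 2 + 2 * W.a₂ * x + W.a₄)) = 1 := by
        rcases hns with e | e
        · exact e
        · exact absurd e hY1
      have hWX' : v (-(W.a₁ * y - (3 * x ^ 2 + 2 * W.a₂ * x + W.a₄))) = 1 := by
        rw [Valuation.map_neg]; exact hWX
      refine R3_one_lt_of_mul_eq v
        (d := (y' - y) + W.a₁ * (x' - x))
        (n := x' ^ 2 + x' * x + x ^ 2 + W.a₂ * (x' + x) + W.a₄ - W.a₁ * W.negY x y) ?_ ?_ ?_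
      · refine R3_val_eq_one_of_sub_lt v hWX' ?_
        have : x' ^ 2 + x' * x + x ^ 2 + W.a₂ * (x' + x) + W.a₄ - W.a₁ * W.negY x y
            - -(W.a₁ * y - (3 * x ^ 2 + 2 * W.a₂ * x + W.a₄))
            = (x' - x) * (x' + 2 * x + W.a₂) + W.a₁ * (2 * y + W.a₁ * x + W.a₃) := by
          rw [negY]; ring
        rw [this]
        refine Valuation.map_add_lt v ?_ ?_
        · rw [map_mul]
          have hb : v (x' + 2 * x + W.a₂) ≤ 1 := by
            refine Valuation.map_add_le v (Valuation.map_add_le v hx' ?_) h2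
            have : (2 : K) * x = x + x := by ring
            rw [this]; exact Valuation.map_add_le v hx hx
          calc v (x' - x) * v (x' + 2 * x + W.a₂) ≤ v (x' - x) * 1 := mul_le_mul_right hb _
            _ = v (x' - x) := mul_one _
            _ < 1 := hxx
        · rw [map_mul]
          calc v W.a₁ * v (2 * y + W.a₁ * x + W.a₃) ≤ 1 * v (2 * y + W.a₁ * x + W.a₃) :=
                mul_le_mul_left h1 _
            _ = v (2 * y + W.a₁ * x + W.a₃) := one_mul _
            _ < 1 := hWYlt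
      · refine Valuation.map_add_lt v hyy ?_
        rw [map_mul]
        calc v W.a₁ * v (x' - x) ≤ 1 * v (x' - x) := mul_le_mul_left h1 _
          _ = v (x' - x) := one_mul _
          _ < 1 := hxx
      · rw [div_mul_eq_mul_div, div_eq_iff hd0, negY]
        linear_combination heq' - heq

end Fermat.Agent.S13
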