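import Fermat.Agent.S13.Defs2
import Fermat.Agent.S13.R1
import Fermat.Agent.S13.R3

/-!
# S13-LPgen: `(σ-1)^2 Q` lies in the kernel of reduction
-/

set_option autoImplicit false

namespace Fermat.Agent.S13

open Polynomial WeierstrassCurve WeierstrassCurve.Affine

variable {K : Type*} [Field K] [DecidableEq K] {Γ₀ : Type*} [LinearOrderedCommGroupWithZero Γ₀]
  (v : Valuation K Γ₀) {W : WeierstrassCurve.Affine K}

/-- `act` preserves the kernel of reduction. -/
lemma LPgen_inE1_act (σ : K →+* K) (hσ : IsInertial v σ)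
    (act : W.Point →+ W.Point)
    (hact : ∀ x y (h : W.Nonsingular x y), ∃ h' : W.Nonsingular (σ x) (σ y),
      act (Point.some x y h) = Point.some (σ x) (σ y) h')
    {Q : W.Point} (hQ : InE1 v Q) : InE1 v (act Q) := by
  cases Q with
  | zero =>
    have h0 : act (Point.zero : W.Point) = 0 := map_zero act
    rw [h0]; trivial
  | some x y h =>
    obtain ⟨h', e⟩ := hact x y h
    rw [e]
    show 1 < v (σ x)
    rw [hσ.map_val]
    exact hQ

/-- `σ - 1` preserves the kernel of reduction. -/
lemma LPgen_inE1_act_sub (hW : IntegralCoeffs v W) (σ : K →+* K) (hσ : IsInertial v σ)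
    (act : W.Point →+ W.Point)
    (hact : ∀ x y (h : W.Nonsingular x y), ∃ h' : W.Nonsingular (σ x) (σ y),
      act (Point.some x y h) = Point.some (σ x) (σ y) h')
    {Q : W.Point} (hQ : InE1 v Q) : InE1 v (act Q - Q) := by
  rw [sub_eq_add_neg]
  exact inE1_add v hW (LPgen_inE1_act v σ hσ act hact hQ) (inE1_neg v hQ)

/-- an integral point with nonsingular reduction is moved by `σ - 1` into the kernel of
reduction. -/
lemma LPgen_inE1_of_goodRed (hW : IntegralCoeffs v W) (σ : K →+* K) (hσ : IsInertial v σ)
    (act : W.Point →+ W.Point)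
    (hact : ∀ x y (h : W.Nonsingular x y), ∃ h' : W.Nonsingular (σ x) (σ y),
      act (Point.some x y h) = Point.some (σ x) (σ y) h')
    {x y : K} (h : W.Nonsingular x y) (hx : v x ≤ 1) (hg : GoodRed v W x y) :
    InE1 v (act (Point.some x y h) - Point.some x y h) := by
  obtain ⟨h', e⟩ := hact x y h
  rw [e]
  have hy : v y ≤ 1 := R1.val_y_le_one v hW h.1 hx
  exact inE1_sub_of_same_reduction v hW h h' hx hy (hσ.sub_lt x hx) (hσ.sub_lt y hy) hg

theorem LPgen (hW : IntegralCoeffs v W) (σ : K →+* K) (hσ : IsInertial v σ)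
    (act : W.Point →+ W.Point)
    (hact : ∀ x y (h : W.Nonsingular x y), ∃ h' : W.Nonsingular (σ x) (σ y),
      act (Point.some x y h) = Point.some (σ x) (σ y) h')
    (H : NodeProp v W σ) (Q : W.Point) : InE1 v (act (act Q - Q) - (act Q - Q)) := by
  -- it suffices to show: `act Q - Q` is in `E1`, or is an integral point of good reduction
  have key : ∀ R : W.Point, InE1 v R → InE1 v (act R - R) :=
    fun R hR => LPgen_inE1_act_sub v hW σ hσ act hact hR
  cases Q with
  | zero =>
    exact key _ (key _ trivial)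
  | some x y h =>
    by_cases hx : v x ≤ 1
    · by_cases hg : GoodRed v W x y
      · exact key _ (LPgen_inE1_of_goodRed v hW σ hσ act hact h hx hg)
      · obtain ⟨h', e⟩ := hact x y h
        rcases H x y h h' hx hg with h0 | ⟨x₃, y₃, h₃, e₃, h13 | hg3⟩
        · rw [e, h0]
          exact key _ trivial
        · rw [e, e₃]
          exact key _ h13
        · rw [e, e₃]
          by_cases hx3 : v x₃ ≤ 1
          · exact LPgen_inE1_of_goodRed v hW σ hσ act hact h₃ hx3 hg3
          · exact key _ (not_le.mp hx3)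
    · exact key _ (key _ (not_le.mp hx))

end Fermat.Agent.S13
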