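import Fermat.Agent.S13.TwoAdic
import Fermat.Agent.Lib.FreyCurveBasic
import Fermat.Prelude.Def_FLTPrelim_GaloisRep

/-!
# The Frey curve has no nonzero Galois-fixed `p`-torsion point
-/

set_option autoImplicit false

namespace Fermat.Agent.S13.T2

open WeierstrassCurve WeierstrassCurve.Affine WeierstrassCurve.Affine.Point
open Fermat.Agent.Lib.FreyCurveBasic

lemma frey_a_odd (P : FreyPackage) : ¬ (2 : ℤ) ∣ P.a := by
  intro ha
  have hb : (2 : ℤ) ∣ P.b := (ZMod.intCast_zmod_eq_zero_iff_dvd P.b 2).1 P.hb2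
  have := dvd_gcd ha hb
  rw [P.hgcdab] at this
  omega

lemma frey_a₄_ne_zero (P : FreyPackage) : P.freyCurveInt.a₄ ≠ 0 := by
  intro h
  have := sixteen_mul_a₄ P
  rw [h, mul_zero] at this
  have h2 : -(P.a ^ P.p) * (P.b ^ P.p) ≠ 0 :=
    mul_ne_zero (neg_ne_zero.mpr (pow_ne_zero _ P.ha0)) (pow_ne_zero _ P.hb0)
  exact h2 this.symm

lemma v2_sixteen : v2 16 = 4 := by
  have : (16 : ℚ) = 4 * 4 := by norm_num
  rw [this, v2_mul (by norm_num) (by norm_num), v2_four]; norm_num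

/-- `v₂(a₄) + 4 = p · v₂(b)` -/
lemma frey_v2_a₄ (P : FreyPackage) :
    (padicValInt 2 P.freyCurveInt.a₄ : ℤ) + 4 = P.p * (padicValInt 2 P.b : ℤ) := by
  have h := sixteen_mul_a₄ P
  have hq : (16 : ℚ) * (P.freyCurveInt.a₄ : ℚ) = -((P.a : ℚ) ^ P.p) * ((P.b : ℚ) ^ P.p) := by
    exact_mod_cast h
  have ha4 : (P.freyCurveInt.a₄ : ℚ) ≠ 0 := by exact_mod_cast frey_a₄_ne_zero P
  have ha : (P.a : ℚ) ≠ 0 := by exact_mod_cast P.ha0
  have hb : (P.b : ℚ) ≠ 0 := by exact_mod_cast P.hb0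
  have hv := congrArg v2 hq
  rw [v2_mul (by norm_num) ha4, v2_sixteen,
    v2_mul (neg_ne_zero.mpr (pow_ne_zero _ ha)) (pow_ne_zero _ hb), v2_neg] at hv
  have e1 : v2 ((P.a : ℚ) ^ P.p) = 0 := by
    rw [v2, padicValRat.pow, padicValRat.of_int, padicValInt.eq_zero_of_not_dvd (frey_a_odd P)]
    simp
  have e2 : v2 ((P.b : ℚ) ^ P.p) = P.p * (padicValInt 2 P.b : ℤ) := by
    rw [v2, padicValRat.pow, padicValRat.of_int]
  have e3 : v2 (P.freyCurveInt.a₄ : ℚ) = (padicValInt 2 P.freyCurveInt.a₄ : ℤ) :=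
    padicValRat.of_int
  rw [e1, e2, e3] at hv
  omega

lemma frey_two_dvd_a₄ (P : FreyPackage) : (2 : ℤ) ∣ P.freyCurveInt.a₄ := by
  have h := frey_v2_a₄ P
  have hb : (2 : ℤ) ∣ P.b := (ZMod.intCast_zmod_eq_zero_iff_dvd P.b 2).1 P.hb2
  have hvb : 1 ≤ padicValInt 2 P.b := by
    unfold padicValInt
    exact one_le_padicValNat_of_dvd (Int.natAbs_ne_zero.mpr P.hb0)
      (Int.natCast_dvd.mp (by simpa using hb))
  have hp5 := P.hp5
  have h1 : (5 : ℤ) ≤ P.p * (padicValInt 2 P.b : ℤ) := by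
    have h5 : (5 : ℤ) ≤ P.p := by exact_mod_cast hp5
    have h6 : (1 : ℤ) ≤ (padicValInt 2 P.b : ℤ) := by exact_mod_cast hvb
    nlinarith
  by_contra hnd
  have := padicValInt.eq_zero_of_not_dvd (p := 2) hnd
  rw [this] at h
  push_cast at h
  omega

lemma frey_not_dvd (P : FreyPackage) :
    ¬ (P.p : ℤ) ∣ 2 * (padicValInt 2 P.freyCurveInt.a₄ : ℤ) := by
  intro hd
  have h := frey_v2_a₄ P
  have h8 : (P.p : ℤ) ∣ 8 := by
    have e : (8 : ℤ) = P.p * (2 * (padicValInt 2 P.b : ℤ))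
        - 2 * (padicValInt 2 P.freyCurveInt.a₄ : ℤ) := by linarith
    rw [e]
    exact dvd_sub (Dvd.intro _ rfl) hd
  have h8' : P.p ∣ 8 := by exact_mod_cast h8
  have hp5 := P.hp5
  have hle := Nat.le_of_dvd (by norm_num) h8'
  have hpp := P.pp
  generalize P.p = p at *
  interval_cases p <;> first | omega | (exact absurd hpp (by norm_num))

/-- **The Frey curve has no nonzero rational `p`-torsion point.** -/
theorem frey_no_rational_torsion (P : FreyPackage) (Q : (P.freyCurve⁄ℚ).Point)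
    (hQ : P.p • Q = 0) : Q = 0 := by
  by_contra hne
  have hmap := freyCurveInt_map P
  refine no_rational_torsion_two_adic (P.freyCurve⁄ℚ) P.freyCurveInt.a₂ P.freyCurveInt.a₄
    ?_ ?_ ?_ ?_ ?_ (frey_a₄_ne_zero P) (frey_two_dvd_a₄ P) P.p P.pp P.hp5 (frey_not_dvd P) Q hne hQ
  · simp [FreyPackage.freyCurve]
  · rw [← hmap]; simp
  · simp [FreyPackage.freyCurve]
  · rw [← hmap]; simp
  · simp [FreyPackage.freyCurve]

/-- `ℚ̄/ℚ` is Galois, for the `ℚ`-algebra instance found by instance search. -/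
lemma isGalois_algebraicClosure_rat : IsGalois ℚ (AlgebraicClosure ℚ) := by
  have h : @IsGalois ℚ _ (AlgebraicClosure ℚ) _ (AlgebraicClosure.instAlgebra ℚ) := inferInstance
  exact h

/-- **The Frey curve has no nonzero Galois-fixed `p`-torsion point over `ℚ̄`.** -/
theorem eq_zero_of_galois_fixed_of_torsion (P : FreyPackage)
    (Q : (P.freyCurve⁄(AlgebraicClosure ℚ)).Point)
    (hfix : ∀ σ : AlgebraicClosure ℚ ≃ₐ[ℚ] AlgebraicClosure ℚ, σ • Q = Q)
    (hQ : P.p • Q = 0) : Q = 0 := by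
  match Q with
  | .zero => rfl
  | .some x y h =>
    have hx : ∀ σ : AlgebraicClosure ℚ ≃ₐ[ℚ] AlgebraicClosure ℚ, σ x = x := fun σ => by
      have := hfix σ
      rw [algEquiv_smul_def, Point.map_some] at this
      exact (Point.some.inj this).1
    have hy : ∀ σ : AlgebraicClosure ℚ ≃ₐ[ℚ] AlgebraicClosure ℚ, σ y = y := fun σ => by
      have := hfix σ
      rw [algEquiv_smul_def, Point.map_some] at this
      exact (Point.some.inj this).2
    have := isGalois_algebraicClosure_rat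
    obtain ⟨x₀, rfl⟩ := (InfiniteGalois.mem_range_algebraMap_iff_fixed x).mpr hx
    obtain ⟨y₀, rfl⟩ := (InfiniteGalois.mem_range_algebraMap_iff_fixed y).mpr hy
    have h₀ : (P.freyCurve⁄ℚ).Nonsingular x₀ y₀ :=
      (Affine.baseChange_nonsingular P.freyCurve (f := Algebra.ofId ℚ (AlgebraicClosure ℚ))
        (Algebra.ofId ℚ (AlgebraicClosure ℚ)).injective x₀ y₀).mp h
    have hm : Point.map (W' := P.freyCurve) (Algebra.ofId ℚ (AlgebraicClosure ℚ))
        (Point.some x₀ y₀ h₀) = Point.some _ _ h := rfl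
    have h0 : P.p • (Point.some x₀ y₀ h₀ : (P.freyCurve⁄ℚ).Point) = 0 := by
      apply Point.map_injective (W' := P.freyCurve) (Algebra.ofId ℚ (AlgebraicClosure ℚ))
      rw [map_nsmul, hm, hQ, _root_.map_zero]
    have := frey_no_rational_torsion P _ h0
    exact absurd this (Point.some_ne_zero h₀)

end Fermat.Agent.S13.T2
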