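import Fermat.Agent.S13.TorsMod
import Fermat.Agent.S13.T2Frey

set_option autoImplicit false

namespace Fermat.Agent.S13

open WeierstrassCurve WeierstrassCurve.Affine WeierstrassCurve.Affine.Point FreyPackage Polynomial

local notation "Qbar" => AlgebraicClosure ℚ

/-- every `x₀` is the `x`-coordinate of a point of the Frey curve -/
lemma exists_point_with_x (P : FreyPackage) (x₀ : Qbar) : ∃ y₀, (EK P).Nonsingular x₀ y₀ := by
  obtain ⟨s, hs⟩ := IsAlgClosed.exists_eq_mul_self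
    (x₀ ^ 2 + 4 * (x₀ ^ 3 + (EK P).a₂ * x₀ ^ 2 + (EK P).a₄ * x₀))
  refine ⟨(-x₀ + s) / 2, ?_⟩
  rw [← equation_iff_nonsingular_of_Δ_ne_zero (EK_Δ_ne_zero P), equation_iff, EK_a₁, EK_a₃, EK_a₆]
  field_simp
  linear_combination -hs

lemma rat_of_fixed (z : Qbar) (hz : ∀ σ : Qbar ≃ₐ[ℚ] Qbar, σ z = z) : ∃ q : ℚ, (q : Qbar) = z := by
  have := T2.isGalois_algebraicClosure_rat
  have h1 : z ∈ IntermediateField.fixedField (⊥ : IntermediateField ℚ Qbar).fixingSubgroup := by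
    rw [IntermediateField.mem_fixedField_iff]
    intro f _
    exact hz f
  rw [InfiniteGalois.fixedField_fixingSubgroup, IntermediateField.mem_bot] at h1
  obtain ⟨q, hq⟩ := h1
  exact ⟨q, by rw [← hq]; simp⟩

lemma dd_pos (P : FreyPackage) : 0 < dd P := by
  have := one_le_mm P
  unfold dd; positivity

lemma p_lt_dd (P : FreyPackage) : P.p < dd P := by
  have h1 := one_le_mm P
  have h2 := p_eq P
  unfold dd
  nlinarith

lemma hZ_mod (P : FreyPackage) : (hZ P).map (Int.castRingHom (ZMod P.p)) ≠ 0 :=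
  hpoly_mod_p_ne_zero P.p P.pp (by have := P.hp5; omega) P.freyCurveInt rfl rfl rfl
    (P.a ^ P.p) (P.b ^ P.p) (P.c ^ P.p) P.hFLT (four_mul_a₂ P) (sixteen_mul_a₄ P) (isCoprime_AB P)
    (mm P) (one_le_mm P)

theorem FV_ne_top {Γ₀ : Type*} [LinearOrderedCommGroupWithZero Γ₀] (v : Valuation Qbar Γ₀) (P : FreyPackage)
    (hvp : v (P.p : Qbar) < 1) (N : Submodule (ZMod P.p) (VK P)) (hN1 : Module.finrank (ZMod P.p) N = 1)
    (hst : IsGaloisStable ℚ N) : FV v P ≠ ⊤ := by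
  classical
  intro htop
  have hall : ∀ x : VK P, InE1 v (x : (EK P).Point) := fun x => by
    rw [← mem_FV, htop]; trivial
  have hroots : ∀ x : Qbar, ((hZ P).map (Int.castRingHom Qbar)).eval x = 0 → 1 < v x := by
    intro x₀ h0
    obtain ⟨y₀, h⟩ := exists_point_with_x P x₀
    have h1 := (torsion_iff_root P h).2 h0
    exact hall ⟨Point.some x₀ y₀ h, (mem_VK P _).2 h1⟩
  have hNP := newton_polygon v P.p P.pp hvp (hZ P) (dd P) (dd_pos P) (hZ_natDegree_le P) (hZ_coeff P)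
    (hZ_mod P) hroots
  -- the set of `x`-coordinates
  have : Fintype N := Fintype.ofFinite N
  let S : Finset Qbar := (Finset.univ.filter (fun Q : N => Q ≠ 0)).image
    (fun Q : N => xCoord ((Q : VK P) : (EK P).Point))
  have hmemS : ∀ ξ, ξ ∈ S ↔ ∃ Q : VK P, Q ∈ N ∧ Q ≠ 0 ∧ xCoord (Q : (EK P).Point) = ξ := by
    intro ξ
    simp only [S, Finset.mem_image, Finset.mem_filter, Finset.mem_univ, true_and]
    constructor
    · rintro ⟨Q, hQ0, rfl⟩
      exact ⟨Q, Q.2, fun h => hQ0 (Subtype.ext h), rfl⟩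
    · rintro ⟨Q, hQN, hQ0, rfl⟩
      exact ⟨⟨Q, hQN⟩, fun h => hQ0 (congrArg Subtype.val h), rfl⟩
  have hScard : S.card ≤ P.p := by
    have h1 : S.card ≤ Fintype.card N :=
      le_trans Finset.card_image_le (Finset.card_le_univ _)
    have : Module.Finite (ZMod P.p) N := Module.Finite.of_finite
    have h2 : Nat.card N = P.p := by
      rw [Module.natCard_eq_pow_finrank (K := ZMod P.p), hN1, pow_one, Nat.card_zmod]
    rw [← h2, Nat.card_eq_fintype_card]; exact h1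
  have hSne : 0 < S.card := by
    have hb : N ≠ ⊥ := by
      intro h
      rw [h, finrank_bot] at hN1
      exact zero_ne_one hN1
    obtain ⟨x, hx, hx0⟩ := (Submodule.ne_bot_iff N).1 hb
    exact Finset.card_pos.2 ⟨_, (hmemS _).2 ⟨x, hx, hx0, rfl⟩⟩
  have hSroot : ∀ ξ ∈ S, v ξ ^ dd P * v (P.p : Qbar) = 1 := by
    intro ξ hξ
    obtain ⟨⟨Q, hQ⟩, -, hQ0, rfl⟩ := (hmemS ξ).1 hξ
    rcases Q with _ | ⟨a, b, h⟩
    · exact absurd rfl hQ0
    · exact hNP a ((torsion_iff_root P h).1 ((mem_VK P _).1 hQ))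
  have hSσ : ∀ σ : Qbar ≃ₐ[ℚ] Qbar, S.image σ = S := by
    intro σ
    apply Finset.eq_of_subset_of_card_le
    · intro ξ hξ
      obtain ⟨ξ', hξ', rfl⟩ := Finset.mem_image.1 hξ
      obtain ⟨Q, hQN, hQ0, rfl⟩ := (hmemS ξ').1 hξ'
      refine (hmemS _).2 ⟨σ • Q, hst σ Q hQN, ?_, ?_⟩
      · intro h
        apply hQ0
        have := congrArg (fun z => σ⁻¹ • z) h
        simpa using this
      · obtain ⟨Q, hQ⟩ := Q
        rcases Q with _ | ⟨a, b, h⟩
        · exact (map_zero σ).symm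
        · rfl
    · rw [Finset.card_image_of_injective _ σ.injective]
  obtain ⟨q, hq⟩ := rat_of_fixed (∏ ξ ∈ S, ξ) (fun σ => by
    rw [map_prod]
    conv_rhs => rw [← hSσ σ]
    rw [Finset.prod_image (fun a _ b _ hab => σ.injective hab)])
  have hprod : v (∏ ξ ∈ S, ξ) ^ dd P * v (P.p : Qbar) ^ S.card = 1 := by
    rw [map_prod, ← Finset.prod_pow, ← Finset.prod_const, ← Finset.prod_mul_distrib]
    exact Finset.prod_eq_one hSroot
  have hp0 : v (P.p : Qbar) ≠ 0 := by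
    rw [Valuation.ne_zero_iff]; exact_mod_cast P.hp0
  have hq0 : q ≠ 0 := by
    rintro rfl
    rw [← hq] at hprod
    simp [(dd_pos P).ne'] at hprod
  obtain ⟨k, hk⟩ := val_rat_eq_zpow v P.p P.pp hvp q hq0
  rw [← hq, hk, ← zpow_natCast, ← zpow_mul, ← zpow_natCast, ← zpow_add₀ hp0] at hprod
  rw [zpow_eq_one_iff_right₀ zero_le hvp.ne] at hprod
  have h1 : (dd P : ℤ) ∣ (S.card : ℤ) := ⟨-k, by linarith⟩
  have h2 : dd P ∣ S.card := by exact_mod_cast h1
  have h3 := Nat.le_of_dvd hSne h2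
  have h4 := p_lt_dd P
  omega

end Fermat.Agent.S13
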