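import Fermat.Agent.S13.Defs

/-! # S13: more shared definitions -/

set_option autoImplicit false

namespace Fermat.Agent.S13

open WeierstrassCurve WeierstrassCurve.Affine

variable {K : Type*} [Field K] {Γ₀ : Type*} [LinearOrderedCommGroupWithZero Γ₀]

/-- The (integral) point `(x,y)` has nonsingular reduction: one of the two partial derivatives
is a `v`-unit. -/
def GoodRed (v : Valuation K Γ₀) (W : WeierstrassCurve.Affine K) (x y : K) : Prop :=
  v (W.a₁ * y - (3 * x ^ 2 + 2 * W.a₂ * x + W.a₄)) = 1 ∨ v (2 * y + W.a₁ * x + W.a₃) = 1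

/-- The key local property of `σ` on points with singular reduction: `σ P - P` is `0`, or lies in
the kernel of reduction, or has nonsingular reduction. -/
def NodeProp [DecidableEq K] (v : Valuation K Γ₀) (W : WeierstrassCurve.Affine K) (σ : K →+* K) : Prop :=
  ∀ x y (h : W.Nonsingular x y) (h' : W.Nonsingular (σ x) (σ y)), v x ≤ 1 → ¬ GoodRed v W x y →
    Point.some (σ x) (σ y) h' - Point.some x y h = 0 ∨
    ∃ x₃ y₃, ∃ h₃ : W.Nonsingular x₃ y₃,
      Point.some (σ x) (σ y) h' - Point.some x y h = Point.some x₃ y₃ h₃ ∧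
        (1 < v x₃ ∨ GoodRed v W x₃ y₃)

end Fermat.Agent.S13
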