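import Fermat.Agent.S13.Defs

/-!
# S13-NP: Newton polygon lemma and values of rationals
-/

set_option autoImplicit false

namespace Fermat.Agent.S13

open Polynomial

section NPaux

variable {K : Type*} [Field K]
  {Γ₀ : Type*} [LinearOrderedCommGroupWithZero Γ₀] (v : Valuation K Γ₀)

lemma np_val_intCast_le_one (n : ℤ) : v (n : K) ≤ 1 :=
  (Valuation.mem_integer_iff v _).1 (intCast_mem v.integer n)

lemma np_val_intCast_eq_one (p : ℕ) (hp : p.Prime) (hvp : v (p : K) < 1) (n : ℤ)
    (hn : ¬ (p : ℤ) ∣ n) : v (n : K) = 1 := by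
  refine le_antisymm (np_val_intCast_le_one v n) (not_lt.1 fun hlt => ?_)
  have hcop : IsCoprime n (p : ℤ) :=
    ((Nat.prime_iff_prime_int.1 hp).coprime_iff_not_dvd.2 hn).symm
  obtain ⟨a, b, hab⟩ := hcop
  have h1 : ((a : K) * (n : K) + (b : K) * (p : K)) = 1 := by exact_mod_cast congrArg (Int.cast : ℤ → K) hab
  have h2 : v ((a : K) * (n : K)) < 1 := by
    rw [map_mul]
    exact lt_of_le_of_lt (mul_le_of_le_one_left' (np_val_intCast_le_one v a)) hlt
  have h3 : v ((b : K) * (p : K)) < 1 := by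
    rw [map_mul]
    exact lt_of_le_of_lt (mul_le_of_le_one_left' (np_val_intCast_le_one v b)) hvp
  have h4 := v.map_add_lt h2 h3
  rw [h1, map_one] at h4
  exact lt_irrefl _ h4

lemma np_val_intCast_le_of_dvd (p : ℕ) (n : ℤ) (hn : (p : ℤ) ∣ n) : v (n : K) ≤ v (p : K) := by
  obtain ⟨m, rfl⟩ := hn
  push_cast
  rw [map_mul]
  exact mul_le_of_le_one_right' (np_val_intCast_le_one v m)

/-- A product of `X - a` with all `v a > 1` is a constant times a polynomial with constant
coefficient `1` and all other coefficients of valuation `< 1`. -/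
lemma np_prod_form (s : Multiset K) (hs : ∀ a ∈ s, 1 < v a) :
    ∃ (c : K) (q : K[X]), (s.map (fun a => X - C a)).prod = C c * q ∧ q.coeff 0 = 1 ∧
      ∀ j, 0 < j → v (q.coeff j) < 1 := by
  induction s using Multiset.induction_on with
  | empty => 
    refine ⟨1, 1, by simp, by simp, fun j hj => ?_⟩
    rw [coeff_one, if_neg (by omega), map_zero]
    exact zero_lt_one
  | cons a s ih =>
    obtain ⟨c, q, hq, hq0, hqj⟩ := ih (fun b hb => hs b (Multiset.mem_cons_of_mem hb))
    have ha : 1 < v a := hs a (Multiset.mem_cons_self a s)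
    have ha0 : a ≠ 0 := by
      rintro rfl
      rw [map_zero] at ha
      exact not_lt_of_ge zero_le ha
    have hainv : v a⁻¹ < 1 := by
      rw [map_inv₀]
      exact inv_lt_one_of_one_lt₀ ha
    have hqle : ∀ j, v (q.coeff j) ≤ 1 := by
      intro j
      rcases Nat.eq_zero_or_pos j with rfl | hj
      · rw [hq0, map_one]
      · exact (hqj j hj).le
    refine ⟨-a * c, q - C a⁻¹ * (X * q), ?_, ?_, ?_⟩
    · rw [Multiset.map_cons, Multiset.prod_cons, hq]
      have : C (-a * c) * (q - C a⁻¹ * (X * q)) = C c * q * (C (-a) - C (-a) * C a⁻¹ * X) := by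
        rw [C_mul]; ring
      rw [this, ← C_mul, neg_mul, mul_inv_cancel₀ ha0]
      simp only [C_neg, C_1]
      ring
    · simp [hq0]
    · intro j hj
      obtain ⟨i, rfl⟩ : ∃ i, j = i + 1 := ⟨j - 1, by omega⟩
      rw [coeff_sub, coeff_C_mul, coeff_X_mul]
      refine v.map_sub_lt (hqj _ hj) ?_
      rw [map_mul]
      exact lt_of_le_of_lt (mul_le_of_le_one_right' (hqle i)) hainv

end NPaux

variable {K : Type*} [Field K] [IsAlgClosed K] [CharZero K]
  {Γ₀ : Type*} [LinearOrderedCommGroupWithZero Γ₀] (v : Valuation K Γ₀)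

theorem newton_polygon (p : ℕ) (hp : p.Prime) (hvp : v (p : K) < 1) (h : ℤ[X]) (d : ℕ) (hd : 0 < d)
    (hdeg : h.natDegree ≤ d) (hlc : h.coeff d = -(p : ℤ))
    (hmod : h.map (Int.castRingHom (ZMod p)) ≠ 0)
    (hroots : ∀ x : K, (h.map (Int.castRingHom K)).eval x = 0 → 1 < v x)
    (x : K) (hx : (h.map (Int.castRingHom K)).eval x = 0) : v x ^ d * v (p : K) = 1 := by
  set H : K[X] := h.map (Int.castRingHom K) with hH
  have hcoeff : ∀ j, H.coeff j = ((h.coeff j : ℤ) : K) := fun j => by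
    rw [hH, coeff_map]; rfl
  have hpK : (p : K) ≠ 0 := Nat.cast_ne_zero.2 hp.ne_zero
  have hvp0 : v (p : K) ≠ 0 := (Valuation.ne_zero_iff v).2 hpK
  have hH0 : H ≠ 0 := by
    intro h0
    have := hcoeff d
    rw [h0, hlc, coeff_zero] at this
    push_cast at this
    exact hpK (neg_eq_zero.1 this.symm)
  -- Step 1
  obtain ⟨c, q, hq, hq0, hqj⟩ := np_prod_form v H.roots (fun a ha => hroots a ((mem_roots hH0).1 ha))
  have hsplit : H = C H.leadingCoeff * (H.roots.map (fun a => X - C a)).prod :=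
    (IsAlgClosed.splits H).eq_prod_roots
  have hform : H = C (H.leadingCoeff * c) * q := by
    rw [C_mul, mul_assoc, ← hq]; exact hsplit
  have hc0 : H.coeff 0 = H.leadingCoeff * c := by
    rw [hform, coeff_C_mul, hq0, mul_one]
    rw [← hform]
  have hcj : ∀ j, 0 < j → v (H.coeff j) < 1 := by
    intro j hj
    have : H.coeff j = H.coeff 0 * q.coeff j := by
      rw [hc0]; conv_lhs => rw [hform, coeff_C_mul]
    rw [this, map_mul, hcoeff 0]
    exact lt_of_le_of_lt (mul_le_of_le_one_left' (np_val_intCast_le_one v _)) (hqj j hj)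
  have hdvd : ∀ j, 0 < j → (p : ℤ) ∣ h.coeff j := by
    intro j hj
    by_contra hnd
    have := hcj j hj
    rw [hcoeff j, np_val_intCast_eq_one v p hp hvp _ hnd] at this
    exact lt_irrefl _ this
  have hnd0 : ¬ (p : ℤ) ∣ h.coeff 0 := by
    intro h0
    apply hmod
    ext j
    rw [coeff_map, coeff_zero]
    have : (p : ℤ) ∣ h.coeff j := by
      rcases Nat.eq_zero_or_pos j with rfl | hj
      · exact h0
      · exact hdvd j hj
    simpa using (ZMod.intCast_zmod_eq_zero_iff_dvd _ _).2 this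
  have hv0 : v (H.coeff 0) = 1 := by
    rw [hcoeff 0]; exact np_val_intCast_eq_one v p hp hvp _ hnd0
  -- Step 2
  have hg : 1 < v x := hroots x hx
  have hg0 : v x ≠ 0 := (zero_lt_one.trans hg).ne'
  have hdegH : H.natDegree < d + 1 := lt_of_le_of_lt natDegree_map_le (Nat.lt_succ_of_le hdeg)
  have hsum : ∑ i ∈ Finset.range (d + 1), H.coeff i * x ^ i = 0 := by
    rw [← eval_eq_sum_range' hdegH]; exact hx
  have hTd : v (H.coeff d * x ^ d) = v x ^ d * v (p : K) := by
    rw [hcoeff d, hlc]; push_cast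
    rw [map_mul, Valuation.map_neg, map_pow, mul_comm]
  have hTj : ∀ j, 0 < j → j < d → v (H.coeff j * x ^ j) < v x ^ d * v (p : K) := by
    intro j hj hjd
    rw [map_mul, map_pow, hcoeff j, mul_comm]
    calc v x ^ j * v ((h.coeff j : ℤ) : K) ≤ v x ^ j * v (p : K) :=
          mul_le_mul_right (np_val_intCast_le_of_dvd v p _ (hdvd j hj)) _
      _ < v x ^ d * v (p : K) := by
          have : v x ^ j < v x ^ d := pow_lt_pow_right₀ hg hjd
          exact mul_lt_mul_of_pos_right this (zero_lt_iff.2 hvp0)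
  rcases lt_trichotomy (v x ^ d * v (p : K)) 1 with hlt | heq | hgt
  · -- all terms `j > 0` are small
    exfalso
    rw [Finset.sum_range_succ'] at hsum
    have hsmall : v (∑ i ∈ Finset.range d, H.coeff (i + 1) * x ^ (i + 1)) < 1 := by
      refine Valuation.map_sum_lt v one_ne_zero (fun i hi => ?_)
      have hid : i + 1 ≤ d := Finset.mem_range.1 hi
      rcases hid.lt_or_eq with h1 | h1
      · exact (hTj (i + 1) (Nat.succ_pos i) h1).trans hlt
      · rw [h1, hTd]; exact hlt
    have : ∑ i ∈ Finset.range d, H.coeff (i + 1) * x ^ (i + 1) = - H.coeff 0 := by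
      rw [pow_zero, mul_one] at hsum
      exact eq_neg_of_add_eq_zero_left hsum
    rw [this, Valuation.map_neg, hv0] at hsmall
    exact lt_irrefl _ hsmall
  · exact heq
  · exfalso
    rw [Finset.sum_range_succ] at hsum
    have hne : v x ^ d * v (p : K) ≠ 0 := mul_ne_zero (pow_ne_zero _ hg0) hvp0
    have hsmall : v (∑ i ∈ Finset.range d, H.coeff i * x ^ i) < v x ^ d * v (p : K) := by
      refine Valuation.map_sum_lt v hne (fun i hi => ?_)
      have hid : i < d := Finset.mem_range.1 hi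
      rcases Nat.eq_zero_or_pos i with rfl | hi0
      · rw [pow_zero, mul_one, hv0]; exact hgt
      · exact hTj i hi0 hid
    have : ∑ i ∈ Finset.range d, H.coeff i * x ^ i = - (H.coeff d * x ^ d) :=
      eq_neg_of_add_eq_zero_left hsum
    rw [this, Valuation.map_neg, hTd] at hsmall
    exact lt_irrefl _ hsmall

omit [IsAlgClosed K] [CharZero K] in
lemma np_val_natCast_eq_pow (p : ℕ) (hp : p.Prime) (hvp : v (p : K) < 1) (n : ℕ) (hn : n ≠ 0) :
    ∃ k : ℕ, v (n : K) = v (p : K) ^ k := by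
  obtain ⟨e, m, hm, rfl⟩ := Nat.exists_eq_pow_mul_and_not_dvd hn p hp.ne_one
  refine ⟨e, ?_⟩
  have h1 : v ((m : ℤ) : K) = 1 :=
    np_val_intCast_eq_one v p hp hvp (m : ℤ) (by exact_mod_cast hm)
  push_cast at h1 ⊢
  rw [map_mul, map_pow, h1, mul_one]

omit [IsAlgClosed K] in
theorem val_rat_eq_zpow (p : ℕ) (hp : p.Prime) (hvp : v (p : K) < 1) (r : ℚ) (hr : r ≠ 0) :
    ∃ k : ℤ, v (r : K) = v (p : K) ^ k := by
  have hpK : (p : K) ≠ 0 := Nat.cast_ne_zero.2 hp.ne_zero
  have hvp0 : v (p : K) ≠ 0 := (Valuation.ne_zero_iff v).2 hpK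
  obtain ⟨a, ha⟩ := np_val_natCast_eq_pow v p hp hvp r.num.natAbs
    (Int.natAbs_ne_zero.2 (Rat.num_ne_zero.2 hr))
  obtain ⟨b, hb⟩ := np_val_natCast_eq_pow v p hp hvp r.den r.den_ne_zero
  refine ⟨(a : ℤ) - b, ?_⟩
  have hnum : v ((r.num : ℤ) : K) = v ((r.num.natAbs : ℕ) : K) := by
    rcases Int.natAbs_eq r.num with h | h
    · conv_lhs => rw [h]
      simp
    · conv_lhs => rw [h]
      simp
  rw [Rat.cast_def, map_div₀, hnum, ha, hb, zpow_sub₀ hvp0, zpow_natCast, zpow_natCast]

end Fermat.Agent.S13
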