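import Fermat.Agent.S13.Defs
import Fermat.Agent.Lib.FrobeniusExists

/-!
# S13-M: Minkowski

An open normal subgroup of `Gal(ℚ̄/ℚ)` containing an inertia group over every prime is everything.
-/

set_option autoImplicit false

namespace Fermat.Agent.S13

namespace Mink

open Fermat.Agent.Lib.FrobeniusExists
open scoped Pointwise

variable {Ω : Type*} [Field Ω] [Algebra ℚ Ω]

attribute [local instance] galAction

/-- The maximal ideal of the ring of all algebraic integers cut out by a valuation subring. -/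
noncomputable abbrev idealOf (A : ValuationSubring Ω) : Ideal (integralClosure ℤ Ω) :=
  (IsLocalRing.maximalIdeal A).comap (incl A)

/-- Dictionary: inertia for the ideal `idealOf A` implies inertia for the valuation subring. -/
theorem mem_inertiaSubgroupIn [IsGalois ℚ Ω] (A : ValuationSubring Ω) (σ : Ω ≃ₐ[ℚ] Ω)
    (hσ : σ ∈ (idealOf A).inertia (Ω ≃ₐ[ℚ] Ω)) : σ ∈ A.inertiaSubgroupIn ℚ := by
  have : CharZero Ω := algebraRat.charZero Ω
  have : Algebra.IsAlgebraic ℤ Ω :=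
    (IsFractionRing.comap_isAlgebraic_iff (A := ℤ) (K := ℚ) (C := Ω)).mpr inferInstance
  have hσQ : σ • idealOf A = idealOf A := Ideal.inertia_le_stabilizer _ hσ
  have hmem : σ ∈ A.decompositionSubgroup ℚ := by
    rw [MulAction.mem_stabilizer_iff]
    refine le_antisymm ?_ ?_
    · intro y hy
      obtain ⟨x, hx, rfl⟩ := (ValuationSubring.mem_smul_pointwise_iff_exists _ _ _).mp hy
      exact apply_mem_of_smul_eq A σ hσQ x hx
    · rw [ValuationSubring.subset_pointwise_smul_iff]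
      intro y hy
      obtain ⟨x, hx, rfl⟩ := (ValuationSubring.mem_smul_pointwise_iff_exists _ _ _).mp hy
      exact apply_mem_of_smul_eq A σ⁻¹ (inv_smul_eq_iff.mpr hσQ.symm) x hx
  refine ⟨⟨σ, hmem⟩, ?_, rfl⟩
  change MulSemiringAction.toRingAut (A.decompositionSubgroup ℚ)
      (IsLocalRing.ResidueField A) ⟨σ, hmem⟩ = 1
  ext x
  change (⟨σ, hmem⟩ : A.decompositionSubgroup ℚ) • x = x
  obtain ⟨a, rfl⟩ := IsLocalRing.residue_surjective x
  obtain ⟨s, b, hs, hsb⟩ := exists_mul_eq A (a : Ω) a.2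
  have hsb' : incl A s * a = incl A b := Subtype.ext hsb
  have hfix : ∀ c : integralClosure ℤ Ω,
      IsLocalRing.residue A ((⟨σ, hmem⟩ : A.decompositionSubgroup ℚ) • incl A c)
        = IsLocalRing.residue A (incl A c) := by
    intro c
    have h1 : (⟨σ, hmem⟩ : A.decompositionSubgroup ℚ) • incl A c = incl A (σ • c) :=
      Subtype.ext rfl
    have h2 : σ • c - c ∈ idealOf A := hσ c
    rw [Ideal.mem_comap, map_sub, ← IsLocalRing.residue_eq_zero_iff, map_sub,
      sub_eq_zero] at h2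
    rw [h1, h2]
  have hs0 : IsLocalRing.residue A (incl A s) ≠ 0 := by
    rw [Ne, IsLocalRing.residue_eq_zero_iff, ← Ideal.mem_comap, mem_comap_incl_iff]
    exact hs
  have h5 := congrArg (fun z => IsLocalRing.residue A ((⟨σ, hmem⟩ : A.decompositionSubgroup ℚ) • z))
    hsb'
  simp only [smul_mul', map_mul, hfix] at h5
  rw [← hsb', map_mul] at h5
  rw [← IsLocalRing.ResidueField.residue_smul]
  exact mul_left_cancel₀ hs0 h5

theorem smul_fixed_of_normal (H : Subgroup (Ω ≃ₐ[ℚ] Ω)) [H.Normal] (g : Ω ≃ₐ[ℚ] Ω)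
    (x : integralClosure ℤ Ω) (hx : ∀ h : H, h • x = x) (h : H) : h • (g • x) = g • x := by
  have h1 : g⁻¹ * (h : Ω ≃ₐ[ℚ] Ω) * g ∈ H := by
    have := ‹H.Normal›.conj_mem (h : Ω ≃ₐ[ℚ] Ω) h.2 g⁻¹
    simpa using this
  have h2 := hx ⟨_, h1⟩
  have h3 : (g⁻¹ * (h : Ω ≃ₐ[ℚ] Ω) * g) • x = x := h2
  change (h : Ω ≃ₐ[ℚ] Ω) • (g • x) = g • x
  rw [mul_smul, mul_smul, inv_smul_eq_iff] at h3
  exact h3

/-- The ring of `H`-invariant algebraic integers. -/
noncomputable abbrev fixedAlg (H : Subgroup (Ω ≃ₐ[ℚ] Ω)) : Subalgebra ℤ (integralClosure ℤ Ω) :=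
  FixedPoints.subalgebra ℤ (integralClosure ℤ Ω) H

/-- Lifting inertia from the finite level `B^H` to the top. -/
theorem exists_mul_mem_inertia [IsGalois ℚ Ω] (H : Subgroup (Ω ≃ₐ[ℚ] Ω)) [H.Normal]
    (hH : IsClosed (H : Set (Ω ≃ₐ[ℚ] Ω)))
    (Q : Ideal (integralClosure ℤ Ω)) [Q.IsPrime] (g : Ω ≃ₐ[ℚ] Ω)
    (hg : ∀ x : integralClosure ℤ Ω, (∀ h : H, h • x = x) → g • x - x ∈ Q) :
    ∃ h ∈ H, h * g ∈ Q.inertia (Ω ≃ₐ[ℚ] Ω) := by
  classical
  have : CompactSpace H := isCompact_iff_compactSpace.mp hH.isCompact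
  let _ : TopologicalSpace (integralClosure ℤ Ω) := ⊥
  have : DiscreteTopology (integralClosure ℤ Ω) := ⟨rfl⟩
  have hcont : ContinuousSMul (Ω ≃ₐ[ℚ] Ω) (integralClosure ℤ Ω) := by
    rw [continuousSMul_iff_stabilizer_isOpen]
    intro b
    convert stabilizer_isOpen_of_isIntegral (K := ℚ) (b : Ω) using 1
    ext g
    simp only [SetLike.mem_coe, MulAction.mem_stabilizer_iff]
    exact Subtype.ext_iff
  have : ContinuousSMul H (integralClosure ℤ Ω) := inferInstance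
  have hinv : Algebra.IsInvariant (fixedAlg H) (integralClosure ℤ Ω) H :=
    ⟨fun b hb => ⟨⟨b, hb⟩, rfl⟩⟩
  have hcomm : SMulCommClass H (fixedAlg H) (integralClosure ℤ Ω) := ⟨fun h c b => by
    change h • ((c : integralClosure ℤ Ω) * b) = (c : integralClosure ℤ Ω) * (h • b)
    rw [smul_mul', c.2 h]⟩
  -- step 1
  have hunder : (g • Q).under (fixedAlg H) = Q.under (fixedAlg H) := by
    ext x
    simp only [Ideal.under_def, Ideal.mem_comap]
    change (x : integralClosure ℤ Ω) ∈ g • Q ↔ (x : integralClosure ℤ Ω) ∈ Q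
    rw [Ideal.mem_pointwise_smul_iff_inv_smul_mem]
    have h1 := hg (g⁻¹ • (x : integralClosure ℤ Ω)) (smul_fixed_of_normal H g⁻¹ x x.2)
    rw [smul_inv_smul] at h1
    constructor
    · intro h2
      have := Q.add_mem h1 h2
      simpa using this
    · intro h2
      have := Q.sub_mem h2 h1
      simpa using this
  obtain ⟨h1, hh1⟩ := Algebra.IsInvariant.exists_smul_of_under_eq_of_profinite
    (A := fixedAlg H) (G := H) (g • Q) Q hunder
  -- step 2: `σ₁ = h₁ g` stabilises `Q` and is trivial on `B^H` modulo `Q`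
  set σ₁ : Ω ≃ₐ[ℚ] Ω := (h1 : Ω ≃ₐ[ℚ] Ω) * g with hσ₁
  have hσ₁Q : σ₁ • Q = Q := by
    rw [hσ₁, mul_smul]
    exact hh1.symm
  have hσ₁C : ∀ x : fixedAlg H, σ₁ • (x : integralClosure ℤ Ω) - x ∈ Q := by
    intro x
    rw [hσ₁, mul_smul]
    have h2 : (h1 : Ω ≃ₐ[ℚ] Ω) • (g • (x : integralClosure ℤ Ω)) = g • (x : integralClosure ℤ Ω) :=
      smul_fixed_of_normal H g x x.2 h1
    rw [h2]
    exact hg x x.2
  -- step 3: the induced automorphism of `B/Q` over `B^H / (Q ∩ B^H)`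
  let P : Ideal (fixedAlg H) := Q.under (fixedAlg H)
  have : Q.LiesOver P := ⟨rfl⟩
  let e₀ : (integralClosure ℤ Ω ⧸ Q) ≃+* (integralClosure ℤ Ω ⧸ Q) :=
    (Ideal.Quotient.stabilizerHom Q (Q.under ℤ) (Ω ≃ₐ[ℚ] Ω) ⟨σ₁, hσ₁Q⟩).toRingEquiv
  have he₀ : ∀ b : integralClosure ℤ Ω, e₀ (Ideal.Quotient.mk Q b) = Ideal.Quotient.mk Q (σ₁ • b) :=
    fun b => rfl
  let e : (integralClosure ℤ Ω ⧸ Q) ≃ₐ[fixedAlg H ⧸ P] (integralClosure ℤ Ω ⧸ Q) :=
    AlgEquiv.ofRingEquiv (f := e₀) (by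
      intro r
      obtain ⟨x, rfl⟩ := Ideal.Quotient.mk_surjective r
      change e₀ (Ideal.Quotient.mk Q (x : integralClosure ℤ Ω)) =
        Ideal.Quotient.mk Q (x : integralClosure ℤ Ω)
      rw [he₀, Ideal.Quotient.eq]
      exact hσ₁C x)
  obtain ⟨h2, hh2⟩ := Ideal.Quotient.stabilizerHom_surjective_of_profinite (G := H) P Q e
  have hh2' : ∀ b : integralClosure ℤ Ω, (h2 : H) • b - σ₁ • b ∈ Q := by
    intro b
    have h3 := DFunLike.congr_fun hh2 (Ideal.Quotient.mk Q b)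
    rw [← Ideal.Quotient.eq]
    exact h3
  have hh2Q : ((h2 : H) : Ω ≃ₐ[ℚ] Ω) • Q = Q := h2.2
  refine ⟨((h2 : H) : Ω ≃ₐ[ℚ] Ω)⁻¹ * h1, H.mul_mem (H.inv_mem (h2 : H).2) h1.2, ?_⟩
  intro b
  have h4 : (((h2 : H) : Ω ≃ₐ[ℚ] Ω)⁻¹ * h1 * g) • b - b =
      ((h2 : H) : Ω ≃ₐ[ℚ] Ω)⁻¹ • (σ₁ • b - ((h2 : H) : Ω ≃ₐ[ℚ] Ω) • b) := by
    rw [smul_sub, inv_smul_smul, mul_assoc, mul_smul]
  change (((h2 : H) : Ω ≃ₐ[ℚ] Ω)⁻¹ * h1 * g) • b - b ∈ Q
  rw [h4, ← Ideal.mem_pointwise_smul_iff_inv_smul_mem, hh2Q]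
  have h5 := Q.neg_mem (hh2' b)
  rw [neg_sub] at h5
  exact h5

/-- An element fixing all `H`-invariant algebraic integers lies in `H` (`H` closed). -/
theorem mem_of_forall_fixedAlg [IsGalois ℚ Ω] (H : Subgroup (Ω ≃ₐ[ℚ] Ω))
    (hH : IsClosed (H : Set (Ω ≃ₐ[ℚ] Ω))) (g : Ω ≃ₐ[ℚ] Ω)
    (hg : ∀ x : integralClosure ℤ Ω, (∀ h : H, h • x = x) → g • x = x) : g ∈ H := by
  have h1 := InfiniteGalois.fixingSubgroup_fixedField (k := ℚ) (K := Ω) ⟨H, hH⟩
  change (IntermediateField.fixedField H).fixingSubgroup = H at h1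
  rw [← h1, IntermediateField.mem_fixingSubgroup_iff]
  intro x hx
  rw [IntermediateField.mem_fixedField_iff] at hx
  have : Algebra.IsAlgebraic ℤ Ω :=
    (IsFractionRing.comap_isAlgebraic_iff (A := ℤ) (K := ℚ) (C := Ω)).mpr inferInstance
  have : CharZero Ω := algebraRat.charZero Ω
  obtain ⟨n, hn0, hn⟩ := (Algebra.IsAlgebraic.isAlgebraic (R := ℤ) x).exists_integral_multiple
  have h2 := hg ⟨n • x, hn⟩ (fun h => Subtype.ext (by
    change (h : Ω ≃ₐ[ℚ] Ω) (n • x) = n • x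
    rw [map_zsmul, hx _ h.2]))
  have h3 : g (n • x) = n • x := congrArg Subtype.val h2
  rw [map_zsmul] at h3
  have hn0' : (n : Ω) ≠ 0 := by exact_mod_cast hn0
  rw [zsmul_eq_mul, zsmul_eq_mul] at h3
  exact mul_left_cancel₀ hn0' h3

/-- The inclusion of `B^H` in the fixed field of `H`. -/
noncomputable def toFixedField (H : Subgroup (Ω ≃ₐ[ℚ] Ω)) :
    fixedAlg H →+* IntermediateField.fixedField H where
  toFun c := ⟨((c : integralClosure ℤ Ω) : Ω), by
    rw [IntermediateField.mem_fixedField_iff]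
    intro f hf
    exact congrArg Subtype.val (c.2 ⟨f, hf⟩)⟩
  map_one' := rfl
  map_mul' _ _ := rfl
  map_zero' := rfl
  map_add' _ _ := rfl

theorem isIntegralClosure_fixedAlg (H : Subgroup (Ω ≃ₐ[ℚ] Ω)) :
    letI : Algebra (fixedAlg H) (IntermediateField.fixedField H) := (toFixedField H).toAlgebra
    IsIntegralClosure (fixedAlg H) ℤ (IntermediateField.fixedField H) := by
  let _ : Algebra (fixedAlg H) (IntermediateField.fixedField H) := (toFixedField H).toAlgebra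
  refine ⟨?_, ?_⟩
  · intro a b hab
    have h1 : ((a : integralClosure ℤ Ω) : Ω) = ((b : integralClosure ℤ Ω) : Ω) :=
      congrArg (fun z : IntermediateField.fixedField H => (z : Ω)) hab
    exact Subtype.ext (Subtype.ext h1)
  · intro x
    constructor
    · intro hx
      have hx' : IsIntegral ℤ (x : Ω) :=
        (isIntegral_algebraMap_iff (A := IntermediateField.fixedField H) (B := Ω)
          (algebraMap (IntermediateField.fixedField H) Ω).injective).mpr hx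
      refine ⟨⟨⟨x, hx'⟩, ?_⟩, rfl⟩
      intro h
      have := (IntermediateField.mem_fixedField_iff _ _).mp x.2 h h.2
      exact Subtype.ext this
    · rintro ⟨y, rfl⟩
      have hy : IsIntegral ℤ ((y : integralClosure ℤ Ω) : Ω) := (y : integralClosure ℤ Ω).2
      exact (isIntegral_algebraMap_iff (A := IntermediateField.fixedField H) (B := Ω)
        (algebraMap (IntermediateField.fixedField H) Ω).injective).mp hy

omit [Algebra ℚ Ω] in
/-- Minkowski's theorem, for an arbitrary `ℚ`-algebra instance, in terms of inertia groups. -/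
theorem exists_ramified {K 𝒪 Γ : Type*} [Field K] [inst : Algebra ℚ K] [FiniteDimensional ℚ K]
    [IsGalois ℚ K] [CommRing 𝒪] [Algebra 𝒪 K] [IsIntegralClosure 𝒪 ℤ K]
    [Group Γ] [Finite Γ] [MulSemiringAction Γ 𝒪] [IsGaloisGroup Γ ℤ 𝒪]
    (h : 1 < Module.finrank ℚ K) :
    ∃ p : ℕ, p.Prime ∧ ∀ (P : Ideal 𝒪) (_ : P.IsPrime), ↑p ∈ P → P.inertia Γ ≠ ⊥ := by
  have : CharZero K := algebraRat.charZero K
  obtain rfl : inst = DivisionRing.toRatAlgebra := Subsingleton.elim _ _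
  have : NumberField K := { to_finiteDimensional := inferInstance }
  obtain ⟨p, hp, hram⟩ := NumberField.exists_not_isUnramifiedAt_int_of_isGalois (𝒪 := 𝒪) h
  refine ⟨p, hp, fun P hP hpP hbot => hram P hP hpP ?_⟩
  have := (IsIntegralClosure.algebraMap_injective 𝒪 ℤ K).isDomain
  have := IsIntegralClosure.isDedekindDomain ℤ ℚ K 𝒪
  have := IsIntegralClosure.finite ℤ ℚ K 𝒪
  have := CharZero.of_module (R := 𝒪) K
  rw [← Ideal.ramificationIdx_eq_one_iff,
    ← Ideal.ramificationIdxIn_eq_ramificationIdx (P.under ℤ) P Γ,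
    ← Ideal.card_inertia_eq_ramificationIdxIn (G := Γ) (P.under ℤ) P, hbot]
  simp

theorem eq_top_aux [IsGalois ℚ Ω] (H : Subgroup (Ω ≃ₐ[ℚ] Ω)) [H.Normal]
    (hHo : IsOpen (H : Set (Ω ≃ₐ[ℚ] Ω)))
    (hI : ∀ ℓ : ℕ, ℓ.Prime → ∃ A : ValuationSubring Ω, A.LiesOverPrime ℓ ∧
      A.inertiaSubgroupIn ℚ ≤ H) : H = ⊤ := by
  classical
  have hH : IsClosed (H : Set (Ω ≃ₐ[ℚ] Ω)) := Subgroup.isClosed_of_isOpen H hHo
  have hL : (IntermediateField.fixedField H).fixingSubgroup = H :=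
    InfiniteGalois.fixingSubgroup_fixedField (k := ℚ) (K := Ω) ⟨H, hH⟩
  obtain ⟨hfd, hgal⟩ :=
    (InfiniteGalois.isOpen_and_normal_iff_finite_and_isGalois
      (IntermediateField.fixedField H)).mp
      ⟨by rw [hL]; exact hHo, by rw [hL]; infer_instance⟩
  have : CharZero Ω := algebraRat.charZero Ω
  by_contra hne
  have hrank : 1 < Module.finrank ℚ (IntermediateField.fixedField H) := by
    by_contra h
    have h1 : Module.finrank ℚ (IntermediateField.fixedField H) = 1 := by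
      have := Module.finrank_pos (R := ℚ) (M := IntermediateField.fixedField H)
      omega
    rw [IntermediateField.finrank_eq_one_iff] at h1
    rw [h1, IntermediateField.fixingSubgroup_bot] at hL
    exact hne hL.symm
  let _ : Algebra (fixedAlg H) (IntermediateField.fixedField H) := (toFixedField H).toAlgebra
  have hic := isIntegralClosure_fixedAlg H
  have hfin : Finite ((Ω ≃ₐ[ℚ] Ω) ⧸ H) := Subgroup.quotient_finite_of_isOpen H hHo
  have hinvG := isInvariant_integralClosure (L := Ω)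
  have hgg : IsGaloisGroup ((Ω ≃ₐ[ℚ] Ω) ⧸ H) ℤ (fixedAlg H) :=
    { faithful := ⟨fun {m₁ m₂} h => by
        obtain ⟨g₁, rfl⟩ := QuotientGroup.mk_surjective m₁
        obtain ⟨g₂, rfl⟩ := QuotientGroup.mk_surjective m₂
        rw [QuotientGroup.eq]
        apply mem_of_forall_fixedAlg H hH
        intro x hx
        have h1 : g₁ • x = g₂ • x := congrArg Subtype.val (h ⟨x, hx⟩)
        rw [mul_smul, inv_smul_eq_iff]
        exact h1.symm⟩
      commutes := inferInstance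
      isInvariant := inferInstance }
  obtain ⟨p, hp, hram⟩ := exists_ramified (inst := (IntermediateField.fixedField H).algebra')
    (K := IntermediateField.fixedField H) (𝒪 := fixedAlg H) (Γ := (Ω ≃ₐ[ℚ] Ω) ⧸ H) hrank
  obtain ⟨A, hA, hAI⟩ := hI p hp
  have hQprime : (idealOf A).IsPrime := Ideal.comap_isPrime _ _
  let P : Ideal (fixedAlg H) := (idealOf A).under (fixedAlg H)
  have hPprime : P.IsPrime := inferInstance
  have hpP : (p : fixedAlg H) ∈ P := by
    change ((p : fixedAlg H) : integralClosure ℤ Ω) ∈ idealOf A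
    rw [mem_comap_incl_iff]
    have h1 : (((p : fixedAlg H) : integralClosure ℤ Ω) : Ω) = (p : Ω) := by simp
    rw [h1]
    exact hA
  refine hram P hPprime hpP ?_
  rw [eq_bot_iff]
  intro γ hγ
  obtain ⟨g, rfl⟩ := QuotientGroup.mk_surjective γ
  rw [Subgroup.mem_bot, QuotientGroup.eq_one_iff]
  obtain ⟨h, hh, hhg⟩ := exists_mul_mem_inertia H hH (idealOf A) g (by
    intro x hx
    exact hγ ⟨x, hx⟩)
  have h2 := hAI (mem_inertiaSubgroupIn A _ hhg)
  exact (Subgroup.mul_mem_cancel_left H hh).mp h2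

end Mink

local notation "Qbar" => AlgebraicClosure ℚ

theorem eq_top_of_inertia_le (H : Subgroup (Qbar ≃ₐ[ℚ] Qbar)) [H.Normal]
    (L₀ : IntermediateField ℚ Qbar) [FiniteDimensional ℚ L₀] (hL₀ : L₀.fixingSubgroup ≤ H)
    (hI : ∀ ℓ : ℕ, ℓ.Prime → ∃ A : ValuationSubring Qbar, A.LiesOverPrime ℓ ∧
      A.inertiaSubgroupIn ℚ ≤ H) : H = ⊤ := by
  have : IsGalois ℚ Qbar := Fermat.Agent.Lib.FrobeniusExists.isGalois_algebraicClosure_rat
  exact Mink.eq_top_aux H (Subgroup.isOpen_mono hL₀ L₀.fixingSubgroup_isOpen) hI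

end Fermat.Agent.S13
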