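import Fermat.Agent.S13.TorsMod
import Fermat.Agent.S13.FVTop
import Fermat.Agent.S13.T2Frey
import Fermat.Agent.S13.Inertia
import Fermat.Agent.S13.Minkowski

/-!
# S13: final assembly
-/

set_option autoImplicit false

namespace Fermat.Agent.S13

open WeierstrassCurve WeierstrassCurve.Affine WeierstrassCurve.Affine.Point FreyPackage Polynomial

local notation "Qbar" => AlgebraicClosure ℚ

/-- The `y`-coordinate (junk value `0` at the origin). -/
def yCoord {K : Type*} [Field K] {W : WeierstrassCurve.Affine K} : W.Point → K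
  | .zero => 0
  | .some _ y _ => y

section groups

variable (P : FreyPackage) (N : Submodule (ZMod P.p) (VK P))

/-- kernel of the character on `V/N`. -/
def H2 (hst : IsGaloisStable ℚ N) : Subgroup (Qbar ≃ₐ[ℚ] Qbar) where
  carrier := {σ | ∀ x : VK P, σ • x - x ∈ N}
  one_mem' := fun x => by simp
  mul_mem' := by
    intro σ τ hσ hτ x
    have : (σ * τ) • x - x = σ • (τ • x - x) + (σ • x - x) := by
      rw [mul_smul, smul_sub]; abel
    rw [this]
    exact N.add_mem (hst σ _ (hτ x)) (hσ x)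
  inv_mem' := by
    intro σ hσ x
    have : σ⁻¹ • x - x = - (σ⁻¹ • (σ • x - x)) := by
      rw [smul_sub, inv_smul_smul]; abel
    rw [this]
    exact N.neg_mem (hst σ⁻¹ _ (hσ x))

instance H2_normal (hst : IsGaloisStable ℚ N) : (H2 P N hst).Normal := by
  constructor
  intro σ hσ τ x
  have : (τ * σ * τ⁻¹) • x - x = τ • (σ • (τ⁻¹ • x) - τ⁻¹ • x) := by
    rw [mul_smul, mul_smul, smul_sub, smul_inv_smul]
  rw [this]
  exact hst τ _ (hσ _)

/-- kernel of the character on `N`. -/
def H1 (_hst : IsGaloisStable ℚ N) : Subgroup (Qbar ≃ₐ[ℚ] Qbar) where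
  carrier := {σ | ∀ x ∈ N, σ • x = x}
  one_mem' := fun x _ => by simp
  mul_mem' := by
    intro σ τ hσ hτ x hx
    rw [mul_smul, hτ x hx, hσ x hx]
  inv_mem' := by
    intro σ hσ x hx
    rw [inv_smul_eq_iff, hσ x hx]

instance H1_normal (hst : IsGaloisStable ℚ N) : (H1 P N hst).Normal := by
  constructor
  intro σ hσ τ x hx
  rw [mul_smul, mul_smul, hσ _ (hst τ⁻¹ x hx), smul_inv_smul]

end groups

/-- the field generated by the coordinates of the `p`-torsion points -/
noncomputable def L0 (P : FreyPackage) : IntermediateField ℚ Qbar :=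
  IntermediateField.adjoin ℚ
    (Set.range (fun x : VK P => xCoord (x : (EK P).Point)) ∪
      Set.range (fun x : VK P => yCoord (x : (EK P).Point)))

instance L0_finiteDimensional (P : FreyPackage) : FiniteDimensional ℚ (L0 P) := by
  have : Finite ↑(Set.range (fun x : VK P => xCoord (x : (EK P).Point)) ∪
      Set.range (fun x : VK P => yCoord (x : (EK P).Point))) :=
    Set.Finite.to_subtype ((Set.finite_range _).union (Set.finite_range _))
  have halg : Algebra.IsAlgebraic ℚ Qbar := AlgebraicClosure.isAlgebraic ℚ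
  exact IntermediateField.finiteDimensional_adjoin
    (fun x _ => (halg.isAlgebraic x).isIntegral)

lemma smul_eq_of_mem_fixing (P : FreyPackage) (σ : Qbar ≃ₐ[ℚ] Qbar)
    (hσ : σ ∈ (L0 P).fixingSubgroup) (x : VK P) : σ • x = x := by
  rw [IntermediateField.mem_fixingSubgroup_iff] at hσ
  have hx : σ (xCoord (x : (EK P).Point)) = xCoord (x : (EK P).Point) :=
    hσ _ (IntermediateField.subset_adjoin _ _ (Or.inl ⟨x, rfl⟩))
  have hy : σ (yCoord (x : (EK P).Point)) = yCoord (x : (EK P).Point) :=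
    hσ _ (IntermediateField.subset_adjoin _ _ (Or.inr ⟨x, rfl⟩))
  apply Subtype.ext
  rw [coe_smul_VK]
  obtain ⟨Q, hQ⟩ := x
  rcases Q with _ | ⟨a, b, h⟩
  · rfl
  · have hx' : σ a = a := hx
    have hy' : σ b = b := hy
    show Point.some (σ a) (σ b) _ = Point.some a b h
    congr 1

section local_analysis

variable (P : FreyPackage) (N : Submodule (ZMod P.p) (VK P)) (hst : IsGaloisStable ℚ N)

include hst in
lemma N_stable_actV (σ : Qbar ≃ₐ[ℚ] Qbar) : ∀ x ∈ N, actV P σ x ∈ N := fun x hx => hst σ x hx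

variable {Γ₀ : Type*} [LinearOrderedCommGroupWithZero Γ₀] (v : Valuation Qbar Γ₀)

/-- If `F = ⊥` then `σ` acts trivially on `N` and on `V/N`. -/
lemma unipotent_of_FV_bot (hb : N ≠ ⊥) (ht : N ≠ ⊤) (hF : FV v P = ⊥) (σ : Qbar ≃ₐ[ℚ] Qbar)
    (hσ : IsInertial v (σ : Qbar →+* Qbar)) : σ ∈ H1 P N hst ∧ σ ∈ H2 P N hst := by
  obtain ⟨hV2, hN1⟩ := lines P N hb ht
  have hLP := LP_V v P σ hσ
  rw [hF] at hLP
  constructor
  · intro x hx
    have := LA0 ⊥ N (step_bot_of_finrank_eq_one N hN1) (actV P σ) (fun y hy => by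
      rw [Submodule.mem_bot] at hy ⊢; rw [hy, _root_.map_zero]) (N_stable_actV P N hst σ)
      (fun y _ => hLP y) x hx
    rw [Submodule.mem_bot, sub_eq_zero] at this
    exact this
  · intro x
    have : Module.Finite (ZMod P.p) (VK P) := Module.Finite.of_finite
    exact LA0 N ⊤ (step_top_of_finrank N hV2 hN1) (actV P σ) (N_stable_actV P N hst σ)
      (fun _ _ => trivial) (fun y _ => by
        have := hLP y
        rw [Submodule.mem_bot] at this
        rw [this]; exact N.zero_mem) x trivial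

/-- The dichotomy at `p`. -/
lemma dichotomy (hb : N ≠ ⊥) (ht : N ≠ ⊤) (hFt : FV v P ≠ ⊤) :
    (∀ σ : Qbar ≃ₐ[ℚ] Qbar, IsInertial v (σ : Qbar →+* Qbar) → σ ∈ H2 P N hst) ∨
    (∀ σ : Qbar ≃ₐ[ℚ] Qbar, IsInertial v (σ : Qbar →+* Qbar) → σ ∈ H1 P N hst) := by
  obtain ⟨hV2, hN1⟩ := lines P N hb ht
  have : Module.Finite (ZMod P.p) (VK P) := Module.Finite.of_finite
  by_cases hFb : FV v P = ⊥
  · exact Or.inl fun σ hσ => (unipotent_of_FV_bot P N hst v hb ht hFb σ hσ).2
  · obtain ⟨-, hF1⟩ := lines P (FV v P) hFb hFt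
    have key : ∀ σ : Qbar ≃ₐ[ℚ] Qbar, IsInertial v (σ : Qbar →+* Qbar) →
        ∀ x : VK P, actV P σ x - x ∈ FV v P := fun σ hσ x =>
      LA0 (FV v P) ⊤ (step_top_of_finrank _ hV2 hF1) (actV P σ) (FV_stable v P σ hσ)
        (fun _ _ => trivial) (fun y _ => LP_V v P σ hσ y) x trivial
    by_cases hFN : FV v P = N
    · left
      intro σ hσ x
      have := key σ hσ x
      rw [hFN] at this
      exact this
    · right
      intro σ hσ x hx
      have h1 := key σ hσ x
      have h2 : actV P σ x - x ∈ N := N.sub_mem (hst σ x hx) hx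
      have h3 : actV P σ x - x ∈ N ⊓ FV v P := ⟨h2, h1⟩
      rw [inf_eq_bot_of_lines N (FV v P) hN1 hF1 (Ne.symm hFN), Submodule.mem_bot, sub_eq_zero] at h3
      exact h3

end local_analysis

/-- **Main theorem**: a Galois stable line in `E[p]` is cofixed. -/
theorem cofixed (P : FreyPackage) (N : Submodule (ZMod P.p) (VK P)) (hst : IsGaloisStable ℚ N)
    (hb : N ≠ ⊥) (ht : N ≠ ⊤) : ∀ (σ : Qbar ≃ₐ[ℚ] Qbar) (x : VK P), σ • x - x ∈ N := by
  obtain ⟨hV2, hN1⟩ := lines P N hb ht
  -- away from `p`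
  have haway : ∀ ℓ : ℕ, ℓ.Prime → ℓ ≠ P.p → ∃ A : ValuationSubring Qbar, A.LiesOverPrime ℓ ∧
      A.inertiaSubgroupIn ℚ ≤ H1 P N hst ∧ A.inertiaSubgroupIn ℚ ≤ H2 P N hst := by
    intro ℓ hℓ hne
    obtain ⟨A, hA⟩ := exists_valuationSubring_liesOver ℓ hℓ
    have hvℓ : A.valuation (ℓ : Qbar) < 1 := A.mem_nonunits_iff.1 hA
    have hvp : A.valuation (P.p : Qbar) = 1 := by
      have := np_val_intCast_eq_one A.valuation ℓ hℓ hvℓ (P.p : ℤ) (by
        intro h
        have h' : ℓ ∣ P.p := by exact_mod_cast h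
        exact hne ((Nat.prime_dvd_prime_iff_eq hℓ P.pp).1 h'))
      simpa using this
    have hF := FV_eq_bot A.valuation P hvp
    refine ⟨A, hA, fun σ hσ => ?_, fun σ hσ => ?_⟩
    · exact (unipotent_of_FV_bot P N hst A.valuation hb ht hF σ (isInertial_of_mem_inertia A σ hσ)).1
    · exact (unipotent_of_FV_bot P N hst A.valuation hb ht hF σ (isInertial_of_mem_inertia A σ hσ)).2
  -- at `p`
  obtain ⟨Ap, hAp⟩ := exists_valuationSubring_liesOver P.p P.pp
  have hvp : Ap.valuation (P.p : Qbar) < 1 := Ap.mem_nonunits_iff.1 hAp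
  have hFt := FV_ne_top Ap.valuation P hvp N hN1 hst
  rcases dichotomy P N hst Ap.valuation hb ht hFt with h | h
  · -- `H2 = ⊤`
    have htop : H2 P N hst = ⊤ := by
      refine eq_top_of_inertia_le (H2 P N hst) (L0 P) ?_ ?_
      · intro σ hσ x
        rw [smul_eq_of_mem_fixing P σ hσ x, sub_self]; exact N.zero_mem
      · intro ℓ hℓ
        by_cases hne : ℓ = P.p
        · subst hne
          exact ⟨Ap, hAp, fun σ hσ => h σ (isInertial_of_mem_inertia Ap σ hσ)⟩
        · obtain ⟨A, hA, -, h2⟩ := haway ℓ hℓ hne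
          exact ⟨A, hA, h2⟩
    intro σ x
    have : σ ∈ H2 P N hst := by rw [htop]; trivial
    exact this x
  · -- `H1 = ⊤`: contradiction
    exfalso
    have htop : H1 P N hst = ⊤ := by
      refine eq_top_of_inertia_le (H1 P N hst) (L0 P) ?_ ?_
      · intro σ hσ x _
        exact smul_eq_of_mem_fixing P σ hσ x
      · intro ℓ hℓ
        by_cases hne : ℓ = P.p
        · subst hne
          exact ⟨Ap, hAp, fun σ hσ => h σ (isInertial_of_mem_inertia Ap σ hσ)⟩
        · obtain ⟨A, hA, h1, -⟩ := haway ℓ hℓ hne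
          exact ⟨A, hA, h1⟩
    obtain ⟨x, hx, hx0⟩ := (Submodule.ne_bot_iff N).1 hb
    have hfix : ∀ σ : Qbar ≃ₐ[ℚ] Qbar, σ • (x : (EK P).Point) = x := by
      intro σ
      have : σ ∈ H1 P N hst := by rw [htop]; trivial
      exact congrArg Subtype.val (this x hx)
    have := T2.eq_zero_of_galois_fixed_of_torsion P (x : (EK P).Point) hfix ((mem_VK P _).1 x.2)
    exact hx0 (Subtype.ext this)

end Fermat.Agent.S13
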