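import Fermat.Agent.S13.Defs

/-!
# S13-T2: no rational `p`-torsion (2-adic component argument)
-/

set_option autoImplicit false

namespace Fermat.Agent.S13

open Polynomial WeierstrassCurve WeierstrassCurve.Affine

namespace AtTwo

section Identities

variable {K : Type*} [Field K] [DecidableEq K] {W : WeierstrassCurve.Affine K}

omit [DecidableEq K] in
lemma xCoord_some {x y : K} (h : W.Nonsingular x y) : xCoord (Point.some x y h) = x := rfl

omit [DecidableEq K] in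
lemma xCoord_neg (A : W.Point) : xCoord (-A) = xCoord A := by
  cases A <;> rfl

/-- (S): `x(A+B) x(A-B) (x_A - x_B)^2 = (x_A x_B - a₄)^2`. -/
theorem xCoord_add_mul_sub (h1 : W.a₁ = 1) (h3 : W.a₃ = 0) (h6 : W.a₆ = 0) (A B : W.Point)
    (hA : A ≠ 0) (hB : B ≠ 0) (hs : A + B ≠ 0) (hd : A - B ≠ 0) :
    xCoord A ≠ xCoord B ∧
    xCoord (A + B) * xCoord (A - B) * (xCoord A - xCoord B) ^ 2
      = (xCoord A * xCoord B - W.a₄) ^ 2 := by
  rcases A with _ | ⟨xA, yA, hnA⟩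
  · exact absurd rfl hA
  rcases B with _ | ⟨xB, yB, hnB⟩
  · exact absurd rfl hB
  have hx : xA ≠ xB := by
    intro hx
    rcases Point.X_eq_iff.mp hx with h | h
    · exact hd (by rw [h, sub_self])
    · exact hs (by rw [h, neg_add_cancel])
  refine ⟨hx, ?_⟩
  have hx' : xA - xB ≠ 0 := sub_ne_zero.mpr hx
  have eA := (W.equation_iff xA yA).mp hnA.1
  have eB := (W.equation_iff xB yB).mp hnB.1
  rw [sub_eq_add_neg, Point.neg_some, Point.add_of_X_ne hx, Point.add_of_X_ne hx]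
  simp only [xCoord_some, addX, slope_of_X_ne hx, negY]
  rw [h1, h3, h6] at *
  field_simp
  grind

omit [DecidableEq K] in
lemma dbl_aux (a2 a4 x y : K)
    (e : y ^ 2 + x * y = x ^ 3 + a2 * x ^ 2 + a4 * x) (hd : 2 * y + x ≠ 0) :
    (((3 * x ^ 2 + 2 * a2 * x + a4 - y) / (2 * y + x)) ^ 2
      + ((3 * x ^ 2 + 2 * a2 * x + a4 - y) / (2 * y + x)) - a2 - x - x) * (2 * y + x) ^ 2
      = (x ^ 2 - a4) ^ 2 := by
  have : (((3 * x ^ 2 + 2 * a2 * x + a4 - y) / (2 * y + x)) ^ 2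
      + ((3 * x ^ 2 + 2 * a2 * x + a4 - y) / (2 * y + x)) - a2 - x - x) * (2 * y + x) ^ 2
      = (3 * x ^ 2 + 2 * a2 * x + a4 - y) ^ 2 + (3 * x ^ 2 + 2 * a2 * x + a4 - y) * (2 * y + x)
        - (a2 + x + x) * (2 * y + x) ^ 2 := by
    field_simp
    ring
  rw [this]
  grind

/-- (D): `x(2A) x_A (4 x_A^2 + b₂ x_A + 4 a₄) = (x_A^2 - a₄)^2`. -/
theorem xCoord_two_nsmul (h1 : W.a₁ = 1) (h3 : W.a₃ = 0) (h6 : W.a₆ = 0) (A : W.Point)
    (hA : A ≠ 0) (h2A : A + A ≠ 0) :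
    xCoord A * (4 * xCoord A ^ 2 + (1 + 4 * W.a₂) * xCoord A + 4 * W.a₄) ≠ 0 ∧
    xCoord (A + A) * (xCoord A * (4 * xCoord A ^ 2 + (1 + 4 * W.a₂) * xCoord A + 4 * W.a₄))
      = (xCoord A ^ 2 - W.a₄) ^ 2 := by
  rcases A with _ | ⟨x, y, hn⟩
  · exact absurd rfl hA
  have hy : y ≠ W.negY x y := by
    intro hy
    exact h2A (Point.add_self_of_Y_eq hy)
  have e := (W.equation_iff x y).mp hn.1
  have hy' : y - W.negY x y ≠ 0 := sub_ne_zero.mpr hy
  rw [Point.add_self_of_Y_ne hy]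
  simp only [xCoord_some, addX, slope_of_Y_ne rfl hy]
  have hneg : y - W.negY x y = 2 * y + x := by
    simp only [negY, h1, h3]; ring
  rw [hneg] at hy' ⊢
  rw [h1, h3, h6] at e
  rw [h1]
  have e' : y ^ 2 + x * y = x ^ 3 + W.a₂ * x ^ 2 + W.a₄ * x := by linear_combination e
  have key : x * (4 * x ^ 2 + (1 + 4 * W.a₂) * x + 4 * W.a₄) = (2 * y + x) ^ 2 := by
    linear_combination (-4) * e'
  refine ⟨by rw [key]; exact pow_ne_zero 2 hy', ?_⟩
  rw [key]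
  have := dbl_aux W.a₂ W.a₄ x y e' hy'
  simpa only [one_mul] using this

end Identities

section Val

/-- `x ≠ 0` with 2-adic valuation exactly `k`. -/
def VEq (k : ℤ) (x : ℚ) : Prop := x ≠ 0 ∧ padicValRat 2 x = k

/-- `x = 0` or 2-adic valuation at least `k`. -/
def VGe (k : ℤ) (x : ℚ) : Prop := x = 0 ∨ k ≤ padicValRat 2 x

lemma VEq.of_ne_zero {x : ℚ} (hx : x ≠ 0) : VEq (padicValRat 2 x) x := ⟨hx, rfl⟩

lemma VEq.ne_zero {k : ℤ} {x : ℚ} (h : VEq k x) : x ≠ 0 := h.1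

lemma VEq.unique {k l : ℤ} {x : ℚ} (h : VEq k x) (h' : VEq l x) : k = l := h.2.symm.trans h'.2

lemma VEq.mul {k l : ℤ} {x y : ℚ} (hx : VEq k x) (hy : VEq l y) : VEq (k + l) (x * y) :=
  ⟨mul_ne_zero hx.1 hy.1, by rw [padicValRat.mul hx.1 hy.1, hx.2, hy.2]⟩

lemma VEq.sq {k : ℤ} {x : ℚ} (hx : VEq k x) : VEq (2 * k) (x ^ 2) := by
  have := hx.mul hx
  rw [← two_mul, ← pow_two] at this
  exact this

lemma VEq.neg {k : ℤ} {x : ℚ} (hx : VEq k x) : VEq k (-x) :=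
  ⟨neg_ne_zero.mpr hx.1, by rw [padicValRat.neg, hx.2]⟩

lemma VEq.toVGe {k l : ℤ} {x : ℚ} (hx : VEq k x) (h : l ≤ k) : VGe l x := Or.inr (hx.2 ▸ h)

lemma VGe.mono {k l : ℤ} {x : ℚ} (hx : VGe k x) (h : l ≤ k) : VGe l x :=
  hx.imp id fun h' => h.trans h'

lemma VGe.neg {k : ℤ} {x : ℚ} (hx : VGe k x) : VGe k (-x) := by
  rcases hx with rfl | h
  · exact Or.inl neg_zero
  · exact Or.inr (by rwa [padicValRat.neg])

lemma VGe.add {k : ℤ} {x y : ℚ} (hx : VGe k x) (hy : VGe k y) : VGe k (x + y) := by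
  rcases hx with rfl | hx
  · rwa [zero_add]
  rcases hy with rfl | hy
  · rw [add_zero]; exact Or.inr hx
  by_cases h : x + y = 0
  · exact Or.inl h
  · exact Or.inr ((le_min hx hy).trans (padicValRat.min_le_padicValRat_add h))

lemma VGe.sub {k : ℤ} {x y : ℚ} (hx : VGe k x) (hy : VGe k y) : VGe k (x - y) := by
  rw [sub_eq_add_neg]; exact hx.add hy.neg

lemma VEq.le_of_VGe {k l : ℤ} {x : ℚ} (hx : VEq k x) (h : VGe l x) : l ≤ k := by
  rcases h with h | h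
  · exact absurd h hx.1
  · rwa [hx.2] at h

lemma VEq.add_VGe {k : ℤ} {x y : ℚ} (hx : VEq k x) (hy : VGe (k + 1) y) : VEq k (x + y) := by
  by_cases hy0 : y = 0
  · rwa [hy0, add_zero]
  have hy' : k + 1 ≤ padicValRat 2 y := hy.resolve_left hy0
  have hlt : padicValRat 2 x < padicValRat 2 y := by rw [hx.2]; omega
  have hxy : x + y ≠ 0 := by
    intro h
    have : y = -x := by linarith
    rw [this, padicValRat.neg] at hlt
    exact lt_irrefl _ hlt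
  exact ⟨hxy, by rw [padicValRat.add_eq_of_lt hxy hx.1 hy0 hlt, hx.2]⟩

/-- valuation of a difference -/
lemma VEq.sub_cases {a b : ℤ} {x y : ℚ} (hx : VEq a x) (hy : VEq b y) (hne : x - y ≠ 0) :
    ∃ c, VEq c (x - y) ∧ min a b ≤ c ∧ (a ≠ b → c = min a b) := by
  refine ⟨_, VEq.of_ne_zero hne, ?_, ?_⟩
  · have h1 : VGe (min a b) (x - y) :=
      (hx.toVGe (min_le_left _ _)).sub (hy.toVGe (min_le_right _ _))
    exact (VEq.of_ne_zero hne).le_of_VGe h1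
  · intro hab
    rcases lt_or_gt_of_ne hab with h | h
    · have := hx.add_VGe (y := -y) (hy.neg.toVGe (by omega))
      rw [← sub_eq_add_neg] at this
      rw [this.2, min_eq_left h.le]
    · have := hy.neg.add_VGe (y := x) (hx.toVGe (by omega))
      rw [neg_add_eq_sub] at this
      rw [this.2, min_eq_right h.le]

lemma VEq.intCast {z : ℤ} (hz : z ≠ 0) : VEq (padicValInt 2 z) (z : ℚ) :=
  ⟨Int.cast_ne_zero.mpr hz, padicValRat.of_int⟩

lemma VEq.intCast_odd {z : ℤ} (hz : ¬ (2 : ℤ) ∣ z) : VEq 0 (z : ℚ) := by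
  have hz0 : z ≠ 0 := by rintro rfl; exact hz (dvd_zero _)
  have := VEq.intCast hz0
  rwa [padicValInt.eq_zero_of_not_dvd (by exact_mod_cast hz), Nat.cast_zero] at this

lemma VEq.four : VEq 2 (4 : ℚ) := by
  have h2 : VEq 1 (2 : ℚ) := ⟨two_ne_zero, by
    have := padicValRat.self (p := 2) one_lt_two
    exact_mod_cast this⟩
  have := h2.mul h2
  norm_num at this
  exact this

lemma odd_num_den {x : ℚ} (h : VEq 0 x) : ¬ (2 : ℤ) ∣ x.num ∧ ¬ (2 : ℤ) ∣ (x.den : ℤ) := by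
  have hdef := padicValRat_def 2 x
  rw [h.2] at hdef
  have hnum : x.num ≠ 0 := Rat.num_ne_zero.mpr h.1
  have hcop := x.reduced
  by_cases h2 : (2 : ℤ) ∣ x.num
  · exfalso
    have hden : ¬ 2 ∣ x.den := by
      intro hd
      have h2' : 2 ∣ x.num.natAbs := Int.natCast_dvd.mp (by exact_mod_cast h2)
      have := Nat.dvd_gcd h2' hd
      rw [hcop] at this
      omega
    rw [padicValNat.eq_zero_of_not_dvd hden] at hdef
    have : padicValInt 2 x.num ≠ 0 := by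
      rw [Ne, padicValInt.eq_zero_iff]
      push Not
      exact ⟨by norm_num, hnum, by exact_mod_cast h2⟩
    omega
  · refine ⟨h2, ?_⟩
    intro hd
    rw [padicValInt.eq_zero_of_not_dvd (by exact_mod_cast h2)] at hdef
    have hd' : 2 ∣ x.den := by exact_mod_cast hd
    have : 1 ≤ padicValNat 2 x.den := one_le_padicValNat_of_dvd x.den_nz hd'
    omega

/-- two 2-adic units of `ℚ` are congruent mod 2. -/
lemma VGe_one_sub {x y : ℚ} (hx : VEq 0 x) (hy : VEq 0 y) : VGe 1 (x - y) := by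
  obtain ⟨hxn, hxd⟩ := odd_num_den hx
  obtain ⟨hyn, hyd⟩ := odd_num_den hy
  by_cases hne : x - y = 0
  · exact Or.inl hne
  have hD : ¬ (2 : ℤ) ∣ (x.den : ℤ) * y.den := by
    intro h
    rcases Int.prime_two.dvd_or_dvd h with h | h
    · exact hxd h
    · exact hyd h
  have hN : (2 : ℤ) ∣ x.num * y.den - y.num * x.den := by
    have o1 : Odd (x.num * y.den) :=
      (Int.not_even_iff_odd.mp (fun h => hxn h.two_dvd)).mul
        (Int.not_even_iff_odd.mp (fun h => hyd h.two_dvd))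
    have o2 : Odd (y.num * x.den) :=
      (Int.not_even_iff_odd.mp (fun h => hyn h.two_dvd)).mul
        (Int.not_even_iff_odd.mp (fun h => hxd h.two_dvd))
    exact (o1.sub_odd o2).two_dvd
  have hxy : (x - y) * (((x.den : ℤ) * y.den : ℤ) : ℚ) = ((x.num * y.den - y.num * x.den : ℤ) : ℚ) := by
    have h1 := Rat.num_div_den x
    have h2 := Rat.num_div_den y
    have h3 : (x.den : ℚ) ≠ 0 := Nat.cast_ne_zero.mpr x.den_nz
    have h4 : (y.den : ℚ) ≠ 0 := Nat.cast_ne_zero.mpr y.den_nz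
    push_cast
    have e1 : x * x.den = x.num := Rat.mul_den_eq_num x
    have e2 : y * y.den = y.num := Rat.mul_den_eq_num y
    linear_combination (y.den : ℚ) * e1 - (x.den : ℚ) * e2
  have hN0 : x.num * y.den - y.num * x.den ≠ 0 := by
    intro h
    rw [h, Int.cast_zero] at hxy
    rcases mul_eq_zero.mp hxy with h | h
    · exact hne h
    · exact (VEq.intCast_odd hD).1 h
  have e1 := (VEq.of_ne_zero hne).mul (VEq.intCast_odd hD)
  rw [hxy] at e1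
  have e2 := VEq.intCast hN0
  have := e1.unique e2
  have h3 : padicValInt 2 (x.num * y.den - y.num * x.den) ≠ 0 := by
    rw [Ne, padicValInt.eq_zero_iff]
    push Not
    exact ⟨by norm_num, hN0, by exact_mod_cast hN⟩
  refine Or.inr ?_
  omega


/-- valuation bookkeeping for the duplication formula (D). -/
lemma D_val {a4 b2 x x2 : ℚ} {h μ μ2 : ℤ} (ha4 : VEq h a4) (hb2 : VEq 0 b2)
    (hx : VEq μ x) (hx2 : VEq μ2 x2) (hμ : 0 ≤ μ)
    (hne : x * (4 * x ^ 2 + b2 * x + 4 * a4) ≠ 0)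
    (hD : x2 * (x * (4 * x ^ 2 + b2 * x + 4 * a4)) = (x ^ 2 - a4) ^ 2) :
    ∃ cq cr : ℤ, μ2 + (μ + cq) = 2 * cr ∧ min μ (h + 2) ≤ cq ∧ (μ < h + 2 → cq = μ) ∧
      min (2 * μ) h ≤ cr ∧ (2 * μ ≠ h → cr = min (2 * μ) h) := by
  have hq : 4 * x ^ 2 + b2 * x + 4 * a4 ≠ 0 := right_ne_zero_of_mul hne
  have hr : x ^ 2 - a4 ≠ 0 := by
    intro h0
    rw [h0] at hD
    exact mul_ne_zero hx2.1 hne (by simpa using hD)
  obtain ⟨cr, hcr, hcr1, hcr2⟩ := hx.sq.sub_cases ha4 hr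
  refine ⟨padicValRat 2 (4 * x ^ 2 + b2 * x + 4 * a4), cr, ?_, ?_, ?_, hcr1, hcr2⟩
  · have e1 := hx2.mul (hx.mul (VEq.of_ne_zero hq))
    rw [hD] at e1
    exact e1.unique hcr.sq
  · have v1 : VGe (min μ (h + 2)) (4 * x ^ 2) := (VEq.four.mul hx.sq).toVGe (by omega)
    have v2 : VGe (min μ (h + 2)) (b2 * x) := (hb2.mul hx).toVGe (by omega)
    have v3 : VGe (min μ (h + 2)) (4 * a4) := (VEq.four.mul ha4).toVGe (by omega)
    exact (VEq.of_ne_zero hq).le_of_VGe ((v1.add v2).add v3)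
  · intro hlt
    have v1 : VGe (μ + 1) (4 * x ^ 2) := (VEq.four.mul hx.sq).toVGe (by omega)
    have v2 : VEq μ (b2 * x) := by simpa using hb2.mul hx
    have v3 : VGe (μ + 1) (4 * a4) := (VEq.four.mul ha4).toVGe (by omega)
    have := v2.add_VGe (v1.add v3)
    have e : b2 * x + (4 * x ^ 2 + 4 * a4) = 4 * x ^ 2 + b2 * x + 4 * a4 := by ring
    rw [e] at this
    exact this.2

/-- valuation bookkeeping for the formula (S). -/
lemma S_val {a4 xA xB xs xd : ℚ} {h a b s d : ℤ} (ha4 : VEq h a4)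
    (hA : VEq a xA) (hB : VEq b xB) (hs : VEq s xs) (hd : VEq d xd) (hne : xA ≠ xB)
    (hS : xs * xd * (xA - xB) ^ 2 = (xA * xB - a4) ^ 2) :
    ∃ c t : ℤ, s + d + 2 * c = 2 * t ∧ min a b ≤ c ∧ (a ≠ b → c = min a b) ∧
      (a = 0 → b = 0 → 1 ≤ c) ∧
      min (a + b) h ≤ t ∧ (a + b ≠ h → t = min (a + b) h) := by
  have hne' : xA - xB ≠ 0 := sub_ne_zero.mpr hne
  have hr : xA * xB - a4 ≠ 0 := by
    intro h0
    rw [h0] at hS
    exact mul_ne_zero (mul_ne_zero hs.1 hd.1) (pow_ne_zero 2 hne') (by simpa using hS)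
  obtain ⟨c, hc, hc1, hc2⟩ := hA.sub_cases hB hne'
  obtain ⟨t, ht, ht1, ht2⟩ := (hA.mul hB).sub_cases ha4 hr
  refine ⟨c, t, ?_, hc1, hc2, ?_, ht1, ht2⟩
  · have e1 := (hs.mul hd).mul hc.sq
    rw [hS] at e1
    exact e1.unique ht.sq
  · rintro rfl rfl
    exact hc.le_of_VGe (VGe_one_sub hA hB)

end Val

end AtTwo


open AtTwo in
theorem no_rational_torsion_at_two (W : WeierstrassCurve ℚ) (a2 a4 : ℤ) (h1 : W.a₁ = 1)
    (h2 : W.a₂ = a2) (h3 : W.a₃ = 0) (h4 : W.a₄ = a4) (h6 : W.a₆ = 0) (ha4 : a4 ≠ 0)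
    (heven : (2 : ℤ) ∣ a4) (p : ℕ) (hp : p.Prime) (hp5 : 5 ≤ p)
    (hnd : ¬ (p : ℤ) ∣ 2 * (padicValInt 2 a4 : ℤ))
    (hint : ∀ x y (h : W.toAffine.Nonsingular x y), p • (Point.some x y h) = 0 → 0 ≤ padicValRat 2 x)
    (P : W.toAffine.Point) (hP : P ≠ 0) (hpP : p • P = 0) : False := by
  -- notation
  set T : W.toAffine.Point → Prop := fun Q => Q ≠ 0 ∧ p • Q = 0 with hT
  set μ : W.toAffine.Point → ℤ := fun Q => padicValRat 2 (xCoord Q) with hμ
  obtain ⟨h, hh⟩ : ∃ h : ℤ, h = (padicValInt 2 a4 : ℤ) := ⟨_, rfl⟩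
  rw [← hh] at hnd
  have hVa4 : VEq h (a4 : ℚ) := hh ▸ VEq.intCast ha4
  have hh1 : 1 ≤ h := by
    have : padicValInt 2 a4 ≠ 0 := by
      rw [Ne, padicValInt.eq_zero_iff]
      push Not
      exact ⟨by norm_num, ha4, by exact_mod_cast heven⟩
    omega
  have hb2 : VEq 0 ((1 : ℚ) + 4 * (a2 : ℚ)) := by
    have : ¬ (2 : ℤ) ∣ 1 + 4 * a2 := by omega
    have := VEq.intCast_odd this
    push_cast at this
    exact this
  -- multiples
  have hT_nsmul : ∀ Q, T Q → ∀ k : ℕ, ¬ p ∣ k → T (k • Q) := by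
    intro Q hQ k hk
    refine ⟨fun h0 => ?_, by rw [smul_comm, hQ.2, nsmul_zero]⟩
    have d1 : addOrderOf Q ∣ k := addOrderOf_dvd_of_nsmul_eq_zero h0
    have d2 : addOrderOf Q ∣ p := addOrderOf_dvd_of_nsmul_eq_zero hQ.2
    rcases (Nat.dvd_prime hp).mp d2 with h | h
    · exact hQ.1 (AddMonoid.addOrderOf_eq_one_iff.mp h)
    · exact hk (h ▸ d1)
  have hndvd : ∀ k : ℕ, 1 ≤ k → k < p → ¬ p ∣ k := fun k hk1 hkp hd =>
    absurd (Nat.le_of_dvd (by omega) hd) (by omega)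
  have hdbl : ∀ Q, T Q → Q + Q ≠ 0 := by
    intro Q hQ
    have := (hT_nsmul Q hQ 2 (hndvd 2 (by omega) (by omega))).1
    rwa [two_nsmul] at this
  have hx : ∀ Q, T Q → VEq (μ Q) (xCoord Q) ∧ 0 ≤ μ Q := by
    intro Q hQ
    have hne := (xCoord_two_nsmul (W := W.toAffine) h1 h3 h6 Q hQ.1 (hdbl Q hQ)).1
    refine ⟨VEq.of_ne_zero (left_ne_zero_of_mul hne), ?_⟩
    rcases Q with _ | ⟨x, y, hxy⟩
    · exact absurd rfl hQ.1
    · exact hint x y hxy hQ.2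
  have hD : ∀ Q, T Q → ∃ cq cr : ℤ, μ (2 • Q) + (μ Q + cq) = 2 * cr ∧ min (μ Q) (h + 2) ≤ cq ∧
      (μ Q < h + 2 → cq = μ Q) ∧ min (2 * μ Q) h ≤ cr ∧ (2 * μ Q ≠ h → cr = min (2 * μ Q) h) := by
    intro Q hQ
    obtain ⟨e1, e2⟩ := xCoord_two_nsmul (W := W.toAffine) h1 h3 h6 Q hQ.1 (hdbl Q hQ)
    have hQ2 := hT_nsmul Q hQ 2 (hndvd 2 (by omega) (by omega))
    rw [← two_nsmul] at e2
    have h2' : W.toAffine.a₂ = (a2 : ℚ) := h2
    have h4' : W.toAffine.a₄ = (a4 : ℚ) := h4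
    rw [h2', h4'] at e1 e2
    exact D_val hVa4 hb2 (hx Q hQ).1 (hx _ hQ2).1 (hx Q hQ).2 e1 e2
  have hS : ∀ A B, T A → T B → T (A + B) → T (A - B) →
      ∃ c t : ℤ, μ (A + B) + μ (A - B) + 2 * c = 2 * t ∧ min (μ A) (μ B) ≤ c ∧
        (μ A ≠ μ B → c = min (μ A) (μ B)) ∧ (μ A = 0 → μ B = 0 → 1 ≤ c) ∧
        min (μ A + μ B) h ≤ t ∧ (μ A + μ B ≠ h → t = min (μ A + μ B) h) := by
    intro A B hA hB hs hd
    obtain ⟨e1, e2⟩ := xCoord_add_mul_sub (W := W.toAffine) h1 h3 h6 A B hA.1 hB.1 hs.1 hd.1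
    have h4' : W.toAffine.a₄ = (a4 : ℚ) := h4
    rw [h4'] at e2
    exact S_val hVa4 (hx A hA).1 (hx B hB).1 (hx _ hs).1 (hx _ hd).1 e1 e2
  -- STEP 0
  have step0 : ∀ Q, T Q → 1 ≤ μ Q := by
    intro Q hQ
    by_contra hlt
    have h0 : μ Q = 0 := by have := (hx Q hQ).2; omega
    have hQ2 := hT_nsmul Q hQ 2 (hndvd 2 (by omega) (by omega))
    have hQ3 := hT_nsmul Q hQ 3 (hndvd 3 (by omega) (by omega))
    obtain ⟨cq, cr, r1, r2, r3, r4, r5⟩ := hD Q hQ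
    have e3 : 2 • Q + Q = 3 • Q := (succ_nsmul Q 2).symm
    have e1 : 2 • Q - Q = Q := by rw [two_nsmul, add_sub_cancel_right]
    obtain ⟨c, t, s1, s2, s3, s4, s5, s6⟩ := hS (2 • Q) Q hQ2 hQ (e3 ▸ hQ3) (e1.symm ▸ hQ)
    rw [e3, e1] at s1
    have := (hx _ hQ3).2
    omega
  -- STEP 1
  have step1a : ∀ Q, T Q → μ Q < h := by
    intro Q hQ
    by_contra hge
    have hQ2 := hT_nsmul Q hQ 2 (hndvd 2 (by omega) (by omega))
    obtain ⟨cq, cr, r1, r2, r3, r4, r5⟩ := hD Q hQ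
    have := step0 _ hQ2
    omega
  have step1b : ∀ Q, T Q → 2 * μ Q ≠ h ∧ μ (2 • Q) = min (2 * μ Q) (2 * h - 2 * μ Q) := by
    intro Q hQ
    have hQ2 := hT_nsmul Q hQ 2 (hndvd 2 (by omega) (by omega))
    obtain ⟨cq, cr, r1, r2, r3, r4, r5⟩ := hD Q hQ
    have := step1a _ hQ2
    have := step1a _ hQ
    have := step0 _ hQ
    omega
  -- minimal point
  obtain ⟨Q, hQ, hmin⟩ : ∃ Q, T Q ∧ ∀ Q', T Q' → μ Q ≤ μ Q' := by
    have hwf := (measure (fun Q : W.toAffine.Point => (μ Q).toNat)).wf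
    obtain ⟨Q, hQ, hm⟩ := hwf.has_min {Q | T Q} ⟨P, hP, hpP⟩
    refine ⟨Q, hQ, fun Q' hQ' => ?_⟩
    have h1 := hm Q' hQ'
    have h2 := step0 Q hQ
    have h3 := step0 Q' hQ'
    simp only [InvImage, WellFoundedRelation.rel] at h1
    omega
  obtain ⟨m, hm⟩ : ∃ m : ℤ, m = μ Q := ⟨_, rfl⟩
  have hm1 : 1 ≤ m := hm ▸ step0 Q hQ
  have hmh : m < h := hm ▸ step1a Q hQ
  have claim : ∀ k : ℕ, 1 ≤ k → k + 1 ≤ p - 1 →
      (((k : ℤ) * m < 2 * h ∧ μ (k • Q) = min ((k : ℤ) * m) (2 * h - (k : ℤ) * m)) ∧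
       (((k + 1 : ℕ) : ℤ) * m < 2 * h ∧
          μ ((k + 1) • Q) = min (((k + 1 : ℕ) : ℤ) * m) (2 * h - ((k + 1 : ℕ) : ℤ) * m))) := by
    intro k hk
    induction k, hk using Nat.le_induction with
    | base =>
      intro _
      have := step1b Q hQ
      rw [← hm] at this
      refine ⟨⟨by push_cast; omega, ?_⟩, ⟨by push_cast; omega, ?_⟩⟩
      · rw [one_nsmul, ← hm]; push_cast; omega
      · rw [this.2]; push_cast; omega
    | succ k hk ih =>
      intro hk2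
      obtain ⟨⟨c1, c1'⟩, ⟨c2, c2'⟩⟩ := ih (by omega)
      refine ⟨⟨c2, c2'⟩, ?_⟩
      have tk := hT_nsmul Q hQ k (hndvd k hk (by omega))
      have tk1 := hT_nsmul Q hQ (k + 1) (hndvd (k + 1) (by omega) (by omega))
      have tk2 := hT_nsmul Q hQ (k + 1 + 1) (hndvd (k + 1 + 1) (by omega) (by omega))
      have e1 : (k + 1) • Q + Q = (k + 1 + 1) • Q := (succ_nsmul Q (k + 1)).symm
      have e2 : (k + 1) • Q - Q = k • Q := by rw [succ_nsmul, add_sub_cancel_right]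
      obtain ⟨c, t, s1, s2, s3, s4, s5, s6⟩ := hS ((k + 1) • Q) Q tk1 hQ (e1 ▸ tk2) (e2.symm ▸ tk)
      rw [e1, e2] at s1
      rw [← hm] at s2 s3 s5 s6
      have l1 := step1a _ tk
      have l2 := step1a _ tk1
      have l3 := step1a _ tk2
      have m1 := hmin _ tk1
      have m2 := hmin _ tk2
      rw [← hm] at m1 m2
      have n1 := (step1b Q hQ).1
      rw [← hm] at n1
      have f1 : ((k + 1 : ℕ) : ℤ) * m = (k : ℤ) * m + m := by push_cast; ring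
      have f2 : ((k + 1 + 1 : ℕ) : ℤ) * m = (k : ℤ) * m + m + m := by push_cast; ring
      have f3 : m ≤ (k : ℤ) * m := le_mul_of_one_le_left (by omega) (by exact_mod_cast hk)
      rw [f1] at c2 c2'
      rw [f2]
      generalize (k : ℤ) * m = r at *
      generalize μ (k • Q) = u0 at *
      generalize μ ((k + 1) • Q) = u1 at *
      generalize μ ((k + 1 + 1) • Q) = u2 at *
      omega
  -- conclusion
  obtain ⟨-, c2, c2'⟩ := claim (p - 2) (by omega) (by omega)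
  have ep : p - 2 + 1 = p - 1 := by omega
  rw [ep] at c2 c2'
  have eneg : (p - 1) • Q = -Q := by
    apply eq_neg_of_add_eq_zero_left
    rw [← succ_nsmul]
    have : p - 1 + 1 = p := by omega
    rw [this, hQ.2]
  have eμ : μ ((p - 1) • Q) = m := by
    rw [eneg, hm]
    simp only [hμ, xCoord_neg]
  rw [eμ] at c2'
  have f1 : ((p - 1 : ℕ) : ℤ) * m = (p : ℤ) * m - m := by
    have : ((p - 1 : ℕ) : ℤ) = (p : ℤ) - 1 := by
      rw [Nat.cast_sub (by omega)]; simp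
    rw [this]; ring
  have f2 : 5 * m ≤ (p : ℤ) * m := by
    have : (5 : ℤ) ≤ p := by exact_mod_cast hp5
    nlinarith
  rw [f1] at c2 c2'
  refine hnd ⟨m, ?_⟩
  generalize (p : ℤ) * m = r at *
  omega

end Fermat.Agent.S13
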