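import Mathlib
import Fermat.Prelude.Def_FLTPrelim_FreyPackage
import Fermat.Prelude.Def_FLTPrelim_GaloisRep
import Fermat.Prelude.Def_FLTPrelim_Ramification
import Fermat.Prelude.Def_FLTPrelim_CofixedLine

/-!
# S13: shared definitions

* ladder polynomials `ladF W n`, `ladG W n`, `hpoly W m` (x-only Montgomery ladder; they replace
  division polynomials): `x (n • P) = (ladF W n (x P) : ladG W n (x P))` in `ℙ¹`.
* `InE1 v P`: the point `P` lies in the kernel of reduction w.r.t. the valuation `v`.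
-/

set_option autoImplicit false

namespace Fermat.Agent.S13

open Polynomial WeierstrassCurve

section Ladder

variable {R : Type*} [CommRing R] (W : WeierstrassCurve R)

/-- homogenised numerator of `x(2A)`. -/
noncomputable def dblF (f g : R[X]) : R[X] :=
  f ^ 4 - C W.b₄ * f ^ 2 * g ^ 2 - 2 * C W.b₆ * f * g ^ 3 - C W.b₈ * g ^ 4

/-- homogenised denominator of `x(2A)`. -/
noncomputable def dblG (f g : R[X]) : R[X] :=
  g * (4 * f ^ 3 + C W.b₂ * f ^ 2 * g + 2 * C W.b₄ * f * g ^ 2 + C W.b₆ * g ^ 3)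

/-- `x_B - x_A` homogenised, `A = (f : g)`, `B = (f' : g')`. -/
noncomputable def addH (f g f' g' : R[X]) : R[X] := f' * g - f * g'

/-- homogenised numerator of `x(A+B)` when `x(B-A) = X`. -/
noncomputable def addF (f g f' g' : R[X]) : R[X] :=
  2 * f * f' * (f' * g + f * g') + C W.b₂ * f * f' * g * g'
    + C W.b₄ * (f' * g + f * g') * g * g' + C W.b₆ * g ^ 2 * g' ^ 2 - X * (addH f g f' g') ^ 2

/-- The ladder: `ladder W n = (f_n, g_n)` with `x(n P) = (f_n(x P) : g_n (x P))`. -/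
noncomputable def ladder : ℕ → R[X] × R[X]
  | 0 => (1, 0)
  | 1 => (X, 1)
  | n + 2 =>
    if h : n % 2 = 0 then
      (dblF W (ladder ((n + 2) / 2)).1 (ladder ((n + 2) / 2)).2,
        dblG W (ladder ((n + 2) / 2)).1 (ladder ((n + 2) / 2)).2)
    else
      (addF W (ladder ((n + 2) / 2)).1 (ladder ((n + 2) / 2)).2
          (ladder ((n + 2) / 2 + 1)).1 (ladder ((n + 2) / 2 + 1)).2,
        (addH (ladder ((n + 2) / 2)).1 (ladder ((n + 2) / 2)).2
          (ladder ((n + 2) / 2 + 1)).1 (ladder ((n + 2) / 2 + 1)).2) ^ 2)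
  termination_by n => n
  decreasing_by all_goals omega

noncomputable def ladF (n : ℕ) : R[X] := (ladder W n).1
noncomputable def ladG (n : ℕ) : R[X] := (ladder W n).2

/-- `hpoly W m` is (up to sign) the `(2m+1)`-division polynomial. -/
noncomputable def hpoly (m : ℕ) : R[X] := addH (ladF W m) (ladG W m) (ladF W (m + 1)) (ladG W (m + 1))

lemma ladF_zero : ladF W 0 = 1 := by simp [ladF, ladder]
lemma ladG_zero : ladG W 0 = 0 := by simp [ladG, ladder]
lemma ladF_one : ladF W 1 = X := by simp [ladF, ladder]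
lemma ladG_one : ladG W 1 = 1 := by simp [ladG, ladder]

lemma ladF_two_mul (m : ℕ) (hm : 1 ≤ m) : ladF W (2 * m) = dblF W (ladF W m) (ladG W m) := by
  obtain ⟨k, rfl⟩ : ∃ k, m = k + 1 := ⟨m - 1, by omega⟩
  have h1 : 2 * (k + 1) = 2 * k + 2 := by ring
  have h2 : (2 * k + 2) / 2 = k + 1 := by omega
  have h3 : (2 * k) % 2 = 0 := by omega
  rw [ladF, h1, ladder, dif_pos h3, h2]; rfl

lemma ladG_two_mul (m : ℕ) (hm : 1 ≤ m) : ladG W (2 * m) = dblG W (ladF W m) (ladG W m) := by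
  obtain ⟨k, rfl⟩ : ∃ k, m = k + 1 := ⟨m - 1, by omega⟩
  have h1 : 2 * (k + 1) = 2 * k + 2 := by ring
  have h2 : (2 * k + 2) / 2 = k + 1 := by omega
  have h3 : (2 * k) % 2 = 0 := by omega
  rw [ladG, h1, ladder, dif_pos h3, h2]; rfl

lemma ladF_two_mul_add_one (m : ℕ) (hm : 1 ≤ m) :
    ladF W (2 * m + 1) = addF W (ladF W m) (ladG W m) (ladF W (m + 1)) (ladG W (m + 1)) := by
  obtain ⟨k, rfl⟩ : ∃ k, m = k + 1 := ⟨m - 1, by omega⟩
  have h1 : 2 * (k + 1) + 1 = (2 * k + 1) + 2 := by ring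
  have h2 : ((2 * k + 1) + 2) / 2 = k + 1 := by omega
  have h3 : ¬ (2 * k + 1) % 2 = 0 := by omega
  rw [ladF, h1, ladder, dif_neg h3, h2]; rfl

lemma ladG_two_mul_add_one (m : ℕ) (hm : 1 ≤ m) : ladG W (2 * m + 1) = hpoly W m ^ 2 := by
  obtain ⟨k, rfl⟩ : ∃ k, m = k + 1 := ⟨m - 1, by omega⟩
  have h1 : 2 * (k + 1) + 1 = (2 * k + 1) + 2 := by ring
  have h2 : ((2 * k + 1) + 2) / 2 = k + 1 := by omega
  have h3 : ¬ (2 * k + 1) % 2 = 0 := by omega
  rw [ladG, h1, ladder, dif_neg h3, h2]; rfl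

end Ladder

section Val

variable {K : Type*} [Field K] {Γ₀ : Type*} [LinearOrderedCommGroupWithZero Γ₀]

/-- All Weierstrass coefficients are `v`-integral. -/
def IntegralCoeffs (v : Valuation K Γ₀) (W : WeierstrassCurve K) : Prop :=
  v W.a₁ ≤ 1 ∧ v W.a₂ ≤ 1 ∧ v W.a₃ ≤ 1 ∧ v W.a₄ ≤ 1 ∧ v W.a₆ ≤ 1

/-- `P` lies in the kernel of reduction: `P = 0` or `x(P)` is not `v`-integral. -/
def InE1 (v : Valuation K Γ₀) {W : WeierstrassCurve.Affine K} : W.Point → Prop
  | .zero => True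
  | .some x _ _ => 1 < v x

/-- The `x`-coordinate (junk value `0` at the origin). -/
def xCoord {W : WeierstrassCurve.Affine K} : W.Point → K
  | .zero => 0
  | .some x _ _ => x

/-- `σ` behaves like an element of the inertia group of `v`. -/
structure IsInertial (v : Valuation K Γ₀) (σ : K →+* K) : Prop where
  map_val : ∀ z, v (σ z) = v z
  sub_lt : ∀ z, v z ≤ 1 → v (σ z - z) < 1

end Val

end Fermat.Agent.S13
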