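/-
Basic arithmetic of the Frey curve of a Frey package (copied from
`Fermat/Agent/Lib/FreyCurveBasic.lean`, to keep the S13 closure independent).
-/
import Mathlib
import Fermat.Prelude.Def_FLTPrelim_FreyPackage

set_option autoImplicit false

namespace Fermat.Agent.S13

open FreyPackage WeierstrassCurve

/-- `4 ∣ b^p - 1 - a^p`. -/
theorem four_dvd (P : FreyPackage) : (4 : ℤ) ∣ P.b ^ P.p - 1 - P.a ^ P.p := by
  have hp5 := P.hp5
  have hb : (2 : ℤ) ∣ P.b := (ZMod.intCast_zmod_eq_zero_iff_dvd P.b 2).1 P.hb2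
  have hb4 : (4 : ℤ) ∣ P.b ^ P.p := by
    have h1 : (2 : ℤ) ^ 2 ∣ P.b ^ 2 := pow_dvd_pow_of_dvd hb 2
    have h2 : P.b ^ 2 ∣ P.b ^ P.p := pow_dvd_pow _ (by omega)
    exact (by norm_num : (4 : ℤ) = 2 ^ 2) ▸ h1.trans h2
  have ha : (4 : ℤ) ∣ 1 + P.a ^ P.p := by
    apply (ZMod.intCast_zmod_eq_zero_iff_dvd _ 4).1
    push_cast
    rw [P.ha4]
    obtain ⟨k, hk⟩ := P.hp_odd
    rw [hk, pow_succ, pow_mul]
    have : (3 : ZMod 4) ^ 2 = 1 := by decide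
    rw [this, one_pow]
    decide
  have : P.b ^ P.p - 1 - P.a ^ P.p = P.b ^ P.p - (1 + P.a ^ P.p) := by ring
  rw [this]
  exact dvd_sub hb4 ha

/-- `16 ∣ -(a^p) * b^p`. -/
theorem sixteen_dvd (P : FreyPackage) : (16 : ℤ) ∣ -(P.a ^ P.p) * (P.b ^ P.p) := by
  have hp5 := P.hp5
  have hb : (2 : ℤ) ∣ P.b := (ZMod.intCast_zmod_eq_zero_iff_dvd P.b 2).1 P.hb2
  have hb16 : (16 : ℤ) ∣ P.b ^ P.p := by
    have h1 : (2 : ℤ) ^ 4 ∣ P.b ^ 4 := pow_dvd_pow_of_dvd hb 4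
    have h2 : P.b ^ 4 ∣ P.b ^ P.p := pow_dvd_pow _ (by omega)
    exact (by norm_num : (16 : ℤ) = 2 ^ 4) ▸ h1.trans h2
  exact Dvd.dvd.mul_left hb16 _

theorem four_mul_a₂ (P : FreyPackage) :
    4 * P.freyCurveInt.a₂ = P.b ^ P.p - 1 - P.a ^ P.p :=
  Int.mul_ediv_cancel' (four_dvd P)

theorem sixteen_mul_a₄ (P : FreyPackage) :
    16 * P.freyCurveInt.a₄ = -(P.a ^ P.p) * (P.b ^ P.p) :=
  Int.mul_ediv_cancel' (sixteen_dvd P)

/-- The integral Frey curve base-changes to the rational Frey curve. -/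
theorem freyCurveInt_map (P : FreyPackage) :
    P.freyCurveInt.map (Int.castRingHom ℚ) = P.freyCurve := by
  have h2 := four_mul_a₂ P
  have h4 := sixteen_mul_a₄ P
  have h2' : (4 : ℚ) * (P.freyCurveInt.a₂ : ℚ) = (P.b : ℚ) ^ P.p - 1 - (P.a : ℚ) ^ P.p := by
    exact_mod_cast h2
  have h4' : (16 : ℚ) * (P.freyCurveInt.a₄ : ℚ) = -((P.a : ℚ) ^ P.p) * ((P.b : ℚ) ^ P.p) := by
    exact_mod_cast h4
  ext
  · simp [freyCurveInt, freyCurve]
  · simp only [WeierstrassCurve.map_a₂, eq_intCast]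
    show (P.freyCurveInt.a₂ : ℚ) = ((P.b : ℚ) ^ P.p - 1 - (P.a : ℚ) ^ P.p) / 4
    rw [← h2']; ring
  · simp [freyCurveInt, freyCurve]
  · simp only [WeierstrassCurve.map_a₄, eq_intCast]
    show (P.freyCurveInt.a₄ : ℚ) = -((P.a : ℚ) ^ P.p) * ((P.b : ℚ) ^ P.p) / 16
    rw [← h4']; ring
  · simp [freyCurveInt, freyCurve]

/-- `2^8 Δ = (a^p b^p c^p)^2`. -/
theorem freyCurveInt_Δ (P : FreyPackage) :
    256 * P.freyCurveInt.Δ = (P.a ^ P.p * P.b ^ P.p * P.c ^ P.p) ^ 2 := by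
  have h2 := four_mul_a₂ P
  have h4 := sixteen_mul_a₄ P
  have e1 : P.freyCurveInt.a₁ = 1 := rfl
  have e3 : P.freyCurveInt.a₃ = 0 := rfl
  have e6 : P.freyCurveInt.a₆ = 0 := rfl
  rw [← P.hFLT]
  simp only [WeierstrassCurve.Δ, WeierstrassCurve.b₂, WeierstrassCurve.b₄, WeierstrassCurve.b₆,
    WeierstrassCurve.b₈, e1, e3, e6]
  generalize P.freyCurveInt.a₂ = x at *
  generalize P.freyCurveInt.a₄ = y at *
  generalize P.a ^ P.p = A at *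
  generalize P.b ^ P.p = B at *
  have hB : B = 4 * x + 1 + A := by linarith
  subst hB
  have hy : (16 * y) ^ 2 = (-A * (4 * x + 1 + A)) ^ 2 := by rw [h4]
  have hy3 : (16 * y) ^ 3 = (-A * (4 * x + 1 + A)) ^ 3 := by rw [h4]
  nlinarith [hy, hy3]

theorem freyCurveInt_Δ_ne_zero (P : FreyPackage) : P.freyCurveInt.Δ ≠ 0 := by
  intro h
  have := freyCurveInt_Δ P
  rw [h, mul_zero] at this
  have h0 : P.a ^ P.p * P.b ^ P.p * P.c ^ P.p ≠ 0 :=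
    mul_ne_zero (mul_ne_zero (pow_ne_zero _ P.ha0) (pow_ne_zero _ P.hb0)) (pow_ne_zero _ P.hc0)
  exact (pow_ne_zero 2 h0) this.symm

end Fermat.Agent.S13
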