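import Fermat.Agent.S13.Defs

/-!
# S13-R4: node case, `σ P - P` avoids the node (pure valuation algebra)
-/

set_option autoImplicit false

namespace Fermat.Agent.S13

namespace R4

variable {K : Type*} [Field K] {Γ₀ : Type*} [LinearOrderedCommGroupWithZero Γ₀] (v : Valuation K Γ₀)

lemma two_le : v (2 : K) ≤ 1 := by
  rw [← one_add_one_eq_two]
  exact v.map_add_le (by simp) (by simp)

lemma four_le : v (4 : K) ≤ 1 := by
  have : (4 : K) = 2 * 2 := by norm_num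
  rw [this, map_mul]
  exact mul_le_one' (two_le v) (two_le v)

variable {v}

lemma mul_le {a b : K} (ha : v a ≤ 1) (hb : v b ≤ 1) : v (a * b) ≤ 1 := by
  rw [map_mul]; exact mul_le_one' ha hb

lemma add_le {a b : K} (ha : v a ≤ 1) (hb : v b ≤ 1) : v (a + b) ≤ 1 := v.map_add_le ha hb

lemma sub_le {a b : K} (ha : v a ≤ 1) (hb : v b ≤ 1) : v (a - b) ≤ 1 := v.map_sub_le ha hb

lemma pow_le {a : K} (ha : v a ≤ 1) (n : ℕ) : v (a ^ n) ≤ 1 := by
  rw [map_pow]; exact pow_le_one' ha n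

lemma mul_lt {a b : K} (ha : v a ≤ 1) (hb : v b < 1) : v (a * b) < 1 := by
  rw [map_mul]; exact (mul_le_of_le_one_left' ha).trans_lt hb

lemma mul_lt' {a b : K} (ha : v a < 1) (hb : v b ≤ 1) : v (a * b) < 1 := by
  rw [mul_comm]; exact mul_lt hb ha

lemma add_lt {a b : K} (ha : v a < 1) (hb : v b < 1) : v (a + b) < 1 := v.map_add_lt ha hb

lemma sub_lt {a b : K} (ha : v a < 1) (hb : v b < 1) : v (a - b) < 1 := v.map_sub_lt ha hb

/-- A root of a monic quadratic with integral coefficients is integral. -/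
lemma integral_of_quadratic {s b c : K} (hb : v b ≤ 1) (hc : v c ≤ 1) (h : s ^ 2 + b * s = c) :
    v s ≤ 1 := by
  by_contra hs
  push Not at hs
  have h1 : v (b * s) < v (s ^ 2) := by
    rw [map_mul, map_pow, sq]
    have hs0 : 0 < v s := lt_trans zero_lt_one hs
    calc v b * v s ≤ 1 * v s := mul_le_mul_left hb _
      _ < v s * v s := by
        exact mul_lt_mul_of_pos_right hs hs0
  have h2 : v (s ^ 2 + b * s) = v (s ^ 2) := v.map_add_eq_of_lt_left h1
  rw [h, map_pow] at h2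
  have h3 : 1 < v s ^ 2 := one_lt_pow₀ hs (by norm_num)
  rw [← h2] at h3
  exact absurd hc (not_le.mpr h3)

/-- If the slope is not integral, then `L ^ 2 + A1 * L - A2` is not integral. -/
lemma one_le_of_slope {L A1 A2 : K} (h1 : v A1 ≤ 1) (h2 : v A2 ≤ 1) (hL : 1 < v L) :
    1 ≤ v (L ^ 2 + A1 * L - A2) := by
  have hL0 : 0 < v L := lt_trans zero_lt_one hL
  have h3 : v (A1 * L) < v (L ^ 2) := by
    rw [map_mul, map_pow, sq]
    calc v A1 * v L ≤ 1 * v L := mul_le_mul_left h1 _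
      _ < v L * v L := mul_lt_mul_of_pos_right hL hL0
  have h4 : v (L ^ 2 + A1 * L) = v (L ^ 2) := v.map_add_eq_of_lt_left h3
  have h5 : 1 < v (L ^ 2) := by
    rw [map_pow]; exact one_lt_pow₀ hL (by norm_num)
  have h6 : v (L ^ 2 + A1 * L - A2) = v (L ^ 2 + A1 * L) :=
    v.map_sub_eq_of_lt_left (by rw [h4]; exact lt_of_le_of_lt h2 h5)
  rw [h6, h4]
  exact h5.le

/-- From `L * c = N`, `c` in the maximal ideal and `N` a unit (or worse) we get `1 < v L`. -/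
lemma slope_big {L c N g : K} (h : L * c = N) (hc : v c < v g) (hN : v g ≤ v N) : 1 < v L := by
  by_contra hL
  push Not at hL
  have : v N ≤ v c := by
    rw [← h, map_mul]; exact mul_le_of_le_one_left' hL
  exact absurd (lt_of_le_of_lt (hN.trans this) hc) (lt_irrefl _)

end R4

open R4

variable {K : Type*} [Field K] {Γ₀ : Type*} [LinearOrderedCommGroupWithZero Γ₀] (v : Valuation K Γ₀)

theorem R4core_a (σ : K →+* K) (hσ : IsInertial v σ) {A1 A2 A4 : K}
    (h1 : v A1 ≤ 1) (h2 : v A2 ≤ 1) (h4 : v A4 < 1) (hD : v (A1 ^ 2 + 4 * A2) = 1)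
    (hσ1 : σ A1 = A1) (hσ2 : σ A2 = A2) (hσ4 : σ A4 = A4) {ξ η : K}
    (heq : η ^ 2 + A1 * ξ * η = ξ ^ 3 + A2 * ξ ^ 2 + A4 * ξ) (hξ : v ξ < 1) (hne : σ ξ ≠ ξ) :
    1 ≤ v (((σ η + η + A1 * ξ) / (σ ξ - ξ)) ^ 2 + A1 * ((σ η + η + A1 * ξ) / (σ ξ - ξ)) - A2 - σ ξ - ξ) := by
  have hξ0 : ξ ≠ 0 := by
    rintro rfl
    exact hne (map_zero σ)
  have hvx' : v (σ ξ) = v ξ := hσ.map_val ξ
  have hvy' : v (σ η) = v η := hσ.map_val η
  have heq' : (σ η) ^ 2 + A1 * (σ ξ) * (σ η) = (σ ξ) ^ 3 + A2 * (σ ξ) ^ 2 + A4 * (σ ξ) := by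
    have := congrArg σ heq
    simpa [hσ1, hσ2, hσ4] using this
  have hs_sub : v (η / ξ) ≤ 1 → v (σ η / σ ξ - η / ξ) < 1 := by
    intro h
    have := hσ.sub_lt _ h
    rwa [map_div₀] at this
  have hρ_sub : v (A4 / ξ) ≤ 1 → v (A4 / σ ξ - A4 / ξ) < 1 := by
    intro h
    have := hσ.sub_lt _ h
    rwa [map_div₀, hσ4] at this
  generalize σ ξ = x' at *
  generalize σ η = y' at *
  have hvξ0 : 0 < v ξ := v.pos_iff.mpr hξ0
  have hx'0 : x' ≠ 0 := by
    rw [← v.pos_iff, hvx']; exact hvξ0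
  have hx'lt : v x' < 1 := hvx' ▸ hξ
  have hd : x' - ξ ≠ 0 := sub_ne_zero.mpr hne
  generalize hL : (y' + η + A1 * ξ) / (x' - ξ) = L
  suffices hf : 1 ≤ v (L ^ 2 + A1 * L - A2) by
    have h5 : v (x' + ξ) < 1 := add_lt hx'lt hξ
    have h6 : L ^ 2 + A1 * L - A2 - x' - ξ = (L ^ 2 + A1 * L - A2) - (x' + ξ) := by ring
    rw [h6, v.map_sub_eq_of_lt_left (lt_of_lt_of_le h5 hf)]
    exact hf
  have hLc1 : L * (x' - ξ) = y' + η + A1 * ξ := by
    rw [← hL]; exact div_mul_cancel₀ _ hd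
  have hLc2 : L * (y' - η + A1 * (x' - ξ)) =
      x' ^ 2 + x' * ξ + ξ ^ 2 + A2 * (x' + ξ) + A4 + A1 * η + A1 ^ 2 * ξ := by
    apply mul_right_cancel₀ hd
    calc L * (y' - η + A1 * (x' - ξ)) * (x' - ξ)
        = (L * (x' - ξ)) * (y' - η + A1 * (x' - ξ)) := by ring
      _ = (y' + η + A1 * ξ) * (y' - η + A1 * (x' - ξ)) := by rw [hLc1]
      _ = _ := by linear_combination heq' - heq
  -- notation
  obtain ⟨s, hs⟩ : ∃ s, s = η / ξ := ⟨_, rfl⟩
  obtain ⟨t, ht⟩ : ∃ t, t = x' / ξ := ⟨_, rfl⟩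
  obtain ⟨e, he⟩ : ∃ e, e = y' / x' - η / ξ := ⟨_, rfl⟩
  have hη : η = s * ξ := by rw [hs]; field_simp
  have hx' : x' = t * ξ := by rw [ht]; field_simp
  have hy' : y' = (s + e) * t * ξ := by rw [hs, he, ht]; field_simp; ring
  have hvt : v t = 1 := by rw [ht, map_div₀, hvx', div_self hvξ0.ne']
  have hLt : L * (t - 1) = (s + e) * t + s + A1 := by
    apply mul_right_cancel₀ hξ0
    calc L * (t - 1) * ξ = L * (x' - ξ) := by rw [hx']; ring
      _ = y' + η + A1 * ξ := hLc1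
      _ = _ := by rw [hy', hη]; ring
  rcases lt_trichotomy (v A4) (v ξ) with hcase | hcase | hcase
  · -- `v A4 < v ξ`
    obtain ⟨ρ, hρ⟩ : ∃ ρ, ρ = ξ + A4 / ξ := ⟨_, rfl⟩
    have hρlt : v ρ < 1 := by
      rw [hρ]
      exact add_lt hξ (by rw [map_div₀]; exact (div_lt_one₀ hvξ0).mpr hcase)
    have hseq : s ^ 2 + A1 * s = ρ + A2 := by
      rw [hs, hρ]; field_simp; linear_combination heq
    have hsint : v s ≤ 1 := integral_of_quadratic h1 (add_le hρlt.le h2) hseq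
    have helt : v e < 1 := by rw [he]; exact hs_sub (hs ▸ hsint)
    have hZ : (L ^ 2 + A1 * L - A2) * (t - 1) ^ 2 - t * (A1 ^ 2 + 4 * A2) =
        (t + 1) ^ 2 * ρ + e * (t * (2 * (s * (t + 1) + A1) + e * t + A1 * (t - 1))) := by
      have h7 : (L ^ 2 + A1 * L - A2) * (t - 1) ^ 2 =
          (L * (t - 1)) ^ 2 + A1 * (L * (t - 1)) * (t - 1) - A2 * (t - 1) ^ 2 := by ring
      rw [h7, hLt]
      linear_combination (t + 1) ^ 2 * hseq
    have ht1 : v (t + 1) ≤ 1 := add_le hvt.le (by simp)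
    have ht1' : v (t - 1) ≤ 1 := sub_le hvt.le (by simp)
    have hZlt : v ((L ^ 2 + A1 * L - A2) * (t - 1) ^ 2 - t * (A1 ^ 2 + 4 * A2)) < 1 := by
      rw [hZ]
      refine add_lt (mul_lt (pow_le ht1 2) hρlt) (mul_lt' helt (mul_le hvt.le ?_))
      exact add_le (add_le (mul_le (two_le v) (add_le (mul_le hsint ht1) h1))
        (mul_le helt.le hvt.le)) (mul_le h1 ht1')
    have htD : v (t * (A1 ^ 2 + 4 * A2)) = 1 := by rw [map_mul, hvt, hD, one_mul]
    have hZ1 : v ((L ^ 2 + A1 * L - A2) * (t - 1) ^ 2) = 1 := by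
      rw [← htD]
      exact v.map_eq_of_sub_lt (by rw [htD]; exact hZlt)
    by_contra hcon
    push Not at hcon
    have : v ((L ^ 2 + A1 * L - A2) * (t - 1) ^ 2) < 1 := mul_lt' hcon (pow_le ht1' 2)
    rw [hZ1] at this
    exact lt_irrefl _ this
  · -- `v A4 = v ξ`
    obtain ⟨ρ0, hρ0⟩ : ∃ ρ0, ρ0 = A4 / ξ := ⟨_, rfl⟩
    have hvρ0 : v ρ0 = 1 := by rw [hρ0, map_div₀, hcase, div_self hvξ0.ne']
    have hρ00 : ρ0 ≠ 0 := by
      rw [← v.pos_iff, hvρ0]; exact zero_lt_one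
    have hA4 : A4 = ρ0 * ξ := by rw [hρ0]; field_simp
    have ht0 : t ≠ 0 := by
      rw [← v.pos_iff, hvt]; exact zero_lt_one
    have h7 : v (A4 / x' - A4 / ξ) < 1 := hρ_sub (by rw [← hρ0]; exact hvρ0.le)
    have h8 : (t - 1) * ρ0 = -(A4 / x' - A4 / ξ) * t := by
      rw [hA4, hx']; field_simp; ring
    have hτ : v (t - 1) < 1 := by
      have h9 : v ((t - 1) * ρ0) < 1 := by
        rw [h8]; exact mul_lt' (by rw [Valuation.map_neg]; exact h7) hvt.le
      rwa [map_mul, hvρ0, mul_one] at h9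
    have hseq : s ^ 2 + A1 * s = ξ + ρ0 + A2 := by
      rw [hs, hρ0]; field_simp; linear_combination heq
    have hsint : v s ≤ 1 :=
      integral_of_quadratic h1 (add_le (add_le hξ.le hvρ0.le) h2) hseq
    have helt : v e < 1 := by rw [he]; exact hs_sub (hs ▸ hsint)
    have hLt2 : L * ((s + e) * t - s + A1 * (t - 1)) =
        t * x' + x' + ξ + A2 * (t + 1) + ρ0 + A1 * s + A1 ^ 2 := by
      apply mul_right_cancel₀ hξ0
      calc L * ((s + e) * t - s + A1 * (t - 1)) * ξ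
          = L * (y' - η + A1 * (x' - ξ)) := by rw [hy', hη, hx']; ring
        _ = _ := hLc2
        _ = _ := by rw [hη, hA4, hx']; ring
    obtain ⟨μ, hμ⟩ : ∃ μ, μ = s * (t - 1) + e * t := ⟨_, rfl⟩
    have hμlt : v μ < 1 := by
      rw [hμ]; exact add_lt (mul_lt hsint hτ) (mul_lt' helt hvt.le)
    have hc2 : v ((s + e) * t - s + A1 * (t - 1)) < 1 := by
      have : (s + e) * t - s + A1 * (t - 1) = μ + A1 * (t - 1) := by rw [hμ]; ring
      rw [this]; exact add_lt hμlt (mul_lt h1 hτ)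
    have hid : A1 ^ 2 + 4 * A2 =
        4 * (t * x' + x' + ξ + A2 * (t + 1) + ρ0 + A1 * s + A1 ^ 2)
          - ((s + e) * t + s + A1) * ((s + e) * t + s + A1 + 2 * A1)
          - (4 * (t * x') + 4 * x' + 4 * (A2 * (t - 1)) - μ * (4 * s + 4 * A1) - μ * μ) := by
      rw [hμ]; linear_combination 4 * hseq
    have hm0 : v (4 * (t * x') + 4 * x' + 4 * (A2 * (t - 1)) - μ * (4 * s + 4 * A1) - μ * μ) < 1 := by
      refine sub_lt (sub_lt (add_lt (add_lt ?_ ?_) ?_) ?_) ?_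
      · exact mul_lt (four_le v) (mul_lt hvt.le hx'lt)
      · exact mul_lt (four_le v) hx'lt
      · exact mul_lt (four_le v) (mul_lt h2 hτ)
      · exact mul_lt' hμlt (add_le (mul_le (four_le v) hsint) (mul_le (four_le v) h1))
      · exact mul_lt' hμlt hμlt.le
    have hN1int : v ((s + e) * t + s + A1 + 2 * A1) ≤ 1 :=
      add_le (add_le (add_le (mul_le (add_le hsint helt.le) hvt.le) hsint) h1)
        (mul_le (two_le v) h1)
    apply one_le_of_slope h1 h2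
    by_cases hN1 : v ((s + e) * t + s + A1) < 1
    · by_cases hN2 : v (t * x' + x' + ξ + A2 * (t + 1) + ρ0 + A1 * s + A1 ^ 2) < 1
      · exfalso
        have : v (A1 ^ 2 + 4 * A2) < 1 := by
          rw [hid]
          exact sub_lt (sub_lt (mul_lt (four_le v) hN2) (mul_lt' hN1 hN1int)) hm0
        rw [hD] at this
        exact lt_irrefl _ this
      · push Not at hN2
        exact slope_big (g := 1) hLt2 (by simpa using hc2) (by simpa using hN2)
    · push Not at hN1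
      exact slope_big (g := 1) hLt (by simpa using hτ) (by simpa using hN1)
  · -- `v ξ < v A4`
    have hA40 : 0 < v A4 := lt_of_le_of_lt zero_le hcase
    have hηlt : v η < v A4 := by
      by_contra hcon
      push Not at hcon
      have hξη : v ξ < v η := lt_of_lt_of_le hcase hcon
      have h7 : v (A1 * ξ) < v η := by
        rw [map_mul]; exact (mul_le_of_le_one_left' h1).trans_lt hξη
      have h8 : v (η + A1 * ξ) = v η := v.map_add_eq_of_lt_left h7
      have h9 : v (ξ ^ 2 + A2 * ξ) < v A4 := by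
        refine v.map_add_lt ?_ ?_
        · rw [sq, map_mul]; exact (mul_le_of_le_one_left' hξ.le).trans_lt hcase
        · rw [map_mul]; exact (mul_le_of_le_one_left' h2).trans_lt hcase
      have h10 : v (ξ ^ 2 + A2 * ξ + A4) = v A4 := v.map_add_eq_of_lt_right h9
      have h11 : η * (η + A1 * ξ) = ξ * (ξ ^ 2 + A2 * ξ + A4) := by linear_combination heq
      have h12 := congrArg v h11
      rw [map_mul, map_mul, h8, h10] at h12
      have h13 : v ξ * v A4 < v η * v η := by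
        calc v ξ * v A4 < v η * v A4 := mul_lt_mul_of_pos_right hξη hA40
          _ ≤ v η * v η := mul_le_mul_right hcon _
      rw [h12] at h13
      exact lt_irrefl _ h13
    have hN2 : v (x' ^ 2 + x' * ξ + ξ ^ 2 + A2 * (x' + ξ) + A4 + A1 * η + A1 ^ 2 * ξ) = v A4 := by
      have h7 : x' ^ 2 + x' * ξ + ξ ^ 2 + A2 * (x' + ξ) + A4 + A1 * η + A1 ^ 2 * ξ =
          (x' * x' + x' * ξ + ξ * ξ + A2 * x' + A2 * ξ + A1 * η + A1 ^ 2 * ξ) + A4 := by ring
      rw [h7]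
      apply v.map_add_eq_of_lt_right
      have hx'c : v x' < v A4 := hvx' ▸ hcase
      refine v.map_add_lt (v.map_add_lt (v.map_add_lt (v.map_add_lt (v.map_add_lt
        (v.map_add_lt ?_ ?_) ?_) ?_) ?_) ?_) ?_
      · rw [map_mul]; exact (mul_le_of_le_one_left' hx'lt.le).trans_lt hx'c
      · rw [map_mul]; exact (mul_le_of_le_one_left' hx'lt.le).trans_lt hcase
      · rw [map_mul]; exact (mul_le_of_le_one_left' hξ.le).trans_lt hcase
      · rw [map_mul]; exact (mul_le_of_le_one_left' h2).trans_lt hx'c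
      · rw [map_mul]; exact (mul_le_of_le_one_left' h2).trans_lt hcase
      · rw [map_mul]; exact (mul_le_of_le_one_left' h1).trans_lt hηlt
      · rw [map_mul]; exact (mul_le_of_le_one_left' (pow_le h1 2)).trans_lt hcase
    have hc : v (y' - η + A1 * (x' - ξ)) < v A4 := by
      refine v.map_add_lt (v.map_sub_lt (hvy' ▸ hηlt) hηlt) ?_
      rw [map_mul]
      exact (mul_le_of_le_one_left' h1).trans_lt (v.map_sub_lt (hvx' ▸ hcase) hcase)
    exact one_le_of_slope h1 h2 (slope_big hLc2 hc hN2.ge)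

theorem R4core_b (σ : K →+* K) (hσ : IsInertial v σ) {A1 A2 A4 : K}
    (h1 : v A1 ≤ 1) (h2 : v A2 ≤ 1) (h4 : v A4 < 1) (hD : v (A1 ^ 2 + 4 * A2) = 1)
    (hσ1 : σ A1 = A1) (hσ2 : σ A2 = A2) (hσ4 : σ A4 = A4) {ξ η : K}
    (heq : η ^ 2 + A1 * ξ * η = ξ ^ 3 + A2 * ξ ^ 2 + A4 * ξ) (hξ : v ξ < 1) (he : σ ξ = ξ) (hne : σ η ≠ η) :
    1 ≤ v (((3 * ξ ^ 2 + 2 * A2 * ξ + A4 - A1 * σ η) / (2 * σ η + A1 * ξ)) ^ 2
        + A1 * ((3 * ξ ^ 2 + 2 * A2 * ξ + A4 - A1 * σ η) / (2 * σ η + A1 * ξ)) - A2 - ξ - ξ) := by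
  have hξ0 : ξ ≠ 0 := by
    rintro rfl
    have h0 : η = 0 := by
      have : η ^ 2 = 0 := by linear_combination heq
      exact pow_eq_zero_iff (two_ne_zero) |>.mp this
    rw [h0, map_zero] at hne
    exact hne rfl
  have heq' : (σ η) ^ 2 + A1 * ξ * (σ η) = ξ ^ 3 + A2 * ξ ^ 2 + A4 * ξ := by
    have := congrArg σ heq
    simpa [hσ1, hσ2, hσ4, he] using this
  have hs_sub : v (η / ξ) ≤ 1 → v (σ η / ξ - η / ξ) < 1 := by
    intro h
    have := hσ.sub_lt _ h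
    rwa [map_div₀, he] at this
  generalize σ η = y' at *
  have hvξ0 : 0 < v ξ := v.pos_iff.mpr hξ0
  have hy' : y' = -η - A1 * ξ := by
    have h5 : (y' - η) * (y' + η + A1 * ξ) = 0 := by linear_combination heq' - heq
    rcases mul_eq_zero.mp h5 with h6 | h6
    · exact absurd (sub_eq_zero.mp h6) hne
    · linear_combination h6
  have hden : 2 * y' + A1 * ξ ≠ 0 := by
    have : 2 * y' + A1 * ξ = y' - η := by rw [hy']; ring
    rw [this]; exact sub_ne_zero.mpr hne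
  generalize hL : (3 * ξ ^ 2 + 2 * A2 * ξ + A4 - A1 * y') / (2 * y' + A1 * ξ) = L
  have hLd : L * (2 * y' + A1 * ξ) = 3 * ξ ^ 2 + 2 * A2 * ξ + A4 - A1 * y' := by
    rw [← hL]; exact div_mul_cancel₀ _ hden
  have hX3 : (L ^ 2 + A1 * L - A2 - ξ - ξ) * (2 * y' + A1 * ξ) ^ 2 = (ξ ^ 2 - A4) ^ 2 := by
    have h5 : (L ^ 2 + A1 * L - A2 - ξ - ξ) * (2 * y' + A1 * ξ) ^ 2 =
        (L * (2 * y' + A1 * ξ)) ^ 2 + A1 * (L * (2 * y' + A1 * ξ)) * (2 * y' + A1 * ξ)
          - (A2 + 2 * ξ) * (2 * y' + A1 * ξ) ^ 2 := by ring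
    rw [h5, hLd]
    linear_combination (-(A1 ^ 2 + 4 * A2 + 8 * ξ)) * heq'
  have hden2 : (2 * y' + A1 * ξ) ^ 2 = ξ * (4 * ξ ^ 2 + (A1 ^ 2 + 4 * A2) * ξ + 4 * A4) := by
    linear_combination 4 * heq'
  rcases lt_or_ge (v A4) (v ξ) with hcase | hcase
  · -- contradiction
    exfalso
    obtain ⟨s, hs⟩ : ∃ s, s = η / ξ := ⟨_, rfl⟩
    obtain ⟨ρ, hρ⟩ : ∃ ρ, ρ = ξ + A4 / ξ := ⟨_, rfl⟩
    have hρlt : v ρ < 1 := by
      rw [hρ]
      exact add_lt hξ (by rw [map_div₀]; exact (div_lt_one₀ hvξ0).mpr hcase)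
    have hseq : s ^ 2 + A1 * s = ρ + A2 := by
      rw [hs, hρ]; field_simp; linear_combination heq
    have hsint : v s ≤ 1 := integral_of_quadratic h1 (add_le hρlt.le h2) hseq
    have h5 : v (y' / ξ - η / ξ) < 1 := hs_sub (hs ▸ hsint)
    have h6 : y' / ξ - η / ξ = -(2 * s + A1) := by
      rw [hy', hs]; field_simp; ring
    rw [h6, Valuation.map_neg] at h5
    have h7 : A1 ^ 2 + 4 * A2 = (2 * s + A1) * (2 * s + A1) - 4 * ρ := by
      linear_combination (-4) * hseq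
    have h8 : v (A1 ^ 2 + 4 * A2) < 1 := by
      rw [h7]
      exact sub_lt (mul_lt' h5 h5.le) (mul_lt (four_le v) hρlt)
    rw [hD] at h8
    exact lt_irrefl _ h8
  · have hA40 : 0 < v A4 := lt_of_lt_of_le hvξ0 hcase
    have hξ2 : v (ξ ^ 2) < v A4 := by
      rw [sq, map_mul]
      calc v ξ * v ξ < 1 * v ξ := mul_lt_mul_of_pos_right hξ hvξ0
        _ = v ξ := one_mul _
        _ ≤ v A4 := hcase
    have hnum : v ((ξ ^ 2 - A4) ^ 2) = v A4 * v A4 := by
      rw [map_pow, v.map_sub_eq_of_lt_right hξ2, sq]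
    have hdenle : v ((2 * y' + A1 * ξ) ^ 2) ≤ v A4 * v A4 := by
      rw [hden2, map_mul]
      refine mul_le_mul' hcase (v.map_add_le (v.map_add_le ?_ ?_) ?_)
      · rw [map_mul]; exact (mul_le_of_le_one_left' (four_le v)).trans hξ2.le
      · rw [map_mul, hD, one_mul]; exact hcase
      · rw [map_mul]; exact mul_le_of_le_one_left' (four_le v)
    have hdenpos : 0 < v ((2 * y' + A1 * ξ) ^ 2) := v.pos_iff.mpr (pow_ne_zero 2 hden)
    by_contra hcon
    push Not at hcon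
    have h5 := congrArg v hX3
    rw [map_mul, hnum] at h5
    have h6 : v (L ^ 2 + A1 * L - A2 - ξ - ξ) * v ((2 * y' + A1 * ξ) ^ 2) < v A4 * v A4 := by
      calc v (L ^ 2 + A1 * L - A2 - ξ - ξ) * v ((2 * y' + A1 * ξ) ^ 2)
          < 1 * v ((2 * y' + A1 * ξ) ^ 2) := mul_lt_mul_of_pos_right hcon hdenpos
        _ = v ((2 * y' + A1 * ξ) ^ 2) := one_mul _
        _ ≤ v A4 * v A4 := hdenle
    rw [h5] at h6
    exact lt_irrefl _ h6

end Fermat.Agent.S13
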