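import Fermat.Agent.S13.Defs2
import Fermat.Agent.S13.R1
import Fermat.Agent.S13.R4

/-!
# S13-Hab: `NodeProp` when the node is at `(0,0)`
-/

set_option autoImplicit false

namespace Fermat.Agent.S13

open Polynomial WeierstrassCurve WeierstrassCurve.Affine R4

variable {K : Type*} [Field K] [DecidableEq K] {Γ₀ : Type*} [LinearOrderedCommGroupWithZero Γ₀]
  (v : Valuation K Γ₀) {W : WeierstrassCurve.Affine K}

omit [DecidableEq K] in
/-- An integral point whose `x`-coordinate is a unit has nonsingular reduction. -/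
lemma NodeAB.goodRed_of_unit (h1 : W.a₁ = 1) (h3 : W.a₃ = 0) (h6 : W.a₆ = 0)
    (h2 : v W.a₂ ≤ 1) (h4 : v W.a₄ < 1) (hD : v (1 + 4 * W.a₂) = 1) {x y : K}
    (h : W.Equation x y) (hx : v x = 1) : GoodRed v W x y := by
  have hW : IntegralCoeffs v W := ⟨by simp [h1], h2, by simp [h3], h4.le, by simp [h6]⟩
  have hy : v y ≤ 1 := R1.val_y_le_one v hW h hx.le
  have heq : y ^ 2 + x * y = x ^ 3 + W.a₂ * x ^ 2 + W.a₄ * x := by
    have := (W.equation_iff x y).mp h
    rw [h1, h3, h6] at this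
    linear_combination this
  by_contra hbad
  rw [GoodRed, h1, h3, not_or] at hbad
  obtain ⟨hX, hY⟩ := hbad
  have h3le : v (3 : K) ≤ 1 := by
    have : (3 : K) = 2 + 1 := by norm_num
    rw [this]; exact add_le (two_le v) (by simp)
  have hXle : v (1 * y - (3 * x ^ 2 + 2 * W.a₂ * x + W.a₄)) ≤ 1 :=
    sub_le (mul_le (by simp) hy) (add_le (add_le (mul_le h3le (pow_le hx.le 2))
      (mul_le (mul_le (two_le v) h2) hx.le)) h4.le)
  have hYle : v (2 * y + 1 * x + 0) ≤ 1 :=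
    add_le (add_le (mul_le (two_le v) hy) (mul_le (by simp) hx.le)) (by simp)
  have hXlt := lt_of_le_of_ne hXle hX
  have hYlt := lt_of_le_of_ne hYle hY
  -- `4 x + D` lies in the maximal ideal
  have hunit : ∀ z : K, v (x * z) < 1 → v z < 1 := by
    intro z hz
    rwa [map_mul, hx, one_mul] at hz
  have e1 : x * (x * (4 * x + (1 + 4 * W.a₂))) =
      (2 * y + 1 * x + 0) * (2 * y + 1 * x + 0) - 4 * (W.a₄ * x) := by
    linear_combination (-4) * heq
  have m1 : v (4 * x + (1 + 4 * W.a₂)) < 1 := by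
    apply hunit; apply hunit
    rw [e1]
    exact sub_lt (mul_lt' hYlt hYle) (mul_lt (four_le v) (mul_lt' h4 hx.le))
  have e2 : x * (6 * x + (1 + 4 * W.a₂)) =
      (2 * y + 1 * x + 0) - 2 * (1 * y - (3 * x ^ 2 + 2 * W.a₂ * x + W.a₄)) - 2 * W.a₄ := by
    ring
  have m2 : v (6 * x + (1 + 4 * W.a₂)) < 1 := by
    apply hunit
    rw [e2]
    exact sub_lt (sub_lt hYlt (mul_lt (two_le v) hXlt)) (mul_lt (two_le v) h4)
  have m3 : v (1 + 4 * W.a₂) < 1 := by
    have : 1 + 4 * W.a₂ = (4 * x + (1 + 4 * W.a₂))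
        - 2 * ((6 * x + (1 + 4 * W.a₂)) - (4 * x + (1 + 4 * W.a₂))) := by ring
    rw [this]
    exact sub_lt m1 (mul_lt (two_le v) (sub_lt m2 m1))
  rw [hD] at m3
  exact lt_irrefl _ m3

theorem nodeProp_ab (σ : K →+* K) (hσ : IsInertial v σ) (h1 : W.a₁ = 1) (h3 : W.a₃ = 0) (h6 : W.a₆ = 0)
    (h2 : v W.a₂ ≤ 1) (h4 : v W.a₄ < 1) (hD : v (1 + 4 * W.a₂) = 1)
    (hσ2 : σ W.a₂ = W.a₂) (hσ4 : σ W.a₄ = W.a₄) : NodeProp v W σ := by
  intro x y h h' hx hbad
  have hxlt : v x < 1 := by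
    refine lt_of_le_of_ne hx fun hx1 => hbad ?_
    exact NodeAB.goodRed_of_unit v h1 h3 h6 h2 h4 hD h.1 hx1
  have heq : y ^ 2 + 1 * x * y = x ^ 3 + W.a₂ * x ^ 2 + W.a₄ * x := by
    have := (W.equation_iff x y).mp h.1
    rw [h1, h3, h6] at this
    linear_combination this
  have hD' : v ((1 : K) ^ 2 + 4 * W.a₂) = 1 := by rw [one_pow]; exact hD
  have hone : v (1 : K) ≤ 1 := by simp
  rw [sub_eq_add_neg, Point.neg_some]
  by_cases hxy : σ x = x ∧ σ y = W.negY x (W.negY x y)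
  · left
    exact Point.add_of_Y_eq hxy.1 hxy.2
  right
  rw [Point.add_some hxy]
  refine ⟨_, _, _, rfl, ?_⟩
  have key : 1 ≤ v (W.addX (σ x) x (W.slope (σ x) x (σ y) (W.negY x y))) := by
    rw [addX, h1]
    by_cases hX : σ x = x
    · have hyne : σ y ≠ y := by
        intro e
        exact hxy ⟨hX, by rw [negY_negY]; exact e⟩
      have hne : σ y ≠ W.negY x (W.negY x y) := by rw [negY_negY]; exact hyne
      rw [slope_of_Y_ne hX hne, negY, h1, h3]
      have := R4core_b v σ hσ hone h2 h4 hD' (map_one σ) hσ2 hσ4 heq hxlt hX hyne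
      rw [hX]
      convert this using 2
      ring
    · rw [slope_of_X_ne hX, negY, h1, h3]
      have := R4core_a v σ hσ hone h2 h4 hD' (map_one σ) hσ2 hσ4 heq hxlt hX
      convert this using 2
      ring
  rcases lt_or_eq_of_le key with hlt | heq1
  · exact Or.inl hlt
  · right
    exact NodeAB.goodRed_of_unit v h1 h3 h6 h2 h4 hD (nonsingular_add h' ((nonsingular_neg x y).mpr h) hxy).1
      heq1.symm

end Fermat.Agent.S13
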