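import Fermat.Agent.S13.Defs2
import Fermat.Agent.S13.R1
import Fermat.Agent.S13.R4

/-!
# S13-Hc: `NodeProp` when the node is at `x = A/4` (odd residue characteristic), and the good case
-/

set_option autoImplicit false

namespace Fermat.Agent.S13

open Polynomial WeierstrassCurve WeierstrassCurve.Affine R4

namespace NodeC

section

variable {K : Type*} [Field K] {Γ₀ : Type*} [LinearOrderedCommGroupWithZero Γ₀]
  (v : Valuation K Γ₀) {W : WeierstrassCurve.Affine K}

lemma val_four (hv2 : v (2 : K) = 1) : v (4 : K) = 1 := by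
  have : (4 : K) = 2 * 2 := by norm_num
  rw [this, map_mul, hv2, one_mul]

lemma val_three_le : v (3 : K) ≤ 1 := by
  have : (3 : K) = 2 + 1 := by norm_num
  rw [this]; exact add_le (two_le v) (by simp)

lemma integralCoeffs (h1 : W.a₁ = 1) (h3 : W.a₃ = 0) (h6 : W.a₆ = 0)
    (a b : K) (h2 : 4 * W.a₂ = 4 * b - 1 - 4 * a) (h4 : W.a₄ = -a * b)
    (hv2 : v (2 : K) = 1) (ha : v a ≤ 1) (hb : v b ≤ 1) : IntegralCoeffs v W := by
  have hva2 : v W.a₂ ≤ 1 := by
    have : v (4 * W.a₂) ≤ 1 := by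
      rw [h2]
      exact sub_le (sub_le (mul_le (four_le v) hb) (by simp)) (mul_le (four_le v) ha)
    rwa [map_mul, val_four v hv2, one_mul] at this
  have hva4 : v W.a₄ ≤ 1 := by
    rw [h4, neg_mul, Valuation.map_neg]
    exact mul_le ha hb
  exact ⟨by simp [h1], hva2, by simp [h3], hva4, by simp [h6]⟩

/-- The common core: if the point is integral and not of good reduction, then with
`u₁ = x`, `u₂ = x - a`, `u₃ = x + b`, both `u₁ u₂ u₃` and `u₂ u₃ + u₁ u₃ + u₁ u₂` lie in the
maximal ideal. -/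
lemma core (h1 : W.a₁ = 1) (h3 : W.a₃ = 0) (h6 : W.a₆ = 0)
    (a b : K) (h2 : 4 * W.a₂ = 4 * b - 1 - 4 * a) (h4 : W.a₄ = -a * b)
    (hv2 : v (2 : K) = 1) (ha : v a ≤ 1) (hb : v b ≤ 1) {x y : K} (h : W.Equation x y)
    (hx : v x ≤ 1) (hbad : ¬ GoodRed v W x y) :
    v (x * (x - a) * (x + b)) < 1 ∧
      v ((x - a) * (x + b) + x * (x + b) + x * (x - a)) < 1 := by
  have hW := integralCoeffs v h1 h3 h6 a b h2 h4 hv2 ha hb
  obtain ⟨-, hva2, -, hva4, -⟩ := id hW
  have hy : v y ≤ 1 := R1.val_y_le_one v hW h hx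
  have heq : y ^ 2 + x * y = x ^ 3 + W.a₂ * x ^ 2 + W.a₄ * x := by
    have := (W.equation_iff x y).mp h
    rw [h1, h3, h6] at this
    linear_combination this
  rw [GoodRed, h1, h3, not_or] at hbad
  obtain ⟨hX, hY⟩ := hbad
  have hXle : v (1 * y - (3 * x ^ 2 + 2 * W.a₂ * x + W.a₄)) ≤ 1 :=
    sub_le (mul_le (by simp) hy) (add_le (add_le (mul_le (val_three_le v) (pow_le hx 2))
      (mul_le (mul_le (two_le v) hva2) hx)) hva4)
  have hYle : v (2 * y + 1 * x + 0) ≤ 1 :=
    add_le (add_le (mul_le (two_le v) hy) (mul_le (by simp) hx)) (by simp)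
  have hXlt := lt_of_le_of_ne hXle hX
  have hYlt := lt_of_le_of_ne hYle hY
  constructor
  · have e : 4 * (x * (x - a) * (x + b)) = (2 * y + 1 * x + 0) * (2 * y + 1 * x + 0) := by
      linear_combination (-4) * heq - x ^ 2 * h2 - 4 * x * h4
    have : v (4 * (x * (x - a) * (x + b))) < 1 := by
      rw [e]; exact mul_lt' hYlt hYle
    rwa [map_mul, val_four v hv2, one_mul] at this
  · have e : 2 * ((x - a) * (x + b) + x * (x + b) + x * (x - a)) =
        (2 * y + 1 * x + 0) - 2 * (1 * y - (3 * x ^ 2 + 2 * W.a₂ * x + W.a₄)) := by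
      linear_combination - x * h2 - 2 * h4
    have : v (2 * ((x - a) * (x + b) + x * (x + b) + x * (x - a))) < 1 := by
      rw [e]; exact sub_lt hYlt (mul_lt (two_le v) hXlt)
    rwa [map_mul, hv2, one_mul] at this

/-- If `u₂, u₃` are units then the point has good reduction. -/
lemma goodRed_of_units (h1 : W.a₁ = 1) (h3 : W.a₃ = 0) (h6 : W.a₆ = 0)
    (a b : K) (h2 : 4 * W.a₂ = 4 * b - 1 - 4 * a) (h4 : W.a₄ = -a * b)
    (hv2 : v (2 : K) = 1) (ha : v a ≤ 1) (hb : v b ≤ 1) {x y : K} (h : W.Equation x y)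
    (hx : v x ≤ 1) (hu2 : v (x - a) = 1) (hu3 : v (x + b) = 1) : GoodRed v W x y := by
  by_contra hbad
  obtain ⟨hg, hg'⟩ := core v h1 h3 h6 a b h2 h4 hv2 ha hb h hx hbad
  have hx1 : v x < 1 := by
    rwa [map_mul, map_mul, hu2, hu3, mul_one, mul_one] at hg
  have : v ((x - a) * (x + b)) < 1 := by
    have e : (x - a) * (x + b) = ((x - a) * (x + b) + x * (x + b) + x * (x - a))
        - x * ((x + b) + (x - a)) := by ring
    rw [e]
    exact sub_lt hg' (mul_lt' hx1 (add_le hu3.le hu2.le))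
  rw [map_mul, hu2, hu3, mul_one] at this
  exact lt_irrefl _ this

/-- In the good case every integral point has good reduction. -/
lemma goodRed_of_good (h1 : W.a₁ = 1) (h3 : W.a₃ = 0) (h6 : W.a₆ = 0)
    (a b : K) (h2 : 4 * W.a₂ = 4 * b - 1 - 4 * a) (h4 : W.a₄ = -a * b)
    (hv2 : v (2 : K) = 1) (ha : v a = 1) (hb : v b = 1) (hc : v (a + b) = 1) {x y : K}
    (h : W.Equation x y) (hx : v x ≤ 1) : GoodRed v W x y := by
  by_contra hbad
  obtain ⟨hg, hg'⟩ := core v h1 h3 h6 a b h2 h4 hv2 ha.le hb.le h hx hbad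
  have hu2le : v (x - a) ≤ 1 := sub_le hx ha.le
  have hu3le : v (x + b) ≤ 1 := add_le hx hb.le
  rcases lt_or_eq_of_le hx with hx1 | hx1
  · -- `x` in the maximal ideal
    apply hbad
    refine goodRed_of_units v h1 h3 h6 a b h2 h4 hv2 ha.le hb.le h hx ?_ ?_
    · rw [v.map_sub_eq_of_lt_right (by rw [ha]; exact hx1), ha]
    · rw [v.map_add_eq_of_lt_right (by rw [hb]; exact hx1), hb]
  · rcases lt_or_eq_of_le hu2le with hu2 | hu2
    · have hu3 : v (x + b) = 1 := by
        have e : x + b = (x - a) + (a + b) := by ring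
        rw [e, v.map_add_eq_of_lt_right (by rw [hc]; exact hu2), hc]
      have : v (x * (x + b)) < 1 := by
        have e : x * (x + b) = ((x - a) * (x + b) + x * (x + b) + x * (x - a))
            - (x - a) * ((x + b) + x) := by ring
        rw [e]
        exact sub_lt hg' (mul_lt' hu2 (add_le hu3.le hx))
      rw [map_mul, hx1, hu3, mul_one] at this
      exact lt_irrefl _ this
    · have hu3 : v (x + b) < 1 := by
        rwa [map_mul, map_mul, hx1, hu2, one_mul, one_mul] at hg
      have : v (x * (x - a)) < 1 := by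
        have e : x * (x - a) = ((x - a) * (x + b) + x * (x + b) + x * (x - a))
            - (x + b) * ((x - a) + x) := by ring
        rw [e]
        exact sub_lt hg' (mul_lt' hu3 (add_le hu2.le hx))
      rw [map_mul, hx1, hu2, mul_one] at this
      exact lt_irrefl _ this

end

section

variable {K : Type*} [Field K] [DecidableEq K] {Γ₀ : Type*} [LinearOrderedCommGroupWithZero Γ₀]
  (v : Valuation K Γ₀) {W : WeierstrassCurve.Affine K}

theorem nodeProp_c_aux (σ : K →+* K) (hσ : IsInertial v σ) (h1 : W.a₁ = 1) (h3 : W.a₃ = 0)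
    (h6 : W.a₆ = 0) (a b c : K) (habc : a + b = c) (h2 : 4 * W.a₂ = 4 * b - 1 - 4 * a)
    (h4 : W.a₄ = -a * b) (hv2 : v (2 : K) = 1) (ha : v a = 1) (hc : v c < 1) (hσa : σ a = a)
    (hσb : σ b = b) : NodeProp v W σ := by
  have h20 : (2 : K) ≠ 0 := by
    rw [← v.pos_iff, hv2]; exact zero_lt_one
  have hb : v b = 1 := by
    have e : b = c - a := by rw [← habc]; ring
    rw [e, v.map_sub_eq_of_lt_right (by rw [ha]; exact hc), ha]
  have hσc : σ c = c := by rw [← habc, map_add, hσa, hσb]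
  -- integral points with `x - a` a unit have good reduction
  have NS : ∀ x y : K, W.Equation x y → v x ≤ 1 → v (x - a) = 1 → GoodRed v W x y := by
    intro x y h hx hu2
    refine goodRed_of_units v h1 h3 h6 a b h2 h4 hv2 ha.le hb.le h hx hu2 ?_
    have e : x + b = (x - a) + c := by rw [← habc]; ring
    rw [e, v.map_add_eq_of_lt_left (by rw [hu2]; exact hc), hu2]
  intro x y h h' hx hbad
  have hξlt : v (x - a) < 1 := by
    refine lt_of_le_of_ne (sub_le hx ha.le) fun hx1 => hbad (NS x y h.1 hx hx1)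
  have heq0 : y ^ 2 + x * y = x ^ 3 + W.a₂ * x ^ 2 + W.a₄ * x := by
    have := (W.equation_iff x y).mp h.1
    rw [h1, h3, h6] at this
    linear_combination this
  have heq : (y + x / 2) ^ 2 + 0 * (x - a) * (y + x / 2) =
      (x - a) ^ 3 + (a + c) * (x - a) ^ 2 + (a * c) * (x - a) := by
    rw [← habc]
    field_simp
    linear_combination 4 * heq0 + x ^ 2 * h2 + 4 * x * h4
  have hA2 : v (a + c) ≤ 1 := add_le ha.le hc.le
  have hA4 : v (a * c) < 1 := mul_lt ha.le hc
  have hD : v ((0 : K) ^ 2 + 4 * (a + c)) = 1 := by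
    have e : (0 : K) ^ 2 + 4 * (a + c) = 4 * (a + c) := by ring
    rw [e, map_mul, val_four v hv2, one_mul, v.map_add_eq_of_lt_left (by rw [ha]; exact hc), ha]
  have hσA2 : σ (a + c) = a + c := by rw [map_add, hσa, hσc]
  have hσA4 : σ (a * c) = a * c := by rw [map_mul, hσa, hσc]
  have hσξ : σ (x - a) = σ x - a := by rw [map_sub, hσa]
  have hση : σ (y + x / 2) = σ y + σ x / 2 := by rw [map_add, map_div₀, map_ofNat]
  have hzero : v (0 : K) ≤ 1 := by simp
  rw [sub_eq_add_neg, Point.neg_some]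
  by_cases hxy : σ x = x ∧ σ y = W.negY x (W.negY x y)
  · left
    exact Point.add_of_Y_eq hxy.1 hxy.2
  right
  rw [Point.add_some hxy]
  refine ⟨_, _, _, rfl, ?_⟩
  have key : 1 ≤ v (W.addX (σ x) x (W.slope (σ x) x (σ y) (W.negY x y)) - a) := by
    rw [addX, h1]
    by_cases hX : σ x = x
    · have hyne : σ y ≠ y := by
        intro e
        exact hxy ⟨hX, by rw [negY_negY]; exact e⟩
      have hne : σ y ≠ W.negY x (W.negY x y) := by rw [negY_negY]; exact hyne
      rw [slope_of_Y_ne hX hne, negY, h1, h3]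
      have hX' : σ (x - a) = x - a := by rw [hσξ, hX]
      have hY' : σ (y + x / 2) ≠ y + x / 2 := by
        rw [hση, hX]; intro e; exact hyne (add_right_cancel e)
      have := R4core_b v σ hσ hzero hA2 hA4 hD (map_zero σ) hσA2 hσA4 heq hξlt hX' hY'
      rw [hση, hX] at this
      rw [hX]
      have hyneg : σ y = -y - x := by
        rcases Y_eq_of_X_eq h'.1 h.1 hX with e | e
        · exact absurd e hyne
        · rw [e, negY, h1, h3]; ring
      have hden : 2 * σ y + x ≠ 0 := by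
        have e : 2 * σ y + x = σ y - y := by rw [hyneg]; ring
        rw [e]; exact sub_ne_zero.mpr hyne
      have e1 : (3 * (x - a) ^ 2 + 2 * (a + c) * (x - a) + a * c - 0 * (σ y + x / 2)) /
          (2 * (σ y + x / 2) + 0 * (x - a)) =
          (3 * x ^ 2 + 2 * W.a₂ * x + W.a₄ - 1 * σ y) / (σ y - (-σ y - 1 * x - 0)) + 1 / 2 := by
        have e2 : 2 * (σ y + x / 2) + 0 * (x - a) = 2 * σ y + x := by field_simp; ring
        have e3 : σ y - (-σ y - 1 * x - 0) = 2 * σ y + x := by ring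
        rw [e2, e3, ← habc]
        field_simp
        linear_combination (-x) * h2 - 2 * h4
      rw [e1] at this
      generalize (3 * x ^ 2 + 2 * W.a₂ * x + W.a₄ - 1 * σ y) / (σ y - (-σ y - 1 * x - 0)) = ℓ at *
      convert this using 2
      rw [← habc]
      field_simp
      linear_combination (-1) * h2
    · rw [slope_of_X_ne hX, negY, h1, h3]
      have hX' : σ (x - a) ≠ x - a := by
        rw [hσξ]; intro e; exact hX (sub_left_injective e)
      have := R4core_a v σ hσ hzero hA2 hA4 hD (map_zero σ) hσA2 hσA4 heq hξlt hX'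
      rw [hση, hσξ] at this
      have hd : σ x - x ≠ 0 := sub_ne_zero.mpr hX
      have e1 : (σ y + σ x / 2 + (y + x / 2) + 0 * (x - a)) / (σ x - a - (x - a)) =
          (σ y - (-y - 1 * x - 0)) / (σ x - x) + 1 / 2 := by
        have e2 : σ x - a - (x - a) = σ x - x := by ring
        rw [e2]; field_simp; ring
      rw [e1] at this
      generalize (σ y - (-y - 1 * x - 0)) / (σ x - x) = ℓ at *
      convert this using 2
      rw [← habc]
      field_simp
      linear_combination (-1) * h2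
  have hns := nonsingular_add h' ((nonsingular_neg x y).mpr h) hxy
  by_cases hx3 : 1 < v (W.addX (σ x) x (W.slope (σ x) x (σ y) (W.negY x y)))
  · exact Or.inl hx3
  · right
    push Not at hx3
    exact NS _ _ hns.1 hx3 (le_antisymm (sub_le hx3 ha.le) key)

end

section

variable {K : Type*} [Field K] {Γ₀ : Type*} [LinearOrderedCommGroupWithZero Γ₀]
  (v : Valuation K Γ₀) {W : WeierstrassCurve.Affine K}

lemma four_ne_zero' (hv2 : v (2 : K) = 1) : (4 : K) ≠ 0 := by
  rw [← v.pos_iff, val_four v hv2]; exact zero_lt_one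

lemma val_div_four (hv2 : v (2 : K) = 1) (z : K) : v (z / 4) = v z := by
  rw [map_div₀, val_four v hv2, div_one]

lemma convert_h2 (hv2 : v (2 : K) = 1) (A B : K) (h2 : 4 * W.a₂ = B - 1 - A) :
    4 * W.a₂ = 4 * (B / 4) - 1 - 4 * (A / 4) := by
  have h40 := four_ne_zero' v hv2
  rw [mul_div_cancel₀ _ h40, mul_div_cancel₀ _ h40]; exact h2

lemma convert_h4 (hv2 : v (2 : K) = 1) (A B : K) (h4 : 16 * W.a₄ = -A * B) :
    W.a₄ = -(A / 4) * (B / 4) := by
  have h40 := four_ne_zero' v hv2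
  apply mul_left_cancel₀ h40
  apply mul_left_cancel₀ h40
  have e1 : A = 4 * (A / 4) := (mul_div_cancel₀ _ h40).symm
  have e2 : B = 4 * (B / 4) := (mul_div_cancel₀ _ h40).symm
  generalize A / 4 = a at *
  generalize B / 4 = b at *
  rw [e1, e2] at h4
  linear_combination h4

end

end NodeC

variable {K : Type*} [Field K] [DecidableEq K] {Γ₀ : Type*} [LinearOrderedCommGroupWithZero Γ₀]
  (v : Valuation K Γ₀) {W : WeierstrassCurve.Affine K}

theorem nodeProp_c (σ : K →+* K) (hσ : IsInertial v σ) (h1 : W.a₁ = 1) (h3 : W.a₃ = 0) (h6 : W.a₆ = 0)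
    (A B C : K) (hABC : A + B = C) (h2 : 4 * W.a₂ = B - 1 - A) (h4 : 16 * W.a₄ = -A * B)
    (hv2 : v (2 : K) = 1) (hA : v A = 1) (hC : v C < 1) (hσA : σ A = A) (hσB : σ B = B) :
    NodeProp v W σ := by
  refine NodeC.nodeProp_c_aux v σ hσ h1 h3 h6 (A / 4) (B / 4) (C / 4) ?_
    (NodeC.convert_h2 v hv2 A B h2) (NodeC.convert_h4 v hv2 A B h4) hv2 ?_ ?_ ?_ ?_
  · rw [← hABC]; ring
  · rw [NodeC.val_div_four v hv2]; exact hA
  · rw [NodeC.val_div_four v hv2]; exact hC
  · rw [map_div₀, hσA, map_ofNat]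
  · rw [map_div₀, hσB, map_ofNat]

theorem nodeProp_good (σ : K →+* K) (h1 : W.a₁ = 1) (h3 : W.a₃ = 0) (h6 : W.a₆ = 0)
    (A B C : K) (hABC : A + B = C) (h2 : 4 * W.a₂ = B - 1 - A) (h4 : 16 * W.a₄ = -A * B)
    (hv2 : v (2 : K) = 1) (hA : v A = 1) (hB : v B = 1) (hC : v C = 1) : NodeProp v W σ := by
  intro x y h h' hx hbad
  exfalso
  apply hbad
  refine NodeC.goodRed_of_good v h1 h3 h6 (A / 4) (B / 4)
    (NodeC.convert_h2 v hv2 A B h2) (NodeC.convert_h4 v hv2 A B h4) hv2 ?_ ?_ ?_ h.1 hx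
  · rw [NodeC.val_div_four v hv2]; exact hA
  · rw [NodeC.val_div_four v hv2]; exact hB
  · have e : A / 4 + B / 4 = C / 4 := by rw [← hABC]; ring
    rw [e, NodeC.val_div_four v hv2]; exact hC

end Fermat.Agent.S13
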