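import Fermat.Agent.S13.FreyBasic
import Fermat.Agent.S13.NP
import Fermat.Agent.S13.LPgen
import Fermat.Agent.S13.NodeAB
import Fermat.Agent.S13.NodeC

/-!
# S13: the local package for the Frey curve
-/

set_option autoImplicit false

namespace Fermat.Agent.S13

open WeierstrassCurve WeierstrassCurve.Affine WeierstrassCurve.Affine.Point FreyPackage

local notation "Qbar" => AlgebraicClosure ℚ

/-- The Frey curve over `Qbar`. -/
noncomputable abbrev EK (P : FreyPackage) : WeierstrassCurve.Affine Qbar := (P.freyCurve)⁄Qbar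

lemma EK_eq (P : FreyPackage) : EK P = P.freyCurveInt.map (Int.castRingHom Qbar) := by
  show P.freyCurve.map (algebraMap ℚ Qbar) = _
  rw [← freyCurveInt_map, WeierstrassCurve.map_map]
  congr 1

lemma EK_a₁ (P : FreyPackage) : (EK P).a₁ = 1 := by rw [EK_eq]; simp [freyCurveInt]
lemma EK_a₃ (P : FreyPackage) : (EK P).a₃ = 0 := by rw [EK_eq]; simp [freyCurveInt]
lemma EK_a₆ (P : FreyPackage) : (EK P).a₆ = 0 := by rw [EK_eq]; simp [freyCurveInt]
lemma EK_a₂ (P : FreyPackage) : (EK P).a₂ = ((P.freyCurveInt.a₂ : ℤ) : Qbar) := by rw [EK_eq]; simp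
lemma EK_a₄ (P : FreyPackage) : (EK P).a₄ = ((P.freyCurveInt.a₄ : ℤ) : Qbar) := by rw [EK_eq]; simp

lemma EK_Δ_ne_zero (P : FreyPackage) : (EK P).Δ ≠ 0 := by
  rw [EK_eq, WeierstrassCurve.map_Δ]
  simpa using freyCurveInt_Δ_ne_zero P

/-- `2 ∣ a₄`. -/
theorem two_dvd_a₄ (P : FreyPackage) : (2 : ℤ) ∣ P.freyCurveInt.a₄ := by
  have hp5 := P.hp5
  have hb : (2 : ℤ) ∣ P.b := (ZMod.intCast_zmod_eq_zero_iff_dvd P.b 2).1 P.hb2
  have hb32 : (32 : ℤ) ∣ P.b ^ P.p := by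
    have h1 : (2 : ℤ) ^ 5 ∣ P.b ^ 5 := pow_dvd_pow_of_dvd hb 5
    have h2 : P.b ^ 5 ∣ P.b ^ P.p := pow_dvd_pow _ (by omega)
    exact (by norm_num : (32 : ℤ) = 2 ^ 5) ▸ h1.trans h2
  obtain ⟨k, hk⟩ := hb32
  have h4 := sixteen_mul_a₄ P
  rw [hk] at h4
  exact ⟨-(P.a ^ P.p) * k, by linarith⟩

lemma a_odd (P : FreyPackage) : ¬ (2 : ℤ) ∣ P.a := by
  intro h
  obtain ⟨k, hk⟩ := h
  have h4 := P.ha4
  rw [hk] at h4
  push_cast at h4
  have : ∀ x : ZMod 4, 2 * x ≠ 3 := by decide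
  exact this _ h4

lemma isCoprime_ab (P : FreyPackage) : IsCoprime P.a P.b := by
  rw [Int.isCoprime_iff_gcd_eq_one]
  have := P.hgcdab
  rw [← Int.coe_gcd] at this
  exact_mod_cast this

lemma isCoprime_AB (P : FreyPackage) : IsCoprime (P.a ^ P.p) (P.b ^ P.p) :=
  (isCoprime_ab P).pow

section val

variable {Γ₀ : Type*} [LinearOrderedCommGroupWithZero Γ₀] (v : Valuation Qbar Γ₀)

lemma not_both_lt_of_isCoprime {x y : ℤ} (h : IsCoprime x y) (hx : v (x : Qbar) < 1)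
    (hy : v (y : Qbar) < 1) : False := by
  obtain ⟨a, b, hab⟩ := h
  have h1 : ((a : Qbar) * (x : Qbar) + (b : Qbar) * (y : Qbar)) = 1 := by
    exact_mod_cast congrArg (Int.cast : ℤ → Qbar) hab
  have h2 : v ((a : Qbar) * (x : Qbar)) < 1 := by
    rw [map_mul]
    exact lt_of_le_of_lt (mul_le_of_le_one_left' (np_val_intCast_le_one v a)) hx
  have h3 : v ((b : Qbar) * (y : Qbar)) < 1 := by
    rw [map_mul]
    exact lt_of_le_of_lt (mul_le_of_le_one_left' (np_val_intCast_le_one v b)) hy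
  have h4 := v.map_add_lt h2 h3
  rw [h1, map_one] at h4
  exact lt_irrefl _ h4

lemma val_lt_of_dvd {x y : ℤ} (h : x ∣ y) (hx : v (x : Qbar) < 1) : v (y : Qbar) < 1 := by
  obtain ⟨k, rfl⟩ := h
  push_cast
  rw [map_mul]
  exact lt_of_le_of_lt (mul_le_of_le_one_right' (np_val_intCast_le_one v k)) hx

lemma EK_integralCoeffs (P : FreyPackage) : IntegralCoeffs v (EK P) := by
  refine ⟨?_, ?_, ?_, ?_, ?_⟩
  · rw [EK_a₁]; simp
  · rw [EK_a₂]; exact np_val_intCast_le_one v _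
  · rw [EK_a₃]; simp
  · rw [EK_a₄]; exact np_val_intCast_le_one v _
  · rw [EK_a₆]; simp

lemma val_eq_one_or_lt (n : ℤ) : v (n : Qbar) = 1 ∨ v (n : Qbar) < 1 :=
  (np_val_intCast_le_one v n).eq_or_lt

/-- The node property for the Frey curve, for every valuation and every inertial `σ`. -/
theorem frey_nodeProp (P : FreyPackage) (σ : Qbar ≃ₐ[ℚ] Qbar)
    (hσ : IsInertial v (σ : Qbar →+* Qbar)) : NodeProp v (EK P) (σ : Qbar →+* Qbar) := by
  have hσint : ∀ n : ℤ, (σ : Qbar →+* Qbar) (n : Qbar) = n := fun n => map_intCast _ n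
  have h2 : (4 : Qbar) * (EK P).a₂ = ((P.b ^ P.p : ℤ) : Qbar) - 1 - ((P.a ^ P.p : ℤ) : Qbar) := by
    rw [EK_a₂]; exact_mod_cast congrArg (Int.cast : ℤ → Qbar) (four_mul_a₂ P)
  have h4 : (16 : Qbar) * (EK P).a₄ = -((P.a ^ P.p : ℤ) : Qbar) * ((P.b ^ P.p : ℤ) : Qbar) := by
    rw [EK_a₄]; exact_mod_cast congrArg (Int.cast : ℤ → Qbar) (sixteen_mul_a₄ P)
  have hABC : ((P.a ^ P.p : ℤ) : Qbar) + ((P.b ^ P.p : ℤ) : Qbar) = ((P.c ^ P.p : ℤ) : Qbar) := by
    exact_mod_cast congrArg (Int.cast : ℤ → Qbar) P.hFLT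
  have hb2 : (2 : ℤ) ∣ P.b ^ P.p :=
    Dvd.dvd.trans ((ZMod.intCast_zmod_eq_zero_iff_dvd P.b 2).1 P.hb2) (dvd_pow_self _ P.hp0)
  rcases val_eq_one_or_lt v (P.a ^ P.p) with hA | hA
  · rcases val_eq_one_or_lt v (P.b ^ P.p) with hB | hB
    · -- `2` is a unit
      have hv2 : v (2 : Qbar) = 1 := by
        rcases val_eq_one_or_lt v 2 with h | h
        · simpa using h
        · exact absurd (val_lt_of_dvd v hb2 h) (by rw [hB]; exact lt_irrefl _)
      rcases val_eq_one_or_lt v (P.c ^ P.p) with hC | hC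
      · exact nodeProp_good v _ (EK_a₁ P) (EK_a₃ P) (EK_a₆ P) _ _ _ hABC h2 h4 hv2 hA hB hC
      · exact nodeProp_c v _ hσ (EK_a₁ P) (EK_a₃ P) (EK_a₆ P) _ _ _ hABC h2 h4 hv2 hA hC
          (hσint _) (hσint _)
    · -- `v B < 1`, node at the origin
      refine nodeProp_ab v _ hσ (EK_a₁ P) (EK_a₃ P) (EK_a₆ P) (EK_integralCoeffs v P).2.1 ?_ ?_
        (by rw [EK_a₂]; exact hσint _) (by rw [EK_a₄]; exact hσint _)
      · rw [EK_a₄]
        rcases val_eq_one_or_lt v 2 with h | h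
        · have h16 : v (16 : Qbar) = 1 := by
            have : (16 : Qbar) = ((2 : ℤ) : Qbar) ^ 4 := by norm_num
            rw [this, map_pow, h, one_pow]
          have := congrArg v h4
          rw [map_mul, h16, one_mul, map_mul, Valuation.map_neg, hA, one_mul, EK_a₄] at this
          rw [this]; exact hB
        · exact val_lt_of_dvd v (two_dvd_a₄ P) h
      · have : (1 : Qbar) + 4 * (EK P).a₂ = ((P.b ^ P.p : ℤ) : Qbar) - ((P.a ^ P.p : ℤ) : Qbar) := by
          rw [h2]; ring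
        rw [this, Valuation.map_sub_eq_of_lt_right v (by rw [hA]; exact hB), hA]
  · -- `v A < 1`, node at the origin
    have hB : v ((P.b ^ P.p : ℤ) : Qbar) = 1 := by
      rcases val_eq_one_or_lt v (P.b ^ P.p) with hB | hB
      · exact hB
      · exact (not_both_lt_of_isCoprime v (isCoprime_AB P) hA hB).elim
    have hv2 : v ((2 : ℤ) : Qbar) = 1 := by
      rcases val_eq_one_or_lt v 2 with h | h
      · exact h
      · exact absurd (val_lt_of_dvd v hb2 h) (by rw [hB]; exact lt_irrefl _)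
    refine nodeProp_ab v _ hσ (EK_a₁ P) (EK_a₃ P) (EK_a₆ P) (EK_integralCoeffs v P).2.1 ?_ ?_
      (by rw [EK_a₂]; exact hσint _) (by rw [EK_a₄]; exact hσint _)
    · have h16 : v (16 : Qbar) = 1 := by
        have : (16 : Qbar) = ((2 : ℤ) : Qbar) ^ 4 := by norm_num
        rw [this, map_pow, hv2, one_pow]
      have := congrArg v h4
      rw [map_mul, h16, one_mul, map_mul, Valuation.map_neg, hB, mul_one] at this
      rw [this]; exact hA
    · have : (1 : Qbar) + 4 * (EK P).a₂ = ((P.b ^ P.p : ℤ) : Qbar) - ((P.a ^ P.p : ℤ) : Qbar) := by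
        rw [h2]; ring
      rw [this, Valuation.map_sub_eq_of_lt_left v (by rw [hB]; exact hA), hB]

/-- **Local package**: `(σ - 1)² Q` lies in the kernel of reduction. -/
theorem frey_LP (P : FreyPackage) (σ : Qbar ≃ₐ[ℚ] Qbar)
    (hσ : IsInertial v (σ : Qbar →+* Qbar)) (Q : (EK P).Point) :
    InE1 v (σ • (σ • Q - Q) - (σ • Q - Q)) := by
  have := LPgen v (EK_integralCoeffs v P) (σ : Qbar →+* Qbar) hσ
    (DistribSMul.toAddMonoidHom (EK P).Point σ) ?_ (frey_nodeProp v P σ hσ) Q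
  · exact this
  · intro x y h
    refine ⟨?_, ?_⟩
    · exact (baseChange_nonsingular (W := P.freyCurve) (f := σ.toAlgHom) σ.injective x y).2 h
    · rfl

end val

end Fermat.Agent.S13
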