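import Fermat.Agent.S13.TwoAdicCalc

/-!
# The valuation argument: a point of prime order `p ≥ 5` forces `p ∣ 2 v₂(a₄)`
-/

set_option autoImplicit false

namespace Fermat.Agent.S13.T2

/-- abstract properties of `k ↦ x(kQ)` for a point `Q` of order `p` on
`y² + xy = x³ + a₂x² + a₄x`, `b₂ = 1 + 4a₂`. -/
structure XSeq (p : ℕ) (b₂ a₄ : ℚ) (f : ℤ → ℚ) : Prop where
  ne_zero : ∀ k : ℤ, ¬ (p : ℤ) ∣ k → f k ≠ 0
  periodic : ∀ j k : ℤ, (p : ℤ) ∣ j - k → f j = f k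
  even : ∀ k : ℤ, f (-k) = f k
  ne : ∀ j k : ℤ, ¬ (p : ℤ) ∣ j → ¬ (p : ℤ) ∣ k → ¬ (p : ℤ) ∣ j + k → ¬ (p : ℤ) ∣ j - k →
    f j ≠ f k
  prod : ∀ j k : ℤ, ¬ (p : ℤ) ∣ j → ¬ (p : ℤ) ∣ k → ¬ (p : ℤ) ∣ j + k → ¬ (p : ℤ) ∣ j - k →
    f (j + k) * f (j - k) * (f j - f k) ^ 2 = (f j * f k - a₄) ^ 2
  dbl : ∀ k : ℤ, ¬ (p : ℤ) ∣ k →
    f (2 * k) * (f k * (4 * f k ^ 2 + b₂ * f k + 4 * a₄)) = (f k ^ 2 - a₄) ^ 2

variable {p : ℕ} {b₂ a₄ : ℚ} {f : ℤ → ℚ}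

lemma not_dvd_mul {p : ℕ} (hp : p.Prime) {c k : ℤ} (hc : ¬ (p : ℤ) ∣ c) (hk : ¬ (p : ℤ) ∣ k) :
    ¬ (p : ℤ) ∣ c * k := by
  intro h
  rcases (Nat.prime_iff_prime_int.mp hp).dvd_or_dvd h with h | h
  · exact hc h
  · exact hk h

lemma not_dvd_of_pos_lt {p : ℕ} {i : ℤ} (h0 : 0 < i) (h1 : i < p) : ¬ (p : ℤ) ∣ i := by
  intro h
  have := Int.le_of_dvd h0 h
  omega

lemma XSeq.scale (hp : p.Prime) (H : XSeq p b₂ a₄ f) {c : ℤ} (hc : ¬ (p : ℤ) ∣ c) :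
    XSeq p b₂ a₄ (fun k => f (c * k)) where
  ne_zero k hk := H.ne_zero _ (not_dvd_mul hp hc hk)
  periodic j k h := H.periodic _ _ (by rw [← mul_sub]; exact Dvd.dvd.mul_left h c)
  even k := by
    rw [mul_neg, H.even]
  ne j k hj hk hs hd := H.ne _ _ (not_dvd_mul hp hc hj) (not_dvd_mul hp hc hk)
    (by rw [← mul_add]; exact not_dvd_mul hp hc hs) (by rw [← mul_sub]; exact not_dvd_mul hp hc hd)
  prod j k hj hk hs hd := by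
    have := H.prod _ _ (not_dvd_mul hp hc hj) (not_dvd_mul hp hc hk)
      (by rw [← mul_add]; exact not_dvd_mul hp hc hs)
      (by rw [← mul_sub]; exact not_dvd_mul hp hc hd)
    simpa only [mul_add, mul_sub] using this
  dbl k hk := by
    have := H.dbl _ (not_dvd_mul hp hc hk)
    have e : 2 * (c * k) = c * (2 * k) := by ring
    rw [e] at this
    exact this

section main

variable (hp : p.Prime) (hp5 : 5 ≤ p) (hb₂ : b₂ ≠ 0) (hvb₂ : v2 b₂ = 0) (ha₄ : a₄ ≠ 0)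
  (hN : 1 ≤ v2 a₄) (H : XSeq p b₂ a₄ f)

include hb₂ hvb₂ ha₄ in
/-- valuation of the denominator of the duplication formula in the middle range -/
lemma v2_D_eq {x : ℚ} (hx : x ≠ 0) (h1 : -1 ≤ v2 x) (h2 : v2 x ≤ v2 a₄ + 1) :
    4 * x ^ 2 + b₂ * x + 4 * a₄ ≠ 0 ∧ v2 (4 * x ^ 2 + b₂ * x + 4 * a₄) = v2 x := by
  have hbx : b₂ * x ≠ 0 := mul_ne_zero hb₂ hx
  have hvbx : v2 (b₂ * x) = v2 x := by rw [v2_mul hb₂ hx, hvb₂, zero_add]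
  have h4x : Dvd2 (v2 (b₂ * x) + 1) (4 * x ^ 2) := by
    refine Dvd2.of_le ?_
    rw [v2_mul (by norm_num) (pow_ne_zero 2 hx), v2_four, v2_sq, hvbx]; omega
  have h4a : Dvd2 (v2 (b₂ * x) + 1) (4 * a₄) := by
    refine Dvd2.of_le ?_
    rw [v2_mul (by norm_num) ha₄, v2_four, hvbx]; omega
  have := v2_add_eq hbx (h4x.add h4a)
  have e : 4 * x ^ 2 + b₂ * x + 4 * a₄ = b₂ * x + (4 * x ^ 2 + 4 * a₄) := by ring
  rw [e, ← hvbx]
  exact this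

include hb₂ hvb₂ ha₄ in
/-- lower bound for the valuation of the denominator of the duplication formula -/
lemma Dvd2_D {x : ℚ} (hx : x ≠ 0) {m : ℤ} (h1 : m ≤ 2 + 2 * v2 x) (h2 : m ≤ v2 x)
    (h3 : m ≤ 2 + v2 a₄) : Dvd2 m (4 * x ^ 2 + b₂ * x + 4 * a₄) := by
  refine Dvd2.add (Dvd2.add (Dvd2.of_le ?_) (Dvd2.of_le ?_)) (Dvd2.of_le ?_)
  · rw [v2_mul (by norm_num) (pow_ne_zero 2 hx), v2_four, v2_sq]; omega
  · rw [v2_mul hb₂ hx, hvb₂]; omega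
  · rw [v2_mul (by norm_num) ha₄, v2_four]; omega

include hp hp5 in
lemma not_dvd_two_mul {k : ℤ} (hk : ¬ (p : ℤ) ∣ k) : ¬ (p : ℤ) ∣ 2 * k :=
  not_dvd_mul hp (not_dvd_of_pos_lt (by norm_num) (by omega)) hk

include hp hp5 in
lemma not_dvd_three_mul {k : ℤ} (hk : ¬ (p : ℤ) ∣ k) : ¬ (p : ℤ) ∣ 3 * k :=
  not_dvd_mul hp (not_dvd_of_pos_lt (by norm_num) (by omega)) hk

include hp hp5 H in
/-- bookkeeping for the duplication formula -/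
lemma dbl_val {k : ℤ} (hk : ¬ (p : ℤ) ∣ k) (hne : f k ^ 2 - a₄ ≠ 0) :
    4 * f k ^ 2 + b₂ * f k + 4 * a₄ ≠ 0 ∧
    v2 (f (2 * k)) + (v2 (f k) + v2 (4 * f k ^ 2 + b₂ * f k + 4 * a₄)) = 2 * v2 (f k ^ 2 - a₄) := by
  have hx := H.ne_zero k hk
  have hx2 := H.ne_zero (2 * k) (not_dvd_two_mul hp hp5 hk)
  have hd := H.dbl k hk
  have hD : 4 * f k ^ 2 + b₂ * f k + 4 * a₄ ≠ 0 := by
    intro h0
    rw [h0] at hd
    simp only [mul_zero] at hd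
    exact hne (pow_eq_zero_iff (by norm_num) |>.mp hd.symm)
  refine ⟨hD, ?_⟩
  have := congrArg v2 hd
  rwa [v2_mul hx2 (mul_ne_zero hx hD), v2_mul hx hD, v2_sq] at this

include hp hp5 hb₂ hvb₂ ha₄ hN H in
/-- doubling pushes a point of the kernel of reduction strictly deeper -/
lemma neg_step {k : ℤ} (hk : ¬ (p : ℤ) ∣ k) (hneg : v2 (f k) < 0) :
    v2 (f (2 * k)) < v2 (f k) := by
  have hx := H.ne_zero k hk
  have h1 := v2_sub_eq (a := f k ^ 2) (b := a₄) (pow_ne_zero 2 hx)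
    (Dvd2.of_le (by rw [v2_sq]; omega))
  rw [v2_sq] at h1
  obtain ⟨hD, hval⟩ := dbl_val hp hp5 H hk h1.1
  have hDv := (Dvd2_D hb₂ hvb₂ ha₄ hx (m := min (2 + 2 * v2 (f k)) (v2 (f k)))
    (min_le_left _ _) (min_le_right _ _) (by omega)).le hD
  rw [h1.2] at hval
  omega

include hp hp5 hb₂ hvb₂ ha₄ hN H in
lemma neg_iter {k : ℤ} (hk : ¬ (p : ℤ) ∣ k) (hneg : v2 (f k) < 0) (j : ℕ) :
    v2 (f (2 ^ (j + 1) * k)) < v2 (f k) := by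
  induction j with
  | zero => simpa using neg_step hp hp5 hb₂ hvb₂ ha₄ hN H hk hneg
  | succ j ih =>
    have hk' : ¬ (p : ℤ) ∣ 2 ^ (j + 1) * k :=
      not_dvd_mul hp (fun h => by
        have := (Nat.prime_iff_prime_int.mp hp).dvd_of_dvd_pow h
        exact not_dvd_of_pos_lt (by norm_num) (by omega) this) hk
    have := neg_step hp hp5 hb₂ hvb₂ ha₄ hN H hk' (by omega)
    have e : (2 : ℤ) ^ (j + 1 + 1) * k = 2 * (2 ^ (j + 1) * k) := by ring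
    rw [e]
    omega

include hp hp5 hb₂ hvb₂ ha₄ hN H in
/-- no multiple lies in the kernel of reduction -/
lemma nonneg {k : ℤ} (hk : ¬ (p : ℤ) ∣ k) : 0 ≤ v2 (f k) := by
  by_contra hneg
  push Not at hneg
  have h1 := neg_iter hp hp5 hb₂ hvb₂ ha₄ hN H hk hneg (p - 2)
  have hcop : IsCoprime (2 : ℤ) p := by
    have : Nat.Coprime 2 p := (Nat.coprime_primes Nat.prime_two hp).mpr (by omega)
    exact_mod_cast Nat.isCoprime_iff_coprime.mpr this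
  have h2 := Int.ModEq.pow_card_sub_one_eq_one hp hcop
  have e : p - 2 + 1 = p - 1 := by omega
  rw [e] at h1
  have h3 : (p : ℤ) ∣ 2 ^ (p - 1) * k - k := by
    have : (p : ℤ) ∣ 2 ^ (p - 1) - 1 := (Int.modEq_iff_dvd.mp h2.symm)
    have e2 : (2 : ℤ) ^ (p - 1) * k - k = (2 ^ (p - 1) - 1) * k := by ring
    rw [e2]
    exact Dvd.dvd.mul_right this k
  rw [H.periodic _ _ h3] at h1
  exact lt_irrefl _ h1

include hp hp5 hb₂ hvb₂ ha₄ hN H in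
/-- every nonzero multiple reduces to the node -/
lemma pos {k : ℤ} (hk : ¬ (p : ℤ) ∣ k) : 0 < v2 (f k) := by
  have h0 := nonneg hp hp5 hb₂ hvb₂ ha₄ hN H hk
  by_contra hle
  have he : v2 (f k) = 0 := by omega
  have hx := H.ne_zero k hk
  have hk2 := not_dvd_two_mul hp hp5 hk
  have hk3 := not_dvd_three_mul hp hp5 hk
  have hx2 := H.ne_zero _ hk2
  have hx3 := H.ne_zero _ hk3
  -- x(2Q) is a unit
  have h1 := v2_sub_eq (a := f k ^ 2) (b := a₄) (pow_ne_zero 2 hx)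
    (Dvd2.of_le (by rw [v2_sq]; omega))
  rw [v2_sq] at h1
  obtain ⟨hD, hval⟩ := dbl_val hp hp5 H hk h1.1
  have hDv := (v2_D_eq hb₂ hvb₂ ha₄ hx (by omega) (by omega)).2
  rw [h1.2, hDv] at hval
  have he2 : v2 (f (2 * k)) = 0 := by omega
  -- x(3Q)
  have e3 : 2 * k + k = 3 * k := by ring
  have e1 : 2 * k - k = k := by ring
  have hpr := H.prod (2 * k) k hk2 hk (by rwa [e3]) (by rwa [e1])
  have hne := H.ne (2 * k) k hk2 hk (by rwa [e3]) (by rwa [e1])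
  rw [e3, e1] at hpr
  have hd : f (2 * k) - f k ≠ 0 := sub_ne_zero.mpr hne
  have hdv := (Dvd2_sub_of_v2_eq hx2 hx (by omega)).le hd
  have h2 := v2_sub_eq (a := f (2 * k) * f k) (b := a₄) (mul_ne_zero hx2 hx)
    (Dvd2.of_le (by rw [v2_mul hx2 hx]; omega))
  rw [v2_mul hx2 hx] at h2
  have := congrArg v2 hpr
  rw [v2_mul (mul_ne_zero hx3 hx) (pow_ne_zero 2 hd), v2_mul hx3 hx, v2_sq, v2_sq, h2.2] at this
  have h3 := nonneg hp hp5 hb₂ hvb₂ ha₄ hN H hk3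
  omega

include hp hp5 hb₂ hvb₂ ha₄ hN H in
/-- no nonzero multiple lies on the component of the 2-torsion point `(0,0)` -/
lemma lt_N {k : ℤ} (hk : ¬ (p : ℤ) ∣ k) : v2 (f k) < v2 a₄ := by
  by_contra hle
  push Not at hle
  have hx := H.ne_zero k hk
  have hk2 := not_dvd_two_mul hp hp5 hk
  have h1 := v2_sub_eq' (a := f k ^ 2) (b := a₄) ha₄ (Dvd2.of_le (by rw [v2_sq]; omega))
  obtain ⟨hD, hval⟩ := dbl_val hp hp5 H hk h1.1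
  have hDv := (Dvd2_D hb₂ hvb₂ ha₄ hx (m := v2 a₄) (by omega) hle (by omega)).le hD
  rw [h1.2] at hval
  have := pos hp hp5 hb₂ hvb₂ ha₄ hN H hk2
  omega

/-- the statement proved by induction -/
def CC (f : ℤ → ℚ) (a₄ : ℚ) (k : ℕ) : Prop :=
  (k : ℤ) * v2 (f 1) < 2 * v2 a₄ ∧
    v2 (f k) = min ((k : ℤ) * v2 (f 1)) (2 * v2 a₄ - (k : ℤ) * v2 (f 1))

include hp hp5 hb₂ hvb₂ ha₄ hN H in
lemma CC_one : CC f a₄ 1 := by
  have h1 : ¬ (p : ℤ) ∣ 1 := not_dvd_of_pos_lt (by norm_num) (by omega)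
  have hpos := pos hp hp5 hb₂ hvb₂ ha₄ hN H h1
  have hlt := lt_N hp hp5 hb₂ hvb₂ ha₄ hN H h1
  refine ⟨by push_cast; omega, ?_⟩
  push_cast
  rw [one_mul, min_eq_left (by omega)]

include hp hp5 hb₂ hvb₂ ha₄ hN H in
lemma CC_two : CC f a₄ 2 := by
  have h1 : ¬ (p : ℤ) ∣ 1 := not_dvd_of_pos_lt (by norm_num) (by omega)
  have h2 : ¬ (p : ℤ) ∣ 2 * 1 := not_dvd_two_mul hp hp5 h1
  have hpos := pos hp hp5 hb₂ hvb₂ ha₄ hN H h1
  have hlt := lt_N hp hp5 hb₂ hvb₂ ha₄ hN H h1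
  have hpos2 := pos hp hp5 hb₂ hvb₂ ha₄ hN H h2
  have hlt2 := lt_N hp hp5 hb₂ hvb₂ ha₄ hN H h2
  have hx := H.ne_zero 1 h1
  have hx2 := H.ne_zero _ h2
  have hDD := v2_D_eq hb₂ hvb₂ ha₄ hx (by omega) (by omega)
  have hne : f 1 ^ 2 - a₄ ≠ 0 := by
    intro h0
    have hd := H.dbl 1 h1
    rw [h0] at hd
    have : f (2 * 1) * (f 1 * (4 * f 1 ^ 2 + b₂ * f 1 + 4 * a₄)) ≠ 0 :=
      mul_ne_zero hx2 (mul_ne_zero hx hDD.1)
    exact this (by rw [hd]; norm_num)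
  obtain ⟨hD, hval⟩ := dbl_val hp hp5 H h1 hne
  rw [hDD.2] at hval
  have e2 : ((2 : ℕ) : ℤ) = 2 * 1 := by norm_num
  unfold CC
  rw [e2]
  rcases lt_trichotomy (2 * v2 (f 1)) (v2 a₄) with hc | hc | hc
  · have h3 := v2_sub_eq (a := f 1 ^ 2) (b := a₄) (pow_ne_zero 2 hx)
      (Dvd2.of_le (by rw [v2_sq]; omega))
    rw [v2_sq] at h3
    rw [h3.2] at hval
    omega
  · have h3 : Dvd2 (v2 a₄) (f 1 ^ 2 - a₄) :=
      Dvd2.sub (Dvd2.of_le (by rw [v2_sq]; omega)) (Dvd2.of_le le_rfl)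
    have := h3.le hne
    omega
  · have h3 := v2_sub_eq' (a := f 1 ^ 2) (b := a₄) ha₄ (Dvd2.of_le (by rw [v2_sq]; omega))
    rw [h3.2] at hval
    omega

include hp hp5 hb₂ hvb₂ ha₄ hN H in
lemma CC_step (hmin : ∀ k : ℤ, ¬ (p : ℤ) ∣ k → v2 (f 1) ≤ v2 (f k)) {k : ℕ} (hk1 : 1 ≤ k)
    (hk2 : k + 2 ≤ p - 1) (h0 : CC f a₄ k) (h1 : CC f a₄ (k + 1)) : CC f a₄ (k + 2) := by
  have d1 : ¬ (p : ℤ) ∣ 1 := not_dvd_of_pos_lt (by norm_num) (by omega)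
  have dk : ¬ (p : ℤ) ∣ (k : ℤ) := not_dvd_of_pos_lt (by omega) (by omega)
  have dk1 : ¬ (p : ℤ) ∣ ((k + 1 : ℕ) : ℤ) := not_dvd_of_pos_lt (by push_cast; omega) (by push_cast; omega)
  have dk2 : ¬ (p : ℤ) ∣ ((k + 2 : ℕ) : ℤ) := not_dvd_of_pos_lt (by push_cast; omega) (by push_cast; omega)
  have es : ((k + 1 : ℕ) : ℤ) + 1 = ((k + 2 : ℕ) : ℤ) := by push_cast; ring
  have ed : ((k + 1 : ℕ) : ℤ) - 1 = (k : ℤ) := by push_cast; ring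
  have hpr := H.prod ((k + 1 : ℕ) : ℤ) 1 dk1 d1 (by rwa [es]) (by rwa [ed])
  have hne := H.ne ((k + 1 : ℕ) : ℤ) 1 dk1 d1 (by rwa [es]) (by rwa [ed])
  rw [es, ed] at hpr
  have hY := H.ne_zero 1 d1
  have hX := H.ne_zero _ dk1
  have hZp := H.ne_zero _ dk2
  have hZm := H.ne_zero _ dk
  have hd : f ((k + 1 : ℕ) : ℤ) - f 1 ≠ 0 := sub_ne_zero.mpr hne
  have hR : f ((k + 1 : ℕ) : ℤ) * f 1 - a₄ ≠ 0 := by
    intro h0
    rw [h0] at hpr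
    have : f ((k + 2 : ℕ) : ℤ) * f (k : ℤ) * (f ((k + 1 : ℕ) : ℤ) - f 1) ^ 2 ≠ 0 :=
      mul_ne_zero (mul_ne_zero hZp hZm) (pow_ne_zero 2 hd)
    exact this (by rw [hpr]; norm_num)
  have hval := congrArg v2 hpr
  rw [v2_mul (mul_ne_zero hZp hZm) (pow_ne_zero 2 hd), v2_mul hZp hZm, v2_sq, v2_sq] at hval
  have hXY : v2 (f ((k + 1 : ℕ) : ℤ) * f 1) = v2 (f ((k + 1 : ℕ) : ℤ)) + v2 (f 1) := v2_mul hX hY
  -- all the numerical facts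
  have p1 := pos hp hp5 hb₂ hvb₂ ha₄ hN H d1
  have pk := pos hp hp5 hb₂ hvb₂ ha₄ hN H dk
  have pk1 := pos hp hp5 hb₂ hvb₂ ha₄ hN H dk1
  have pk2 := pos hp hp5 hb₂ hvb₂ ha₄ hN H dk2
  have l1 := lt_N hp hp5 hb₂ hvb₂ ha₄ hN H d1
  have lk := lt_N hp hp5 hb₂ hvb₂ ha₄ hN H dk
  have lk1 := lt_N hp hp5 hb₂ hvb₂ ha₄ hN H dk1
  have lk2 := lt_N hp hp5 hb₂ hvb₂ ha₄ hN H dk2
  have mk1 := hmin _ dk1
  obtain ⟨a0, b0⟩ := h0
  obtain ⟨a1, b1⟩ := h1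
  unfold CC
  have hα : v2 (f 1) ≤ (k : ℤ) * v2 (f 1) := by
    have : (1 : ℤ) ≤ k := by exact_mod_cast hk1
    nlinarith
  have c1 : ((k + 1 : ℕ) : ℤ) * v2 (f 1) = (k : ℤ) * v2 (f 1) + v2 (f 1) := by push_cast; ring
  have c2 : ((k + 2 : ℕ) : ℤ) * v2 (f 1) = (k : ℤ) * v2 (f 1) + 2 * v2 (f 1) := by push_cast; ring
  rw [c1] at a1 b1
  rw [c2]
  generalize (k : ℤ) * v2 (f 1) = α at *
  generalize hm : v2 (f 1) = m at *
  generalize hNN : v2 a₄ = N at *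
  generalize hek : v2 (f (k : ℤ)) = ek at *
  generalize hek1 : v2 (f ((k + 1 : ℕ) : ℤ)) = ek1 at *
  generalize hek2 : v2 (f ((k + 2 : ℕ) : ℤ)) = ek2 at *
  -- valuation of the difference
  rcases eq_or_lt_of_le mk1 with hc | hc
  · -- `e_{k+1} = m`
    have hdv : m ≤ v2 (f ((k + 1 : ℕ) : ℤ) - f 1) :=
      (Dvd2.sub (Dvd2.of_le (by omega)) (Dvd2.of_le (by omega))).le hd
    rcases lt_trichotomy (2 * m) N with hc2 | hc2 | hc2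
    · have h3 := v2_sub_eq (a := f ((k + 1 : ℕ) : ℤ) * f 1) (b := a₄) (mul_ne_zero hX hY)
        (Dvd2.of_le (by omega))
      rw [h3.2] at hval
      omega
    · omega
    · have h3 := v2_sub_eq' (a := f ((k + 1 : ℕ) : ℤ) * f 1) (b := a₄) ha₄
        (Dvd2.of_le (by omega))
      rw [h3.2] at hval
      omega
  · have hdv := (v2_sub_eq' (a := f ((k + 1 : ℕ) : ℤ)) (b := f 1) hY (Dvd2.of_le (by omega))).2
    rw [hdv] at hval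
    rcases lt_trichotomy (ek1 + m) N with hc2 | hc2 | hc2
    · have h3 := v2_sub_eq (a := f ((k + 1 : ℕ) : ℤ) * f 1) (b := a₄) (mul_ne_zero hX hY)
        (Dvd2.of_le (by omega))
      rw [h3.2] at hval
      omega
    · have h3 : Dvd2 N (f ((k + 1 : ℕ) : ℤ) * f 1 - a₄) :=
        Dvd2.sub (Dvd2.of_le (by omega)) (Dvd2.of_le (by omega))
      have := h3.le hR
      omega
    · have h3 := v2_sub_eq' (a := f ((k + 1 : ℕ) : ℤ) * f 1) (b := a₄) ha₄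
        (Dvd2.of_le (by omega))
      rw [h3.2] at hval
      omega

include hp hp5 hb₂ hvb₂ ha₄ hN H in
lemma CC_all (hmin : ∀ k : ℤ, ¬ (p : ℤ) ∣ k → v2 (f 1) ≤ v2 (f k)) (k : ℕ) (hk2 : k + 2 ≤ p - 1) :
    CC f a₄ (k + 1) ∧ CC f a₄ (k + 2) := by
  induction k with
  | zero => exact ⟨CC_one hp hp5 hb₂ hvb₂ ha₄ hN H, CC_two hp hp5 hb₂ hvb₂ ha₄ hN H⟩
  | succ k ih =>
    obtain ⟨h0, h1⟩ := ih (by omega)
    exact ⟨h1, CC_step hp hp5 hb₂ hvb₂ ha₄ hN H hmin (by omega) hk2 h0 h1⟩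

include hp hp5 hb₂ hvb₂ ha₄ hN H in
/-- with `Q` chosen of minimal valuation -/
lemma dvd_of_min (hmin : ∀ k : ℤ, ¬ (p : ℤ) ∣ k → v2 (f 1) ≤ v2 (f k)) :
    (p : ℤ) ∣ 2 * v2 a₄ := by
  obtain ⟨-, a, b⟩ := CC_all hp hp5 hb₂ hvb₂ ha₄ hN H hmin (p - 3) (by omega)
  have d1 : ¬ (p : ℤ) ∣ 1 := not_dvd_of_pos_lt (by norm_num) (by omega)
  have p1 := pos hp hp5 hb₂ hvb₂ ha₄ hN H d1
  have e : ((p - 3 + 2 : ℕ) : ℤ) = (p : ℤ) - 1 := by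
    have : p - 3 + 2 = p - 1 := by omega
    rw [this]; push_cast [Nat.cast_sub (show 1 ≤ p by omega)]; ring
  rw [e] at a b
  have hf : f ((p : ℤ) - 1) = f 1 := by
    rw [H.periodic ((p : ℤ) - 1) (-1) (by simp), H.even]
  rw [hf] at b
  have hbig : 2 * v2 (f 1) ≤ ((p : ℤ) - 1) * v2 (f 1) := by
    have : (5 : ℤ) ≤ p := by exact_mod_cast hp5
    nlinarith
  refine ⟨v2 (f 1), ?_⟩
  have c : (p : ℤ) * v2 (f 1) = ((p : ℤ) - 1) * v2 (f 1) + v2 (f 1) := by ring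
  rw [c]
  generalize ((p : ℤ) - 1) * v2 (f 1) = β at *
  omega

include hp hp5 hb₂ hvb₂ ha₄ hN H in
/-- **Main valuation theorem.** -/
theorem XSeq.dvd : (p : ℤ) ∣ 2 * v2 a₄ := by
  classical
  have hne : (Finset.Icc (1 : ℤ) ((p : ℤ) - 1)).Nonempty :=
    ⟨1, Finset.mem_Icc.mpr ⟨le_rfl, by omega⟩⟩
  obtain ⟨c, hc, hcmin⟩ := Finset.exists_min_image _ (fun k : ℤ => v2 (f k)) hne
  rw [Finset.mem_Icc] at hc
  have dc : ¬ (p : ℤ) ∣ c := not_dvd_of_pos_lt (by omega) (by omega)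
  have H' := H.scale hp dc
  refine dvd_of_min hp hp5 hb₂ hvb₂ ha₄ hN H' ?_
  intro k hk
  have hck := not_dvd_mul hp dc hk
  have hp0 : (0 : ℤ) < p := by omega
  have hr : f (c * k) = f ((c * k) % p) :=
    H.periodic _ _ (by
      have := Int.emod_add_mul_ediv (c * k) p
      exact ⟨(c * k) / p, by linarith⟩)
  have hr0 : (c * k) % p ≠ 0 := fun h => hck (Int.dvd_of_emod_eq_zero h)
  have hr1 := Int.emod_nonneg (c * k) hp0.ne'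
  have hr2 := Int.emod_lt_of_pos (c * k) hp0
  have := hcmin ((c * k) % p) (Finset.mem_Icc.mpr ⟨by omega, by omega⟩)
  simp only [mul_one]
  rw [hr]
  exact this

end main

end Fermat.Agent.S13.T2
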