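import Fermat.Agent.S13.XOnly
import Fermat.Agent.S13.XSeq

/-!
# No rational `p`-torsion on `y² + xy = x³ + a₂x² + a₄x` when `p ∤ 2 v₂(a₄)`
-/

set_option autoImplicit false

namespace Fermat.Agent.S13.T2

open WeierstrassCurve WeierstrassCurve.Affine

section

variable (W : WeierstrassCurve ℚ) (a2 a4 : ℤ) (h1 : W.a₁ = 1)
    (h2 : W.a₂ = a2) (h3 : W.a₃ = 0) (h4 : W.a₄ = a4) (h6 : W.a₆ = 0)

include h1 h3 h6 in
/-- the only point with `x = 0` is 2-torsion -/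
lemma add_self_eq_zero_of_xc_eq_zero {R : W.toAffine.Point} (hx : xc R = 0) : R + R = 0 := by
  match R with
  | .zero => rfl
  | .some x y h =>
    have hx0 : x = 0 := hx
    subst hx0
    have e := (W.toAffine.equation_iff 0 y).mp h.1
    rw [h1, h3, h6] at e
    have hy : y = 0 := by
      have : y ^ 2 = 0 := by linear_combination e
      exact pow_eq_zero_iff (by norm_num) |>.mp this
    subst hy
    apply Point.add_self_of_Y_eq
    simp [Affine.negY, h3]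

include h1 h2 h3 h4 h6 in
lemma xSeq_of_point (p : ℕ) (hp : p.Prime) (hp5 : 5 ≤ p)
    (P : W.toAffine.Point) (hP : P ≠ 0) (hpP : p • P = 0) :
    XSeq p (1 + 4 * (a2 : ℚ)) (a4 : ℚ) (fun k : ℤ => xc (k • P)) := by
  have := Fact.mk hp
  have hord : addOrderOf P = p := addOrderOf_eq_prime hpP hP
  have hz : ∀ k : ℤ, k • P = 0 ↔ (p : ℤ) ∣ k := by
    intro k
    rw [← hord]
    exact (addOrderOf_dvd_iff_zsmul_eq_zero).symm
  have hb2 : W.b₂ = 1 + 4 * (a2 : ℚ) := by rw [WeierstrassCurve.b₂, h1, h2]; ring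
  have hb4 : W.b₄ = 2 * (a4 : ℚ) := by rw [WeierstrassCurve.b₄, h1, h3, h4]; ring
  have hb6 : W.b₆ = 0 := by rw [WeierstrassCurve.b₆, h3, h6]; ring
  have hb8 : W.b₈ = -(a4 : ℚ) ^ 2 := by rw [WeierstrassCurve.b₈, h1, h2, h3, h4, h6]; ring
  have h2k : ∀ k : ℤ, ¬ (p : ℤ) ∣ k → ¬ (p : ℤ) ∣ 2 * k := fun k hk => not_dvd_two_mul hp hp5 hk
  refine ⟨?_, ?_, ?_, ?_, ?_, ?_⟩
  · intro k hk hx
    have := add_self_eq_zero_of_xc_eq_zero W h1 h3 h6 hx
    rw [← two_zsmul, smul_smul, hz] at this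
    exact h2k k hk this
  · intro j k hjk
    have : j • P = k • P := by
      rw [← sub_eq_zero, ← sub_smul, hz]; exact hjk
    simp only [this]
  · intro k
    simp only [neg_zsmul, xc_neg]
  · intro j k hj hk hs hd
    refine xc_ne_of_add_sub_ne_zero (mt (hz j).mp hj) (mt (hz k).mp hk) ?_ ?_
    · rw [← add_zsmul]; exact mt (hz _).mp hs
    · rw [← sub_smul]; exact mt (hz _).mp hd
  · intro j k hj hk hs hd
    have := xc_add_mul_xc_sub (A := j • P) (B := k • P) (mt (hz j).mp hj) (mt (hz k).mp hk)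
      (by rw [← add_zsmul]; exact mt (hz _).mp hs) (by rw [← sub_smul]; exact mt (hz _).mp hd)
    rw [← add_zsmul, ← sub_smul] at this
    have hb4' : W.toAffine.b₄ = 2 * (a4 : ℚ) := hb4
    have hb6' : W.toAffine.b₆ = 0 := hb6
    have hb8' : W.toAffine.b₈ = -(a4 : ℚ) ^ 2 := hb8
    rw [hb4', hb6', hb8'] at this
    rw [this]; ring
  · intro k hk
    have := xc_two_nsmul (A := k • P) (mt (hz k).mp hk)
      (by rw [← two_zsmul, smul_smul]; exact mt (hz _).mp (h2k k hk))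
    rw [← two_zsmul, smul_smul] at this
    have hb2' : W.toAffine.b₂ = 1 + 4 * (a2 : ℚ) := hb2
    have hb4' : W.toAffine.b₄ = 2 * (a4 : ℚ) := hb4
    have hb6' : W.toAffine.b₆ = 0 := hb6
    have hb8' : W.toAffine.b₈ = -(a4 : ℚ) ^ 2 := hb8
    rw [hb2', hb4', hb6', hb8'] at this
    linear_combination this

lemma v2_one_add_four_mul (a2 : ℤ) :
    (1 + 4 * (a2 : ℚ)) ≠ 0 ∧ v2 (1 + 4 * (a2 : ℚ)) = 0 := by
  have h := v2_add_eq (a := 1) (b := 4 * (a2 : ℚ)) one_ne_zero (by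
    by_cases h0 : (a2 : ℚ) = 0
    · exact Or.inl (by simp [h0])
    · refine Dvd2.of_le ?_
      rw [v2_mul (by norm_num) h0, v2_four]
      have : 0 ≤ v2 (a2 : ℚ) := by
        rw [v2, padicValRat.of_int]; positivity
      have h1 : v2 1 = 0 := padicValRat.one
      omega)
  have h1 : v2 1 = 0 := padicValRat.one
  rw [h1] at h
  exact h

include h1 h2 h3 h4 h6 in
/-- **No rational `p`-torsion** (`p ≥ 5` prime) on `y² + xy = x³ + a₂x² + a₄x`, `a₄` even, if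
`p ∤ 2 v₂(a₄) = v₂(Δ)`. -/
theorem no_rational_torsion_two_adic (ha4 : a4 ≠ 0)
    (heven : (2 : ℤ) ∣ a4) (p : ℕ) (hp : p.Prime) (hp5 : 5 ≤ p)
    (hnd : ¬ (p : ℤ) ∣ 2 * (padicValInt 2 a4 : ℤ))
    (P : W.toAffine.Point) (hP : P ≠ 0) (hpP : p • P = 0) : False := by
  have H := xSeq_of_point W a2 a4 h1 h2 h3 h4 h6 p hp hp5 P hP hpP
  have hb := v2_one_add_four_mul a2
  have ha : (a4 : ℚ) ≠ 0 := by exact_mod_cast ha4
  have hv : v2 (a4 : ℚ) = padicValInt 2 a4 := padicValRat.of_int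
  have hN : 1 ≤ v2 (a4 : ℚ) := by
    rw [hv]
    have : 1 ≤ padicValInt 2 a4 := by
      unfold padicValInt
      exact one_le_padicValNat_of_dvd (Int.natAbs_ne_zero.mpr ha4)
        (Int.natCast_dvd.mp (by simpa using heven))
    exact_mod_cast this
  have := XSeq.dvd hp hp5 hb.1 hb.2 ha hN H
  rw [hv] at this
  exact hnd this

/-- The statement of lemma-board item S13-T2 (the hypothesis `hint` is not needed). -/
theorem no_rational_torsion_at_two (W : WeierstrassCurve ℚ) (a2 a4 : ℤ) (h1 : W.a₁ = 1)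
    (h2 : W.a₂ = a2) (h3 : W.a₃ = 0) (h4 : W.a₄ = a4) (h6 : W.a₆ = 0) (ha4 : a4 ≠ 0)
    (heven : (2 : ℤ) ∣ a4) (p : ℕ) (hp : p.Prime) (hp5 : 5 ≤ p)
    (hnd : ¬ (p : ℤ) ∣ 2 * (padicValInt 2 a4 : ℤ))
    (_hint : ∀ x y (h : W.toAffine.Nonsingular x y), p • (Point.some x y h) = 0 →
      0 ≤ padicValRat 2 x)
    (P : W.toAffine.Point) (hP : P ≠ 0) (hpP : p • P = 0) : False :=
  no_rational_torsion_two_adic W a2 a4 h1 h2 h3 h4 h6 ha4 heven p hp hp5 hnd P hP hpP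

end

end Fermat.Agent.S13.T2
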