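import Mathlib

/-!
# 2-adic valuation calculus on `ℚ`
-/

set_option autoImplicit false

namespace Fermat.Agent.S13.T2

/-- the 2-adic valuation on `ℚ` -/
noncomputable abbrev v2 (a : ℚ) : ℤ := padicValRat 2 a

/-- `a ∈ 2^m ℤ_(2)` -/
def Dvd2 (m : ℤ) (a : ℚ) : Prop := a = 0 ∨ m ≤ v2 a

lemma v2_mul {a b : ℚ} (ha : a ≠ 0) (hb : b ≠ 0) : v2 (a * b) = v2 a + v2 b :=
  padicValRat.mul ha hb

lemma v2_sq (a : ℚ) : v2 (a ^ 2) = 2 * v2 a := by
  rw [v2, padicValRat.pow a]; norm_num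

lemma v2_four : v2 4 = 2 := by
  have : (4 : ℚ) = 2 ^ 2 := by norm_num
  have h2 : v2 2 = 1 := by
    have := padicValRat.self (p := 2) (by norm_num)
    simpa using this
  rw [this, v2_sq, h2]; norm_num

lemma v2_neg (a : ℚ) : v2 (-a) = v2 a := padicValRat.neg a

lemma Dvd2.of_le {m : ℤ} {a : ℚ} (h : m ≤ v2 a) : Dvd2 m a := Or.inr h

lemma Dvd2.le {m : ℤ} {a : ℚ} (h : Dvd2 m a) (ha : a ≠ 0) : m ≤ v2 a :=
  h.resolve_left ha

lemma Dvd2.mono {m n : ℤ} {a : ℚ} (h : Dvd2 m a) (hmn : n ≤ m) : Dvd2 n a :=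
  h.imp id (fun h => hmn.trans h)

lemma Dvd2.add {m : ℤ} {a b : ℚ} (ha : Dvd2 m a) (hb : Dvd2 m b) : Dvd2 m (a + b) := by
  rcases ha with rfl | ha
  · simpa using hb
  rcases hb with rfl | hb
  · rw [add_zero]; exact Or.inr ha
  by_cases h : a + b = 0
  · exact Or.inl h
  · exact Or.inr ((le_min ha hb).trans (padicValRat.min_le_padicValRat_add h))

lemma Dvd2.neg {m : ℤ} {a : ℚ} (ha : Dvd2 m a) : Dvd2 m (-a) := by
  rcases ha with rfl | ha
  · exact Or.inl (by simp)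
  · exact Or.inr (by rwa [v2_neg])

lemma Dvd2.sub {m : ℤ} {a b : ℚ} (ha : Dvd2 m a) (hb : Dvd2 m b) : Dvd2 m (a - b) := by
  rw [sub_eq_add_neg]; exact ha.add hb.neg

lemma Dvd2.mul {m n : ℤ} {a b : ℚ} (ha : Dvd2 m a) (hb : Dvd2 n b) : Dvd2 (m + n) (a * b) := by
  rcases ha with rfl | ha
  · exact Or.inl (by simp)
  rcases hb with rfl | hb
  · exact Or.inl (by simp)
  by_cases h0 : a = 0
  · exact Or.inl (by simp [h0])
  by_cases h1 : b = 0
  · exact Or.inl (by simp [h1])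
  · exact Or.inr (by rw [v2_mul h0 h1]; omega)

/-- dominant term -/
lemma v2_add_eq {a b : ℚ} (ha : a ≠ 0) (hb : Dvd2 (v2 a + 1) b) :
    a + b ≠ 0 ∧ v2 (a + b) = v2 a := by
  rcases hb with rfl | hb
  · simpa using ha
  by_cases hb0 : b = 0
  · subst hb0; simpa using ha
  have hne : a + b ≠ 0 := by
    intro h
    have : b = -a := by linarith
    rw [this, v2_neg] at hb
    omega
  exact ⟨hne, padicValRat.add_eq_of_lt hne ha hb0 (by change v2 a < v2 b; omega)⟩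

lemma v2_sub_eq {a b : ℚ} (ha : a ≠ 0) (hb : Dvd2 (v2 a + 1) b) :
    a - b ≠ 0 ∧ v2 (a - b) = v2 a := by
  rw [sub_eq_add_neg]; exact v2_add_eq ha hb.neg

lemma v2_sub_eq' {a b : ℚ} (hb : b ≠ 0) (ha : Dvd2 (v2 b + 1) a) :
    a - b ≠ 0 ∧ v2 (a - b) = v2 b := by
  have := v2_sub_eq hb ha
  have h2 : a - b = -(b - a) := by ring
  rw [h2, v2_neg]
  exact ⟨neg_ne_zero.mpr this.1, this.2⟩

/-- residue field `𝔽₂`: a unit plus one is even -/
lemma Dvd2_add_one_of_v2_eq_zero {q : ℚ} (hq : q ≠ 0) (h : v2 q = 0) : Dvd2 1 (q + 1) := by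
  by_cases h0 : q + 1 = 0
  · exact Or.inl h0
  right
  have hnum : q.num ≠ 0 := Rat.num_ne_zero.mpr hq
  have hden : q.den ≠ 0 := q.den_nz
  have hdef : v2 q = padicValInt 2 q.num - padicValNat 2 q.den := rfl
  have hcop := q.reduced
  -- both odd
  have hodd_den : ¬ 2 ∣ q.den := by
    intro hd
    have hn : ¬ (2 : ℤ) ∣ q.num := by
      intro hn
      have h2 : 2 ∣ q.num.natAbs := Int.natCast_dvd.mp (by simpa using hn)
      have := Nat.dvd_gcd h2 hd
      rw [hcop] at this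
      omega
    have h1 : padicValInt 2 q.num = 0 := padicValInt.eq_zero_of_not_dvd hn
    have h2 : 1 ≤ padicValNat 2 q.den := one_le_padicValNat_of_dvd hden hd
    omega
  have hden0 : padicValNat 2 q.den = 0 := padicValNat.eq_zero_of_not_dvd hodd_den
  have hodd_num : ¬ (2 : ℤ) ∣ q.num := by
    intro hn
    have : 1 ≤ padicValInt 2 q.num := by
      unfold padicValInt
      exact one_le_padicValNat_of_dvd (Int.natAbs_ne_zero.mpr hnum)
        (Int.natCast_dvd.mp (by simpa using hn))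
    omega
  have hsum : q + 1 = ((q.num + q.den : ℤ) : ℚ) / ((q.den : ℤ) : ℚ) := by
    have hd : (q.den : ℚ) ≠ 0 := by exact_mod_cast hden
    have := Rat.num_div_den q
    push_cast
    rw [add_div, this, div_self hd]
  have hs0 : ((q.num + q.den : ℤ) : ℚ) ≠ 0 := by
    intro hz
    rw [hsum, hz] at h0
    simp at h0
  have hs0' : (q.num + q.den : ℤ) ≠ 0 := by exact_mod_cast hs0
  have hd0 : (((q.den : ℤ)) : ℚ) ≠ 0 := by exact_mod_cast hden
  rw [hsum, v2, padicValRat.div hs0 hd0, padicValRat.of_int, padicValRat.of_int]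
  have h3 : padicValInt 2 (q.den : ℤ) = 0 := by
    rw [padicValInt.of_nat]; exact hden0
  have h4 : 1 ≤ padicValInt 2 (q.num + q.den) := by
    unfold padicValInt
    apply one_le_padicValNat_of_dvd (Int.natAbs_ne_zero.mpr hs0')
    apply Int.natCast_dvd.mp
    have : (2 : ℤ) ∣ q.num + q.den := by omega
    simpa using this
  omega

lemma Dvd2_sub_of_v2_eq {a b : ℚ} (ha : a ≠ 0) (hb : b ≠ 0) (h : v2 a = v2 b) :
    Dvd2 (v2 a + 1) (a - b) := by
  have hq : -(a / b) ≠ 0 := neg_ne_zero.mpr (div_ne_zero ha hb)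
  have hv : v2 (-(a / b)) = 0 := by
    rw [v2_neg, v2, padicValRat.div ha hb]; change v2 a - v2 b = 0; omega
  have h1 := Dvd2_add_one_of_v2_eq_zero hq hv
  have h2 : a - b = (-b) * (-(a / b) + 1) := by field_simp; ring
  rw [h2]
  have h3 : Dvd2 (v2 a) (-b) := Or.inr (by rw [v2_neg]; omega)
  exact h3.mul h1

end Fermat.Agent.S13.T2
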