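import Mathlib

/-!
# `x`-only formulas on Weierstrass curves

`x(A+B) x(A-B) (x_A - x_B)^2`, `(x(A+B) + x(A-B)) (x_A - x_B)^2` and `x(2A)` as polynomial
expressions in `x_A`, `x_B`, for nonsingular points of a Weierstrass curve over a field.
-/

set_option autoImplicit false
set_option linter.unusedSectionVars false

namespace Fermat.Agent.S13.T2

open WeierstrassCurve WeierstrassCurve.Affine

variable {F : Type*} [Field F] [DecidableEq F] {W : WeierstrassCurve.Affine F}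

/-- The `x`-coordinate of a point, with junk value `0` at the origin. -/
def xc : W.Point → F
  | .zero => 0
  | .some x _ _ => x

@[simp] lemma xc_some {x y : F} (h : W.Nonsingular x y) : xc (Point.some x y h) = x := rfl

@[simp] lemma xc_zero : xc (0 : W.Point) = 0 := rfl

@[simp] lemma xc_neg (A : W.Point) : xc (-A) = xc A := by
  cases A <;> rfl

/-- raw identity for the product formula -/
lemma prod_identity (a₁ a₂ a₃ a₄ a₆ x₁ y₁ x₂ y₂ : F) (hx : x₁ ≠ x₂)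
    (h₁ : y₁ ^ 2 + a₁ * x₁ * y₁ + a₃ * y₁ = x₁ ^ 3 + a₂ * x₁ ^ 2 + a₄ * x₁ + a₆)
    (h₂ : y₂ ^ 2 + a₁ * x₂ * y₂ + a₃ * y₂ = x₂ ^ 3 + a₂ * x₂ ^ 2 + a₄ * x₂ + a₆) :
    (((y₁ - y₂) / (x₁ - x₂)) ^ 2 + a₁ * ((y₁ - y₂) / (x₁ - x₂)) - a₂ - x₁ - x₂) *
    (((y₁ - (-y₂ - a₁ * x₂ - a₃)) / (x₁ - x₂)) ^ 2 + a₁ * ((y₁ - (-y₂ - a₁ * x₂ - a₃)) / (x₁ - x₂))
      - a₂ - x₁ - x₂) * (x₁ - x₂) ^ 2 =
    (x₁ * x₂) ^ 2 - (2 * a₄ + a₁ * a₃) * (x₁ * x₂) - (a₃ ^ 2 + 4 * a₆) * (x₁ + x₂)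
      - (a₁ ^ 2 * a₆ + 4 * a₂ * a₆ - a₁ * a₃ * a₄ + a₂ * a₃ ^ 2 - a₄ ^ 2) := by
  have hd : x₁ - x₂ ≠ 0 := sub_ne_zero.mpr hx
  field_simp
  grind

/-- raw identity for the sum formula -/
lemma sum_identity (a₁ a₂ a₃ a₄ a₆ x₁ y₁ x₂ y₂ : F) (hx : x₁ ≠ x₂)
    (h₁ : y₁ ^ 2 + a₁ * x₁ * y₁ + a₃ * y₁ = x₁ ^ 3 + a₂ * x₁ ^ 2 + a₄ * x₁ + a₆)
    (h₂ : y₂ ^ 2 + a₁ * x₂ * y₂ + a₃ * y₂ = x₂ ^ 3 + a₂ * x₂ ^ 2 + a₄ * x₂ + a₆) :
    ((((y₁ - y₂) / (x₁ - x₂)) ^ 2 + a₁ * ((y₁ - y₂) / (x₁ - x₂)) - a₂ - x₁ - x₂) +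
    (((y₁ - (-y₂ - a₁ * x₂ - a₃)) / (x₁ - x₂)) ^ 2 + a₁ * ((y₁ - (-y₂ - a₁ * x₂ - a₃)) / (x₁ - x₂))
      - a₂ - x₁ - x₂)) * (x₁ - x₂) ^ 2 =
    2 * (x₁ + x₂) * (x₁ * x₂) + (a₁ ^ 2 + 4 * a₂) * (x₁ * x₂) + (2 * a₄ + a₁ * a₃) * (x₁ + x₂)
      + (a₃ ^ 2 + 4 * a₆) := by
  have hd : x₁ - x₂ ≠ 0 := sub_ne_zero.mpr hx
  field_simp
  grind

/-- raw identity for the duplication formula -/
lemma dbl_identity (a₁ a₂ a₃ a₄ a₆ x y : F) (hy : y ≠ -y - a₁ * x - a₃)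
    (h : y ^ 2 + a₁ * x * y + a₃ * y = x ^ 3 + a₂ * x ^ 2 + a₄ * x + a₆) :
    (((3 * x ^ 2 + 2 * a₂ * x + a₄ - a₁ * y) / (y - (-y - a₁ * x - a₃))) ^ 2
      + a₁ * ((3 * x ^ 2 + 2 * a₂ * x + a₄ - a₁ * y) / (y - (-y - a₁ * x - a₃))) - a₂ - x - x) *
      (4 * x ^ 3 + (a₁ ^ 2 + 4 * a₂) * x ^ 2 + 2 * (2 * a₄ + a₁ * a₃) * x + (a₃ ^ 2 + 4 * a₆)) =
    x ^ 4 - (2 * a₄ + a₁ * a₃) * x ^ 2 - 2 * (a₃ ^ 2 + 4 * a₆) * x
      - (a₁ ^ 2 * a₆ + 4 * a₂ * a₆ - a₁ * a₃ * a₄ + a₂ * a₃ ^ 2 - a₄ ^ 2) := by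
  have hd : y - (-y - a₁ * x - a₃) ≠ 0 := sub_ne_zero.mpr hy
  generalize hdd : y - (-y - a₁ * x - a₃) = d at hd
  have h4 : (4 * x ^ 3 + (a₁ ^ 2 + 4 * a₂) * x ^ 2 + 2 * (2 * a₄ + a₁ * a₃) * x + (a₃ ^ 2 + 4 * a₆))
      = d ^ 2 := by
    rw [← hdd]; linear_combination (-4 : F) * h
  rw [h4]
  field_simp
  subst hdd
  grind

/-- If `A, B, A + B, A - B` are all nonzero then `x_A ≠ x_B`. -/
lemma xc_ne_of_add_sub_ne_zero {A B : W.Point} (hA : A ≠ 0) (hB : B ≠ 0) (hs : A + B ≠ 0)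
    (hd : A - B ≠ 0) : xc A ≠ xc B := by
  match A, B with
  | .zero, _ => exact absurd rfl hA
  | _, .zero => exact absurd rfl hB
  | .some x₁ y₁ h₁, .some x₂ y₂ h₂ =>
    intro hx
    rcases (Point.X_eq_iff (h₁ := h₁) (h₂ := h₂)).mp hx with h | h
    · exact hd (by rw [h, sub_self])
    · exact hs (by rw [h, neg_add_cancel])

/-- **Product formula.** -/
theorem xc_add_mul_xc_sub {A B : W.Point} (hA : A ≠ 0) (hB : B ≠ 0) (hs : A + B ≠ 0)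
    (hd : A - B ≠ 0) :
    xc (A + B) * xc (A - B) * (xc A - xc B) ^ 2 =
      (xc A * xc B) ^ 2 - W.b₄ * (xc A * xc B) - W.b₆ * (xc A + xc B) - W.b₈ := by
  have hne := xc_ne_of_add_sub_ne_zero hA hB hs hd
  match A, B with
  | .zero, _ => exact absurd rfl hA
  | _, .zero => exact absurd rfl hB
  | .some x₁ y₁ h₁, .some x₂ y₂ h₂ =>
    have hx : x₁ ≠ x₂ := hne
    rw [sub_eq_add_neg, Point.neg_some, Point.add_of_X_ne hx, Point.add_of_X_ne hx]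
    simp only [xc_some]
    have e₁ := (W.equation_iff x₁ y₁).mp h₁.1
    have e₂ := (W.equation_iff x₂ y₂).mp h₂.1
    have := prod_identity W.a₁ W.a₂ W.a₃ W.a₄ W.a₆ x₁ y₁ x₂ y₂ hx e₁ e₂
    simp only [Affine.addX, Affine.slope_of_X_ne hx, Affine.negY, WeierstrassCurve.b₄,
      WeierstrassCurve.b₆, WeierstrassCurve.b₈]
    exact this

/-- **Sum formula.** -/
theorem xc_add_add_xc_sub {A B : W.Point} (hA : A ≠ 0) (hB : B ≠ 0) (hs : A + B ≠ 0)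
    (hd : A - B ≠ 0) :
    (xc (A + B) + xc (A - B)) * (xc A - xc B) ^ 2 =
      2 * (xc A + xc B) * (xc A * xc B) + W.b₂ * (xc A * xc B) + W.b₄ * (xc A + xc B) + W.b₆ := by
  have hne := xc_ne_of_add_sub_ne_zero hA hB hs hd
  match A, B with
  | .zero, _ => exact absurd rfl hA
  | _, .zero => exact absurd rfl hB
  | .some x₁ y₁ h₁, .some x₂ y₂ h₂ =>
    have hx : x₁ ≠ x₂ := hne
    rw [sub_eq_add_neg, Point.neg_some, Point.add_of_X_ne hx, Point.add_of_X_ne hx]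
    simp only [xc_some]
    have e₁ := (W.equation_iff x₁ y₁).mp h₁.1
    have e₂ := (W.equation_iff x₂ y₂).mp h₂.1
    have := sum_identity W.a₁ W.a₂ W.a₃ W.a₄ W.a₆ x₁ y₁ x₂ y₂ hx e₁ e₂
    simp only [Affine.addX, Affine.slope_of_X_ne hx, Affine.negY, WeierstrassCurve.b₂,
      WeierstrassCurve.b₄, WeierstrassCurve.b₆]
    exact this

/-- **Duplication formula.** -/
theorem xc_two_nsmul {A : W.Point} (hA : A ≠ 0) (h2 : A + A ≠ 0) :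
    xc (A + A) * (4 * xc A ^ 3 + W.b₂ * xc A ^ 2 + 2 * W.b₄ * xc A + W.b₆) =
      xc A ^ 4 - W.b₄ * xc A ^ 2 - 2 * W.b₆ * xc A - W.b₈ := by
  match A with
  | .zero => exact absurd rfl hA
  | .some x y h =>
    have hy : y ≠ W.negY x y := fun hy => h2 (Point.add_self_of_Y_eq hy)
    rw [Point.add_self_of_Y_ne hy]
    simp only [xc_some]
    have e := (W.equation_iff x y).mp h.1
    have := dbl_identity W.a₁ W.a₂ W.a₃ W.a₄ W.a₆ x y hy e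
    simp only [Affine.addX, Affine.slope_of_Y_ne rfl hy, Affine.negY, WeierstrassCurve.b₂,
      WeierstrassCurve.b₄, WeierstrassCurve.b₆, WeierstrassCurve.b₈]
    exact this

end Fermat.Agent.S13.T2
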